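import Fermat.Agent.Levinson.Companion
import Fermat.Agent.ExplicitFormula.Digamma

/-!
# `Γ'/Γ` up to `O (1 / |im z|)`

`Γ'/Γ z = log z + O (1 / |im z|)` in `re z > 0`, and so
`Γℝ'/Γℝ (s) + Γℝ'/Γℝ (1 - s) = log (|im s| / 2π) + O (1 / |im s|)` in every strip near the
critical one.
-/

set_option autoImplicit false

noncomputable section

namespace FA.TwistedMoment

open Complex Filter Topology Finset FA.Levinson
open scoped Real

/-- One step of `Γ'/Γ z = log z + O (1 / |im z|)`. -/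
theorem norm_log_step_le {z : ℂ} (hz : 0 < z.re) (k : ℕ) :
    ‖Complex.log (z + (k + 1)) - Complex.log (z + k) - (z + (k + 1))⁻¹‖ ≤
      1 / ((z.re + k) ^ 2 + z.im ^ 2) := by
  obtain ⟨a, ha⟩ : ∃ a : ℂ, a = z + (k + 1) := ⟨_, rfl⟩
  rw [← ha]
  obtain ⟨f, hf⟩ : ∃ f : ℝ → ℂ, f = fun u : ℝ => Complex.log (z + k + u) - (u : ℂ) * a⁻¹ :=
    ⟨_, rfl⟩
  have hk : (0 : ℝ) ≤ k := Nat.cast_nonneg k
  have hre : ∀ u : ℝ, 0 ≤ u → 0 < (z + (k : ℂ) + (u : ℂ)).re := fun u hu => by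
    simp only [add_re, natCast_re, ofReal_re]
    linarith
  have hd : ∀ u ∈ Set.Icc (0 : ℝ) 1,
      HasDerivWithinAt f ((z + (k : ℂ) + (u : ℂ))⁻¹ - a⁻¹) (Set.Icc 0 1) u := fun u hu => by
    rw [hf]
    refine (((((hasDerivAt_id' (u : ℂ)).const_add (z + k)).comp_ofReal).clog_real
      (Or.inl (hre u hu.1))).sub (((hasDerivAt_id' (u : ℂ)).mul_const a⁻¹).comp_ofReal)
        ).hasDerivWithinAt.congr_deriv ?_
    simp only [one_div, one_mul]
  have hbd : ∀ u ∈ Set.Ico (0 : ℝ) 1,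
      ‖(z + (k : ℂ) + (u : ℂ))⁻¹ - a⁻¹‖ ≤ 1 / ((z.re + k) ^ 2 + z.im ^ 2) := fun u hu => by
    have h0 : z + (k : ℂ) + (u : ℂ) ≠ 0 := fun h => by
      have := hre u hu.1
      rw [h, zero_re] at this
      exact lt_irrefl _ this
    have ha0 : a ≠ 0 := fun h => by
      have h1 := congrArg Complex.re h
      simp [ha] at h1
      linarith
    have low : ∀ v : ℝ, 0 ≤ v →
        √((z.re + k) ^ 2 + z.im ^ 2) ≤ ‖z + (k : ℂ) + (v : ℂ)‖ := fun v hv => by
      rw [Complex.norm_def, normSq_apply]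
      refine Real.sqrt_le_sqrt ?_
      simp only [add_re, natCast_re, ofReal_re, add_im, natCast_im, ofReal_im, add_zero]
      nlinarith
    have hs : 0 < √((z.re + k) ^ 2 + z.im ^ 2) := Real.sqrt_pos.2 (by positivity)
    rw [inv_sub_inv h0 ha0, norm_div, norm_mul,
      show a - (z + (k : ℂ) + (u : ℂ)) = ((1 - u : ℝ) : ℂ) by rw [ha]; push_cast; ring,
      Complex.norm_real, Real.norm_of_nonneg (by linarith [hu.2])]
    refine div_le_div₀ zero_le_one (by linarith [hu.1]) (by positivity) ?_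
    refine le_trans ?_ (mul_le_mul (low u hu.1) ((low 1 zero_le_one).trans (le_of_eq ?_)) hs.le
      (norm_nonneg _))
    · rw [Real.mul_self_sqrt (by positivity)]
    · rw [ha]
      congr 1
      push_cast
      ring
  have h := norm_image_sub_le_of_norm_deriv_le_segment_01' hd hbd
  refine le_trans (le_of_eq ?_) h
  rw [hf, ha]
  simp only [ofReal_zero, ofReal_one, add_zero, zero_mul, sub_zero, one_mul]
  rw [add_assoc]
  congr 1
  ring

/-- **`Γ'/Γ z = log z + O (1 / |im z|)`.** -/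
theorem norm_digamma_sub_clog_le {z : ℂ} (hz : 0 < z.re) (hy : 2 ≤ |z.im|) :
    ‖deriv Complex.Gamma z / Complex.Gamma z - Complex.log z‖ ≤ 5 / |z.im| := by
  obtain ⟨e, he⟩ : ∃ e : ℕ → ℂ, e = fun k : ℕ =>
      Complex.log (z + (k + 1)) - Complex.log (z + k) - (z + (k + 1))⁻¹ := ⟨_, rfl⟩
  obtain ⟨y, hy'⟩ : ∃ y, y = |z.im| := ⟨_, rfl⟩
  rw [← hy'] at hy ⊢
  have hsq : y ^ 2 = z.im ^ 2 := by rw [hy', sq_abs]
  have hbound : ∀ N : ℕ, ‖∑ k ∈ range N, e k‖ ≤ 4 / y := fun N => by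
    refine (norm_sum_le_of_le _ (n := fun k : ℕ =>
      2 / ((k : ℝ) + y - 1) - 2 / (((k + 1 : ℕ) : ℝ) + y - 1)) fun k _ => ?_).trans ?_
    · rw [he]
      refine (norm_log_step_le hz k).trans ?_
      have hk : (0 : ℝ) ≤ k := Nat.cast_nonneg k
      have h1 : 0 < (k : ℝ) + y - 1 := by linarith
      push_cast
      rw [div_sub_div _ _ h1.ne' (by linarith), div_le_div_iff₀ (by positivity) (by nlinarith)]
      nlinarith [sq_nonneg ((k : ℝ) - y), mul_nonneg hz.le hk]
    · rw [sum_range_sub' (fun k : ℕ => 2 / ((k : ℝ) + y - 1))]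
      have h1 : 0 ≤ 2 / ((N : ℝ) + y - 1) :=
        div_nonneg zero_le_two (by linarith [(Nat.cast_nonneg N : (0 : ℝ) ≤ N)])
      have h2 : 2 / (y - 1) ≤ 4 / y := by
        rw [div_le_div_iff₀ (by linarith) (by linarith)]
        linarith
      simp only [Nat.cast_zero, zero_add]
      linarith
  have hlogs : ∀ N : ℕ, ∑ k ∈ range N,
      (((Real.log (1 + 1 / (k + 1)) : ℝ) : ℂ) - (z + (k + 1))⁻¹) =
      (∑ k ∈ range N, e k) + Complex.log z +
        (((Real.log (N + 1) : ℝ) : ℂ) - Complex.log (z + N)) := fun N => by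
    induction N with
    | zero => simp
    | succ m ih =>
      rw [sum_range_succ, ih, sum_range_succ, he]
      have h1 : Real.log (1 + 1 / ((m : ℝ) + 1)) = Real.log ((m : ℝ) + 1 + 1) -
          Real.log ((m : ℝ) + 1) := by
        rw [← Real.log_div (by positivity) (by positivity)]
        congr 1
        field_simp
      rw [h1]
      push_cast
      ring
  have hlim : Tendsto (fun N : ℕ => ((Real.log (N + 1) : ℝ) : ℂ) - Complex.log (z + N)) atTop
      (𝓝 0) := by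
    have h1 : Tendsto (fun N : ℕ => (z + N) / ((N : ℂ) + 1)) atTop (𝓝 1) := by
      have h3 : Tendsto (fun N : ℕ => 1 + (z - 1) * ((1 : ℂ) / ((N : ℂ) + 1))) atTop
          (𝓝 (1 + (z - 1) * 0)) :=
        (tendsto_one_div_add_atTop_nhds_zero_nat.const_mul (z - 1)).const_add 1
      rw [mul_zero, add_zero] at h3
      refine h3.congr fun N => ?_
      have : ((N : ℂ) + 1) ≠ 0 := Nat.cast_add_one_ne_zero N
      field_simp
      ring
    have h2 := (continuousAt_clog Complex.one_mem_slitPlane).tendsto.comp h1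
    rw [Complex.log_one] at h2
    have h4 := h2.neg
    rw [neg_zero] at h4
    refine h4.congr fun N => ?_
    have hN : (0 : ℝ) < ((N : ℝ) + 1)⁻¹ := by positivity
    have hzN : z + (N : ℂ) ≠ 0 := fun h => by
      have := congrArg Complex.re h
      simp at this
      linarith [(Nat.cast_nonneg N : (0 : ℝ) ≤ N)]
    rw [Function.comp_apply, show (z + N) / ((N : ℂ) + 1) =
        ((((N : ℝ) + 1)⁻¹ : ℝ) : ℂ) * (z + N) by push_cast; ring,
      Complex.log_ofReal_mul hN hzN, Real.log_inv]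
    push_cast
    ring
  have hS := ((FA.ExplicitFormula.hasSum_digamma hz).tendsto_sum_nat.congr hlogs).sub hlim
  simp only [add_sub_cancel_right, sub_zero] at hS
  have hS' := (hS.sub_const (Complex.log z)).norm
  simp only [add_sub_cancel_right] at hS'
  have h1 := le_of_tendsto' hS' hbound
  have h2 : ‖z⁻¹‖ ≤ 1 / y := by
    rw [norm_inv, ← one_div, hy']
    exact one_div_le_one_div_of_le (by linarith) (abs_im_le_norm z)
  have e1 : deriv Complex.Gamma z / Complex.Gamma z - Complex.log z =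
      (deriv Complex.Gamma z / Complex.Gamma z + z⁻¹ - Complex.log z) - z⁻¹ := by ring
  rw [e1]
  refine (norm_sub_le _ _).trans ((add_le_add h1 h2).trans (le_of_eq ?_))
  ring

/-- The logarithm near the imaginary axis. -/
theorem norm_log_sub_axis_le {r y : ℝ} (hr : 0 ≤ r) (hy : y ≠ 0) :
    ‖Complex.log ((r : ℂ) + y * I) - Complex.log ((y : ℂ) * I)‖ ≤ r / |y| := by
  obtain ⟨f, hf⟩ : ∃ f : ℝ → ℂ, f = fun u : ℝ => Complex.log (((r * u : ℝ) : ℂ) + y * I) :=
    ⟨_, rfl⟩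
  have hd : ∀ u ∈ Set.Icc (0 : ℝ) 1,
      HasDerivWithinAt f ((r : ℂ) / (((r * u : ℝ) : ℂ) + y * I)) (Set.Icc 0 1) u := fun u _ => by
    rw [hf]
    exact (((((hasDerivAt_id' u).const_mul r).ofReal_comp.add_const ((y : ℂ) * I))).clog_real
      (Or.inr (by simpa using hy))).hasDerivWithinAt.congr_deriv (by simp)
  have hbd : ∀ u ∈ Set.Ico (0 : ℝ) 1,
      ‖(r : ℂ) / (((r * u : ℝ) : ℂ) + y * I)‖ ≤ r / |y| := fun u _ => by
    rw [norm_div, Complex.norm_real, Real.norm_of_nonneg hr]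
    refine div_le_div_of_nonneg_left hr (abs_pos.2 hy) (le_trans ?_ (abs_im_le_norm _))
    simp
  have h := norm_image_sub_le_of_norm_deriv_le_segment_01' hd hbd
  simpa [hf] using h

/-- `Γℝ'/Γℝ s = (log (|y| / 2π) ± iπ/2) / 2 + O (1 / |y|)`. -/
theorem norm_gammaLog_sub_clog_le {s : ℂ} (h1 : -3 ≤ s.re) (h2 : s.re ≤ 4) (hy : 8 ≤ |s.im|) :
    ‖gammaLog s - (Complex.log ((s.im / 2 : ℝ) * I) - ((Real.log π : ℝ) : ℂ)) / 2‖ ≤
      20 / |s.im| := by
  obtain ⟨y, hy'⟩ : ∃ y, y = |s.im| := ⟨_, rfl⟩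
  rw [← hy'] at hy ⊢
  have him : ∀ a : ℂ, a.im = 0 → (s + a).im ≠ 0 := fun a ha h => by
    rw [add_im, ha, add_zero] at h
    rw [h, abs_zero] at hy'
    linarith
  have hs : s.im ≠ 0 := by simpa using him 0 rfl
  have e : gammaLog s = gammaLog (s + 4) - 1 / s - 1 / (s + 2) := by
    rw [show s + 4 = s + 2 + 2 by ring, gammaLog_add_two (him 2 (by simp)), gammaLog_add_two hs]
    ring
  have hinv : ∀ a : ℂ, a.im = 0 → ‖1 / (s + a)‖ ≤ 1 / y := fun a ha => by
    rw [norm_div, norm_one]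
    refine one_div_le_one_div_of_le (by linarith) ?_
    have := abs_im_le_norm (s + a)
    rwa [add_im, ha, add_zero, ← hy'] at this
  have i0 : ‖1 / s‖ ≤ 1 / y := by simpa using hinv 0 rfl
  have i2 := hinv 2 (by simp)
  have hψ := norm_digamma_sub_clog_le (z := (s + 4) / 2) (by simp; linarith)
    (by simp [abs_div]; linarith)
  rw [show |((s + 4) / 2).im| = y / 2 by simp [abs_div, hy']] at hψ
  have hlog := norm_log_sub_axis_le (r := (s.re + 4) / 2) (y := s.im / 2) (by linarith)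
    (div_ne_zero hs two_ne_zero)
  rw [show (((s.re + 4) / 2 : ℝ) : ℂ) + ((s.im / 2 : ℝ) : ℂ) * I = (s + 4) / 2 from
    Complex.ext (by simp) (by simp), show |s.im / 2| = y / 2 by simp [abs_div, hy']] at hlog
  rw [e, gammaLog_eq_digamma (s := s + 4) (by simp; linarith)]
  generalize deriv Complex.Gamma ((s + 4) / 2) / Complex.Gamma ((s + 4) / 2) = ψ at hψ
  rw [show -((Real.log π : ℝ) : ℂ) / 2 + ψ / 2 - 1 / s - 1 / (s + 2) -
      (Complex.log ((s.im / 2 : ℝ) * I) - ((Real.log π : ℝ) : ℂ)) / 2 =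
      ((ψ - Complex.log ((s + 4) / 2)) + (Complex.log ((s + 4) / 2) -
        Complex.log ((s.im / 2 : ℝ) * I))) / 2 - 1 / s - 1 / (s + 2) by ring]
  refine (norm_sub_le _ _).trans ((add_le_add (norm_sub_le _ _) le_rfl).trans ?_)
  rw [norm_div, Complex.norm_two]
  have hh := norm_add_le (ψ - Complex.log ((s + 4) / 2))
    (Complex.log ((s + 4) / 2) - Complex.log ((s.im / 2 : ℝ) * I))
  have h4 : (s.re + 4) / 2 / (y / 2) ≤ 8 / y := by
    rw [div_div_div_cancel_right₀ two_ne_zero]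
    exact div_le_div_of_nonneg_right (by linarith) (by linarith)
  have h5 : 5 / (y / 2) = 10 / y := by ring
  have h6 : 1 / y + 1 / y + (10 / y + 8 / y) / 2 ≤ 20 / y := by
    rw [show 1 / y + 1 / y + (10 / y + 8 / y) / 2 = 11 / y by ring]
    exact div_le_div_of_nonneg_right (by norm_num) (by linarith)
  linarith

/-- **`Γℝ'/Γℝ (s) + Γℝ'/Γℝ (1 - s) = log (y / 2π) + O (1 / y)`.** -/
theorem norm_lvD_sub_sharp {s : ℂ} (h1 : -3 ≤ s.re) (h2 : s.re ≤ 4) (hy : 8 ≤ s.im) :
    ‖lvD s - ((Real.log (s.im / (2 * π)) : ℝ) : ℂ)‖ ≤ 40 / s.im := by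
  have habs : |s.im| = s.im := abs_of_nonneg (by linarith)
  have a := norm_gammaLog_sub_clog_le h1 h2 (by rwa [habs])
  have b := norm_gammaLog_sub_clog_le (s := 1 - s) (by simp; linarith) (by simp; linarith)
    (by simpa [habs] using hy)
  rw [habs] at a
  rw [show |(1 - s).im| = s.im by simp [habs], show (1 - s).im = -s.im by simp] at b
  have hp : 0 < s.im / 2 := by linarith
  have e1 : Complex.log ((s.im / 2 : ℝ) * I) =
      ((Real.log (s.im / 2) : ℝ) : ℂ) + (π : ℂ) / 2 * I := by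
    rw [Complex.log_ofReal_mul hp I_ne_zero, Complex.log_I]
  have e2 : Complex.log ((-s.im / 2 : ℝ) * I) =
      ((Real.log (s.im / 2) : ℝ) : ℂ) + -((π : ℂ) / 2) * I := by
    rw [show ((-s.im / 2 : ℝ) : ℂ) * I = ((s.im / 2 : ℝ) : ℂ) * -I by push_cast; ring,
      Complex.log_ofReal_mul hp (neg_ne_zero.2 I_ne_zero), Complex.log_neg_I]
  rw [e1] at a
  rw [e2] at b
  have e3 : Real.log (s.im / (2 * π)) = Real.log (s.im / 2) - Real.log π := by
    rw [← Real.log_div hp.ne' Real.pi_ne_zero]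
    ring_nf
  rw [e3, lvD]
  have hh := norm_add_le_of_le a b
  refine le_trans (le_of_eq ?_) (hh.trans (le_of_eq (by ring)))
  congr 1
  push_cast
  ring

end FA.TwistedMoment

end
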