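import Fermat.Agent.TwistedMoment.PairSum
import Fermat.Agent.FourthMoment.SquareIdentity

/-!
# The diagonal series

`∑ cutoff (2 log j - ℓ) j^(-1-γ) = ζ (1 + γ) - e^(-γℓ/2) g₀ (γ/2) / γ + O (e^(-ℓ/4))`.
-/

set_option autoImplicit false

noncomputable section

namespace FA.TwistedMoment

open Complex Filter MeasureTheory Set
open FA.SelbergCLT
open FA.FourthMoment (wt differentiable_wt norm_wt_le two_growDeg_le)
open scoped Topology Real

/-- The sum cut at `j = e^(ℓ/2)`. -/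
def diagSeries (M : ℕ) (γ : ℂ) (ℓ : ℝ) : ℂ :=
  ∑ j ∈ Finset.Icc 1 M, cutoff (2 * Real.log j - ℓ) * (j : ℂ) ^ (-(1 + γ))

theorem norm_kern_zeta_bound {γ : ℂ} (hγ : ‖γ‖ ≤ 1 / 10) {u : ℝ}
    (hu : u ∈ Icc (-(1 / 4) : ℝ) (1 / 4)) (v : ℝ) :
    ‖riemannZeta₁ (1 + γ + 2 * ((u : ℂ) + v * I))‖ ≤
      Real.exp growDeg * 4 ^ growDeg * (1 + |v|) ^ growDeg := by
  have gr := abs_le.1 ((abs_re_le_norm γ).trans hγ)
  have gi := abs_le.1 ((abs_im_le_norm γ).trans hγ)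
  refine (norm_riemannZeta₁_le ⟨by simp; linarith [hu.1], by simp; linarith [hu.2]⟩).trans ?_
  rw [mul_assoc, ← mul_pow]
  refine mul_le_mul_of_nonneg_left (pow_le_pow_left₀ (by positivity) ?_ _) (Real.exp_pos _).le
  simp
  rw [← le_sub_iff_add_le, abs_le]
  constructor <;> linarith [le_abs_self v, neg_abs_le v, abs_nonneg v]

/-- The series on the right line. -/
theorem integral_diagLine {M : ℕ} {ℓ : ℝ} (hM : Real.exp ((ℓ + 1 / 10) / 2) ≤ M) {γ : ℂ}
    (hγ : ‖γ‖ ≤ 1 / 10) :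
    ∫ v : ℝ, riemannZeta (1 + γ + 2 * (((1 / 4 : ℝ) : ℂ) + v * I)) * kern (1 / 4) (-ℓ) v =
      (2 * π : ℂ) * diagSeries M γ ℓ := by
  obtain ⟨F, hF⟩ : ∃ F : ℕ → ℝ → ℂ, F = fun (j : ℕ) (v : ℝ) =>
      ((j + 1 : ℕ) : ℂ) ^ (-(1 + γ)) *
        kern (1 / 4) (2 * Real.log ((j + 1 : ℕ) : ℝ) - ℓ) v := ⟨_, rfl⟩
  have hsplit : ∀ (j : ℕ) (v : ℝ), F j v =
      ((j + 1 : ℕ) : ℂ) ^ (-(1 + γ + 2 * (((1 / 4 : ℝ) : ℂ) + v * I))) *
        kern (1 / 4) (-ℓ) v := fun j v => by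
    simp only [hF, kern, natCast_cpow_eq_exp j.succ_pos]
    rw [mul_div_assoc', mul_div_assoc']
    congr 1
    simp only [← mul_assoc, ← Complex.exp_add]
    congr 2
    push_cast
    ring
  have hre : ∀ v : ℝ, 6 / 5 ≤ (1 + γ + 2 * (((1 / 4 : ℝ) : ℂ) + v * I)).re := fun v => by
    have := (abs_le.1 ((abs_re_le_norm γ).trans hγ)).1
    simp
    linarith
  have hsum := summable_powSum (show (1 : ℝ) < 6 / 5 by norm_num)
  obtain ⟨D, hD⟩ : ∃ D, D = Real.exp (-(-ℓ) * (1 / 4) + |(1 / 4 : ℝ)| / 10) * kernelConst /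
      |(1 / 4 : ℝ)| := ⟨_, rfl⟩
  have hbound : ∀ (j : ℕ) (v : ℝ),
      ‖F j v‖ ≤ ((j : ℝ) + 1) ^ (-(6 / 5 : ℝ)) * (D * decay kernelDeg v) := fun j v => by
    rw [hsplit, norm_mul, hD]
    refine mul_le_mul ?_ (norm_kern_le (by norm_num) _ v) (norm_nonneg _) (by positivity)
    rw [Nat.cast_add, Nat.cast_one, norm_add_one_cpow, neg_re]
    exact Real.rpow_le_rpow_of_exponent_le (by linarith [(Nat.cast_nonneg j : (0 : ℝ) ≤ j)])
      (by linarith [hre v])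
  have hint : ∀ j, Integrable (F j) := fun j => by
    rw [hF]
    exact (integrable_kern (by norm_num) _).const_mul _
  have hS : Summable fun j => ∫ v, ‖F j v‖ := by
    refine Summable.of_nonneg_of_le (fun j => integral_nonneg fun v => norm_nonneg _)
      (fun j => integral_mono (hint j).norm
        (((integrable_decay two_le_kernelDeg).const_mul D).const_mul _) (hbound j)) ?_
    simp only [integral_const_mul]
    exact hsum.mul_right _
  have e : ∀ v : ℝ, riemannZeta (1 + γ + 2 * (((1 / 4 : ℝ) : ℂ) + v * I)) * kern (1 / 4) (-ℓ) v =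
      ∑' j, F j v := fun v => by
    rw [zeta_eq_tsum_one_div_nat_add_one_cpow (by linarith [hre v]), ← tsum_mul_right]
    refine tsum_congr fun j => ?_
    rw [hsplit]
    simp only [one_div, ← cpow_neg, Nat.cast_add, Nat.cast_one]
  simp only [e]
  rw [← integral_tsum_of_summable_integral_norm hint hS, hF]
  simp only [integral_const_mul]
  have hcut : ∀ b, (∫ v, kern (1 / 4) b v) = (2 * π : ℂ) * cutoff b := fun b => by
    rw [cutoff_eq (show (0 : ℝ) < 1 / 4 by norm_num), mul_inv_cancel_left₀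
      (mul_ne_zero two_ne_zero (ofReal_ne_zero.2 Real.pi_ne_zero))]
  simp only [hcut]
  rw [tsum_eq_sum (s := Finset.range M) fun j hj => ?_, diagSeries, Finset.mul_sum,
    ← sum_range_succ_eq_Icc]
  · exact Finset.sum_congr rfl fun j _ => by ring
  · rw [Finset.mem_range, not_lt] at hj
    have h1 : (ℓ + 1 / 10) / 2 ≤ Real.log (j + 1 : ℕ) := by
      rw [Real.le_log_iff_exp_le (Nat.cast_pos.2 j.succ_pos)]
      exact hM.trans (Nat.cast_le.2 (hj.trans (Nat.le_succ j)))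
    rw [cutoff_eq_zero (by linarith), mul_zero, mul_zero]

/-- **The diagonal series.** -/
theorem exists_diagSeries_sub_le : ∃ C, 0 ≤ C ∧ ∀ (M : ℕ) (γ : ℂ) (ℓ : ℝ), γ ≠ 0 →
    ‖γ‖ ≤ 1 / 10 → Real.exp ((ℓ + 1 / 10) / 2) ≤ M →
    ‖diagSeries M γ ℓ - (riemannZeta (1 + γ) - cexp (-γ / 2 * ℓ) * g₀ (γ / 2) / γ)‖ ≤
      C * Real.exp (-ℓ / 4) := by
  have hK := zero_le_one.trans one_le_kernelConst
  have hgd : growDeg ≤ kernelDeg := by have := growDeg_add_le; omega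
  have hm : 2 ≤ kernelDeg - growDeg := by have := growDeg_add_le; omega
  obtain ⟨J, hJ⟩ : ∃ J, J = ∫ v, decay (kernelDeg - growDeg) v := ⟨_, rfl⟩
  have hJ0 : 0 ≤ J := hJ ▸ integral_nonneg fun v => decay_nonneg _ v
  refine ⟨Real.exp growDeg * 4 ^ growDeg * (kernelConst * 30) * J,
    mul_nonneg (mul_nonneg (mul_nonneg (Real.exp_pos _).le (pow_nonneg (by norm_num) _))
      (mul_nonneg hK (by norm_num))) hJ0,
    fun M γ ℓ hγ0 hγ hM => ?_⟩
  obtain ⟨Φ, hΦ⟩ : ∃ Φ : ℂ → ℂ, Φ = fun w => riemannZeta₁ (1 + γ + 2 * w) * wt ℓ w := ⟨_, rfl⟩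
  have hd : Differentiable ℂ Φ := hΦ ▸ (differentiable_riemannZeta₁.comp
    ((differentiable_id.const_mul 2).const_add _)).mul (differentiable_wt ℓ)
  have hbd : ∀ u v : ℝ, u ∈ Icc (-(1 / 4) : ℝ) (1 / 4) → ‖Φ ((u : ℂ) + v * I)‖ ≤
      Real.exp growDeg * 4 ^ growDeg * (2 * kernelConst * Real.exp |ℓ|) *
        decay (kernelDeg - growDeg) v := fun u v hu => by
    rw [hΦ, norm_mul]
    have hw := norm_wt_le ℓ (w := (u : ℂ) + v * I)
      (by simp [abs_le]; constructor <;> linarith [hu.1, hu.2])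
    simp only [add_re, ofReal_re, mul_re, I_re, mul_zero, ofReal_im, I_im, mul_one, sub_self,
      add_zero, add_im, mul_im, zero_add] at hw
    have he : Real.exp (ℓ * u) ≤ Real.exp |ℓ| := Real.exp_le_exp.2 ((le_abs_self _).trans (by
      rw [abs_mul]
      exact mul_le_of_le_one_right (abs_nonneg ℓ) (abs_le.2
        ⟨by linarith [hu.1], by linarith [hu.2]⟩)))
    refine (mul_le_mul (norm_kern_zeta_bound hγ hu v) (hw.trans (mul_le_mul_of_nonneg_right
      (mul_le_mul_of_nonneg_left he (by positivity)) (decay_nonneg _ _))) (norm_nonneg _)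
        (by positivity)).trans (le_of_eq ?_)
    rw [← pow_mul_decay hgd v]
    ring
  have gr := abs_le.1 ((abs_re_le_norm γ).trans hγ)
  obtain ⟨ρ, hρ⟩ : ∃ ρ : ℂ, ρ = -γ / 2 := ⟨_, rfl⟩
  have hρre : ρ.re = -γ.re / 2 := by simp [hρ]
  obtain ⟨ia, ib, eρ⟩ := pole_contour hd (show (-(1 / 4) : ℝ) ≤ 1 / 4 by norm_num) hm hbd
    (ρ := ρ) (by linarith) (by linarith)
  obtain ⟨ia0, ib0, e0⟩ := pole_contour hd (show (-(1 / 4) : ℝ) ≤ 1 / 4 by norm_num) hm hbd
    (ρ := 0) (by simp) (by simp)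
  simp only [sub_zero] at ia0 ib0 e0
  have hF : ∀ u v : ℝ, u ≠ 0 → u ≠ ρ.re →
      riemannZeta (1 + γ + 2 * ((u : ℂ) + v * I)) * kern u (-ℓ) v =
        -γ⁻¹ * (Φ ((u : ℂ) + v * I) / ((u : ℂ) + v * I - ρ) -
          Φ ((u : ℂ) + v * I) / ((u : ℂ) + v * I)) := by
    intro u v h0 h1
    have hw0 := line_ne_zero h0 v
    have hk : kern u (-ℓ) v = wt ℓ ((u : ℂ) + v * I) / ((u : ℂ) + v * I) := by
      rw [kern, wt]
      push_cast
      ring_nf
    obtain ⟨w, hw⟩ : ∃ w : ℂ, w = (u : ℂ) + v * I := ⟨_, rfl⟩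
    rw [← hw] at hw0 hk ⊢
    have hwρ : w - ρ ≠ 0 := sub_ne_zero.2 fun h => h1 (by simpa [hw] using congrArg Complex.re h)
    have hz : 1 + γ + 2 * w - 1 = 2 * (w - ρ) := by rw [hρ]; ring
    rw [riemannZeta_eq_of_ne_one (fun h => hwρ (by
      rw [h, sub_self] at hz; linear_combination -hz / 2)), hz, hk, hΦ]
    field_simp
    rw [hρ]
    ring
  have ha : ∀ v : ℝ, -(1 / 4) ≠ ρ.re := fun _ h => by linarith
  have hleft : ‖∫ v : ℝ, riemannZeta (1 + γ + 2 * (((-(1 / 4) : ℝ) : ℂ) + v * I)) *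
      kern (-(1 / 4)) (-ℓ) v‖ ≤
      Real.exp growDeg * 4 ^ growDeg * (kernelConst * 30) * J * Real.exp (-ℓ / 4) := by
    refine (norm_integral_le_of_norm_le ((integrable_decay hm).const_mul
      (Real.exp growDeg * 4 ^ growDeg * (kernelConst * 30) * Real.exp (-ℓ / 4)))
      (Eventually.of_forall fun v => ?_)).trans (le_of_eq (by rw [integral_const_mul, ← hJ]; ring))
    obtain ⟨z, hz⟩ : ∃ z : ℂ, z = 1 + γ + 2 * (((-(1 / 4) : ℝ) : ℂ) + v * I) := ⟨_, rfl⟩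
    rw [← hz, norm_mul]
    have h1 : 1 / 3 ≤ ‖z - 1‖ := by
      refine le_trans ?_ (abs_re_le_norm _)
      refine le_trans ?_ (neg_le_abs _)
      simp [hz]
      linarith
    have hζ : ‖riemannZeta z‖ ≤ 3 * (Real.exp growDeg * 4 ^ growDeg * (1 + |v|) ^ growDeg) := by
      rw [riemannZeta_eq_of_ne_one (fun h => by rw [h, sub_self, norm_zero] at h1; linarith),
        norm_div, div_le_iff₀ (by linarith)]
      have := norm_kern_zeta_bound hγ (left_mem_Icc.2 (by norm_num : (-(1 / 4) : ℝ) ≤ 1 / 4)) v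
      rw [← hz] at this
      nlinarith [norm_nonneg (riemannZeta₁ z)]
    have hk := norm_kern_le (show (-(1 / 4) : ℝ) ≠ 0 by norm_num) (-ℓ) v
    have he : Real.exp (|(-(1 / 4) : ℝ)| / 10) ≤ 2 := by
      refine (Real.exp_le_exp.2 (show |(-(1 / 4) : ℝ)| / 10 ≤ 1 / 10 by norm_num)).trans ?_
      exact (Real.exp_bound_div_one_sub_of_interval (by norm_num) (by norm_num)).trans
        (by norm_num)
    rw [Real.exp_add, show -(-ℓ) * (-(1 / 4)) = -ℓ / 4 by ring,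
      show |(-(1 / 4) : ℝ)| = 1 / 4 by norm_num] at hk
    rw [show |(-(1 / 4) : ℝ)| = 1 / 4 by norm_num] at he
    refine (mul_le_mul hζ hk (norm_nonneg _) (by positivity)).trans ?_
    rw [← pow_mul_decay hgd v]
    have hd0 := decay_nonneg kernelDeg v
    calc 3 * (Real.exp growDeg * 4 ^ growDeg * (1 + |v|) ^ growDeg) *
          (Real.exp (-ℓ / 4) * Real.exp (1 / 4 / 10) * kernelConst / (1 / 4) * decay kernelDeg v)
        = Real.exp growDeg * 4 ^ growDeg * (kernelConst * (12 * Real.exp (1 / 4 / 10))) *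
            Real.exp (-ℓ / 4) * ((1 + |v|) ^ growDeg * decay kernelDeg v) := by ring
      _ ≤ _ := by
        gcongr
        linarith
  have e1 : (∫ v : ℝ, riemannZeta (1 + γ + 2 * (((1 / 4 : ℝ) : ℂ) + v * I)) *
      kern (1 / 4) (-ℓ) v) - ∫ v : ℝ, riemannZeta (1 + γ + 2 * (((-(1 / 4) : ℝ) : ℂ) + v * I)) *
      kern (-(1 / 4)) (-ℓ) v = -γ⁻¹ * (2 * π * Φ ρ - 2 * π * Φ 0) := by
    rw [integral_congr_ae (Eventually.of_forall fun v =>
        hF (1 / 4) v (by norm_num) (by linarith)),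
      integral_congr_ae (Eventually.of_forall fun v => hF (-(1 / 4)) v (by norm_num) (ha v)),
      integral_const_mul, integral_const_mul, integral_sub ib ib0, integral_sub ia ia0]
    linear_combination (-γ⁻¹) * eρ + γ⁻¹ * e0
  rw [integral_diagLine hM hγ] at e1
  have hΦρ : Φ ρ = cexp (-γ / 2 * ℓ) * g₀ (γ / 2) := by
    rw [hΦ, hρ]
    simp only []
    rw [show 1 + γ + 2 * (-γ / 2) = 1 by ring, riemannZeta₁_one, one_mul, wt, neg_div, g₀_neg]
    ring_nf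
  have hΦ0 : Φ 0 = γ * riemannZeta (1 + γ) := by
    rw [hΦ, riemannZeta_eq_of_ne_one (fun h => hγ0 (by linear_combination h))]
    simp only [mul_zero, add_zero, wt, Complex.exp_zero, g₀_zero, mul_one, add_sub_cancel_left]
    field_simp
  rw [hΦρ, hΦ0] at e1
  have h2π : (2 * π : ℂ) ≠ 0 := mul_ne_zero two_ne_zero (ofReal_ne_zero.2 Real.pi_ne_zero)
  have key : diagSeries M γ ℓ - (riemannZeta (1 + γ) - cexp (-γ / 2 * ℓ) * g₀ (γ / 2) / γ) =
      (2 * π : ℂ)⁻¹ * ∫ v : ℝ, riemannZeta (1 + γ + 2 * (((-(1 / 4) : ℝ) : ℂ) + v * I)) *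
        kern (-(1 / 4)) (-ℓ) v := by
    generalize (∫ v : ℝ, riemannZeta (1 + γ + 2 * (((-(1 / 4) : ℝ) : ℂ) + v * I)) *
        kern (-(1 / 4)) (-ℓ) v) = X at e1 ⊢
    generalize riemannZeta (1 + γ) = Z at e1 ⊢
    field_simp at e1 ⊢
    linear_combination e1
  rw [key, norm_mul, norm_inv, norm_mul, Complex.norm_two, norm_real,
    Real.norm_of_nonneg Real.pi_pos.le]
  exact (mul_le_of_le_one_left (norm_nonneg _)
    (inv_le_one_of_one_le₀ (by linarith [Real.pi_gt_three]))).trans hleft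

end FA.TwistedMoment

end
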