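import Fermat.Agent.ThreePrimes.Vaughan
import Fermat.Agent.Resonance.Inequality
import Mathlib.NumberTheory.Harmonic.Bounds

/-!
# The sum over the pairs off the diagonal

For `h, k ≤ N` and `m n ≤ M` with `m h ≠ n k` the sum of `(m n h k)^(-1/2) / |log (n k / m h)|`
is `O (N √M (log N M)^4)`.
-/

set_option autoImplicit false

noncomputable section

namespace FA.TwistedMoment

open Finset
open FA.ThreePrimes (logOne sum_card_divisors_sq_le)
open scoped Real

/-- The quadruples `((h, k), (m, n))`. -/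
def quadSet (N M : ℕ) : Finset ((ℕ × ℕ) × (ℕ × ℕ)) :=
  ((Icc 1 N ×ˢ Icc 1 N) ×ˢ (Icc 1 M ×ˢ Icc 1 M)).filter fun q => q.2.1 * q.2.2 ≤ M

/-- `(m h, n k)`. -/
def quadPair (q : (ℕ × ℕ) × (ℕ × ℕ)) : ℕ × ℕ := (q.2.1 * q.1.1, q.2.2 * q.1.2)

/-- The summand. -/
def offTerm (q : (ℕ × ℕ) × (ℕ × ℕ)) : ℝ :=
  if (quadPair q).1 = (quadPair q).2 then 0
  else 1 / (√((quadPair q).1 : ℝ) * √((quadPair q).2 : ℝ) *
    |Real.log (quadPair q).2 - Real.log (quadPair q).1|)

theorem mem_quadSet {N M : ℕ} {q : (ℕ × ℕ) × (ℕ × ℕ)} :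
    q ∈ quadSet N M ↔ ((1 ≤ q.1.1 ∧ q.1.1 ≤ N) ∧ 1 ≤ q.1.2 ∧ q.1.2 ≤ N) ∧
      ((1 ≤ q.2.1 ∧ q.2.1 ≤ M) ∧ 1 ≤ q.2.2 ∧ q.2.2 ≤ M) ∧ q.2.1 * q.2.2 ≤ M := by
  simp only [quadSet, mem_filter, mem_product, mem_Icc, and_assoc]

theorem offTerm_nonneg (q : (ℕ × ℕ) × (ℕ × ℕ)) : 0 ≤ offTerm q := by
  unfold offTerm
  split_ifs <;> positivity

theorem sum_hyperbola_inv_sqrt_le (M : ℕ) :
    ∑ p ∈ (Icc 1 M ×ˢ Icc 1 M).filter (fun p => p.1 * p.2 ≤ M), 1 / (√(p.1 : ℝ) * √(p.2 : ℝ)) ≤
      2 * √(M : ℝ) * logOne M := by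
  rw [sum_filter, sum_product]
  refine (sum_le_sum (g := fun m : ℕ => 2 * √(M : ℝ) * (1 / (m : ℝ))) fun m hm => ?_).trans ?_
  · rw [mem_Icc] at hm
    have hm0 : (0 : ℝ) < m := Nat.cast_pos.2 hm.1
    rw [← sum_filter]
    refine (sum_le_sum_of_subset_of_nonneg (t := Icc 1 (M / m)) (fun n hn => ?_)
      fun n _ _ => by positivity).trans ?_
    · rw [mem_filter, mem_Icc] at hn
      rw [mem_Icc, Nat.le_div_iff_mul_le hm.1, mul_comm]
      exact ⟨hn.1.1, hn.2⟩
    simp only [← div_div]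
    simp_rw [div_eq_mul_one_div (1 / √(m : ℝ))]
    rw [← mul_sum]
    refine (mul_le_mul_of_nonneg_left ((FA.Resonance.sum_inv_sqrt_le _).trans
      (mul_le_mul_of_nonneg_left (Real.sqrt_le_sqrt Nat.cast_div_le) zero_le_two))
        (by positivity)).trans (le_of_eq ?_)
    have := Real.mul_self_sqrt hm0.le
    rw [Real.sqrt_div (Nat.cast_nonneg M)]
    field_simp
    linear_combination (-√(M : ℝ)) * this
  · rw [← mul_sum]
    refine mul_le_mul_of_nonneg_left ?_ (by positivity)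
    have h := harmonic_le_one_add_log M
    rw [harmonic_eq_sum_Icc] at h
    push_cast at h
    simpa [logOne] using h

theorem sum_le_of_injOn {ι κ : Type*} [DecidableEq κ] {s : Finset ι} {t : Finset κ} {f : ι → ℝ}
    {g : κ → ℝ} (e : ι → κ) (he : ∀ i ∈ s, e i ∈ t) (hinj : Set.InjOn e s)
    (hg : ∀ k ∈ t, 0 ≤ g k) (h : ∀ i ∈ s, f i ≤ g (e i)) : ∑ i ∈ s, f i ≤ ∑ k ∈ t, g k := by
  refine (sum_le_sum h).trans ?_
  rw [← sum_image hinj]
  exact sum_le_sum_of_subset_of_nonneg (image_subset_iff.2 he) fun k hk _ => hg k hk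

theorem sum_inv_abs_sub_le {A a : ℕ} (ha : a ∈ Icc 1 A) :
    ∑ b ∈ (Icc 1 A).filter (fun b => a ≠ b), 1 / |(b : ℝ) - a| ≤ 2 * logOne A := by
  rw [mem_Icc] at ha
  have hH : ∑ d ∈ Icc 1 A, 1 / (d : ℝ) ≤ logOne A := by
    have h := harmonic_le_one_add_log A
    rw [harmonic_eq_sum_Icc] at h
    push_cast at h
    simpa [logOne] using h
  rw [← sum_filter_add_sum_filter_not _ (fun b => a < b), two_mul]
  refine add_le_add ?_ ?_
  · refine le_trans ?_ hH
    refine sum_le_of_injOn (fun b => b - a) ?_ ?_ (fun d _ => by positivity) ?_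
    · intro b hb
      simp only [mem_filter, mem_Icc] at hb ⊢
      omega
    · intro x hx y hy h
      simp only [coe_filter, mem_filter, mem_Icc, Set.mem_ofPred_eq] at hx hy
      simp only at h
      omega
    · intro b hb
      simp only [mem_filter, mem_Icc] at hb
      have : (a : ℝ) < b := Nat.cast_lt.2 hb.2
      rw [Nat.cast_sub hb.2.le, abs_of_pos (by linarith)]
  · refine le_trans ?_ hH
    refine sum_le_of_injOn (fun b => a - b) ?_ ?_ (fun d _ => by positivity) ?_
    · intro b hb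
      simp only [mem_filter, mem_Icc] at hb ⊢
      omega
    · intro x hx y hy h
      simp only [coe_filter, mem_filter, mem_Icc, Set.mem_ofPred_eq] at hx hy
      simp only at h
      omega
    · intro b hb
      simp only [mem_filter, mem_Icc] at hb
      have : (b : ℝ) < a := Nat.cast_lt.2 (by omega)
      rw [Nat.cast_sub (by omega), abs_of_neg (by linarith), neg_sub]

theorem inv_log_near_le {a b : ℝ} (ha : 0 < a) (hb : 0 < b) (hne : a ≠ b)
    (h : |Real.log b - Real.log a| < 1 / 2) :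
    a < 2 * b ∧ b < 2 * a ∧
      1 / (√a * √b * |Real.log b - Real.log a|) ≤ 2 / |b - a| := by
  have e2 : Real.exp (1 / 2) < 2 := by
    have h1 : Real.exp (1 / 2) * Real.exp (1 / 2) < 4 := by
      rw [← Real.exp_add]
      norm_num
      linarith [Real.exp_one_lt_three]
    nlinarith [Real.exp_pos (1 / 2 : ℝ)]
  obtain ⟨h1, h2⟩ := abs_lt.1 h
  have k1 : a < 2 * b := by
    have := Real.exp_lt_exp.2 (show Real.log a < Real.log b + 1 / 2 by linarith)
    rw [Real.exp_add, Real.exp_log ha, Real.exp_log hb] at this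
    nlinarith
  have k2 : b < 2 * a := by
    have := Real.exp_lt_exp.2 (show Real.log b < Real.log a + 1 / 2 by linarith)
    rw [Real.exp_add, Real.exp_log ha, Real.exp_log hb] at this
    nlinarith
  refine ⟨k1, k2, ?_⟩
  have key : |b - a| ≤ 2 * (√a * √b * |Real.log b - Real.log a|) := by
    have hmax : max a b ≤ 2 * (√a * √b) := by
      rw [← Real.sqrt_mul ha.le]
      have h3 : max a b ^ 2 ≤ 2 ^ 2 * (a * b) := by
        rcases le_total a b with h | h
        · rw [max_eq_right h]; nlinarith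
        · rw [max_eq_left h]; nlinarith
      have := Real.sqrt_le_sqrt h3
      rwa [Real.sqrt_sq (ha.le.trans (le_max_left _ _)), Real.sqrt_mul (by norm_num),
        Real.sqrt_sq zero_le_two] at this
    have hlog : |b - a| ≤ max a b * |Real.log b - Real.log a| := by
      rcases le_total a b with hab | hab
      · rw [max_eq_right hab, abs_of_nonneg (sub_nonneg.2 hab),
          abs_of_nonneg (sub_nonneg.2 (Real.log_le_log ha hab)), ← Real.log_div hb.ne' ha.ne']
        have := mul_le_mul_of_nonneg_left (Real.one_sub_inv_le_log_of_pos (div_pos hb ha)) hb.le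
        rwa [mul_sub, mul_one, inv_div, mul_div_cancel₀ _ hb.ne'] at this
      · rw [max_eq_left hab, abs_of_nonpos (sub_nonpos.2 hab), neg_sub,
          abs_of_nonpos (sub_nonpos.2 (Real.log_le_log hb hab)), neg_sub,
          ← Real.log_div ha.ne' hb.ne']
        have := mul_le_mul_of_nonneg_left (Real.one_sub_inv_le_log_of_pos (div_pos ha hb)) ha.le
        rwa [mul_sub, mul_one, inv_div, mul_div_cancel₀ _ ha.ne'] at this
    refine hlog.trans ((mul_le_mul_of_nonneg_right hmax (abs_nonneg _)).trans (le_of_eq ?_))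
    ring
  have hp : 0 < |b - a| := abs_pos.2 (sub_ne_zero.2 (Ne.symm hne))
  rw [div_le_div_iff₀ (by linarith) hp]
  linarith

theorem card_fibre_le {N M : ℕ} (a b : ℕ) :
    ((quadSet N M).filter fun q => quadPair q = (a, b)).card ≤
      a.divisors.card * b.divisors.card := by
  rw [← card_product]
  refine card_le_card_of_injOn (fun q => q.1) (fun q hq => ?_) fun x hx y hy h => ?_
  · simp only [coe_filter, Set.mem_ofPred_eq, mem_quadSet] at hq
    obtain ⟨⟨⟨⟨h1, -⟩, h2, -⟩, ⟨⟨m1, -⟩, n1, -⟩, -⟩, he⟩ := hq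
    simp only [quadPair, Prod.mk.injEq] at he
    rw [Finset.mem_coe, mem_product, Nat.mem_divisors, Nat.mem_divisors, ← he.1, ← he.2]
    exact ⟨⟨Dvd.intro_left _ rfl, by positivity⟩, Dvd.intro_left _ rfl, by positivity⟩
  · simp only [coe_filter, Set.mem_ofPred_eq, mem_quadSet] at hx hy
    obtain ⟨⟨⟨⟨h1, -⟩, h2, -⟩, -, -⟩, hex⟩ := hx
    simp only [quadPair, Prod.mk.injEq] at hex
    have hey := hy.2
    simp only [quadPair, Prod.mk.injEq] at hey
    simp only at h
    refine Prod.ext h (Prod.ext (Nat.eq_of_mul_eq_mul_right h1 ?_)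
      (Nat.eq_of_mul_eq_mul_right h2 ?_))
    · rw [hex.1, h, hey.1]
    · rw [hex.2, h, hey.2]

/-- **The sum off the diagonal.** -/
theorem sum_offTerm_le (N M : ℕ) :
    ∑ q ∈ quadSet N M, offTerm q ≤
      16 * N * √(M : ℝ) * logOne M +
        8 * ((2 * N * (Nat.sqrt M + 1) : ℕ) : ℝ) * logOne (2 * N * (Nat.sqrt M + 1)) ^ 4 := by
  classical
  obtain ⟨Q, hQ⟩ : ∃ Q, Q = quadSet N M := ⟨_, rfl⟩
  obtain ⟨A, hA⟩ : ∃ A, A = 2 * N * (Nat.sqrt M + 1) := ⟨_, rfl⟩
  rw [← hQ, ← hA, ← sum_filter_add_sum_filter_not Q (fun q => 1 / 2 ≤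
    |Real.log (quadPair q).2 - Real.log (quadPair q).1|)]
  have hpos : ∀ q ∈ Q, 0 < (quadPair q).1 ∧ 0 < (quadPair q).2 := fun q hq => by
    rw [hQ, mem_quadSet] at hq
    exact ⟨Nat.mul_pos hq.2.1.1.1 hq.1.1.1, Nat.mul_pos hq.2.1.2.1 hq.1.2.1⟩
  refine add_le_add ?_ ?_
  · refine le_trans (sum_le_sum (g := fun q => 2 * ((1 / √(q.1.1 : ℝ)) * (1 / √(q.1.2 : ℝ)) *
      (1 / (√(q.2.1 : ℝ) * √(q.2.2 : ℝ))))) fun q hq => ?_) ?_
    · rw [mem_filter] at hq
      obtain ⟨p1, p2⟩ := hpos q hq.1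
      unfold offTerm
      split_ifs
      · positivity
      · have s1 : 0 < √((quadPair q).1 : ℝ) := Real.sqrt_pos.2 (Nat.cast_pos.2 p1)
        have s2 : 0 < √((quadPair q).2 : ℝ) := Real.sqrt_pos.2 (Nat.cast_pos.2 p2)
        refine (one_div_le_one_div_of_le (by positivity)
          (mul_le_mul_of_nonneg_left hq.2 (by positivity))).trans (le_of_eq ?_)
        simp only [quadPair, Nat.cast_mul, Real.sqrt_mul (Nat.cast_nonneg _)]
        field_simp
    · refine (sum_le_sum_of_subset_of_nonneg (filter_subset _ _)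
        fun q _ _ => by positivity).trans ?_
      rw [hQ, show quadSet N M = (Icc 1 N ×ˢ Icc 1 N) ×ˢ
        (Icc 1 M ×ˢ Icc 1 M).filter (fun p => p.1 * p.2 ≤ M) by
          ext q; simp [mem_quadSet, and_assoc], ← mul_sum, sum_product]
      simp only [← mul_sum]
      rw [← sum_mul, sum_product]
      simp only []
      rw [← sum_mul_sum]
      have h1 := FA.Resonance.sum_inv_sqrt_le N
      have h0 : 0 ≤ ∑ n ∈ Icc 1 N, 1 / √(n : ℝ) := sum_nonneg fun n _ => by positivity
      refine (mul_le_mul_of_nonneg_left (mul_le_mul (mul_le_mul h1 h1 h0 (by positivity))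
        (sum_hyperbola_inv_sqrt_le M) (sum_nonneg fun p _ => by positivity) (by positivity))
          zero_le_two).trans (le_of_eq ?_)
      have := Real.mul_self_sqrt (Nat.cast_nonneg N : (0 : ℝ) ≤ N)
      linear_combination 16 * √(M : ℝ) * logOne M * this
  · obtain ⟨Q', hQ'⟩ : ∃ Q', Q' = Q.filter fun q =>
        ¬1 / 2 ≤ |Real.log (quadPair q).2 - Real.log (quadPair q).1| := ⟨_, rfl⟩
    obtain ⟨P, hP⟩ : ∃ P, P = (Icc 1 A ×ˢ Icc 1 A).filter fun p => p.1 ≠ p.2 := ⟨_, rfl⟩
    rw [← hQ']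
    have hQ'mem : ∀ q ∈ Q', (quadPair q).1 ≠ (quadPair q).2 → quadPair q ∈ P ∧
        offTerm q ≤ 2 / |((quadPair q).2 : ℝ) - (quadPair q).1| := fun q hq hne => by
      rw [hQ', mem_filter, not_le] at hq
      obtain ⟨p1, p2⟩ := hpos q hq.1
      obtain ⟨k1, k2, k3⟩ := inv_log_near_le (Nat.cast_pos.2 p1) (Nat.cast_pos.2 p2)
        (Nat.cast_injective.ne hne) hq.2
      refine ⟨?_, by rw [offTerm, if_neg hne]; exact k3⟩
      have hq1 := hq.1
      rw [hQ, mem_quadSet] at hq1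
      obtain ⟨⟨⟨h1, h1'⟩, h2, h2'⟩, ⟨⟨m1, -⟩, n1, -⟩, hmn⟩ := hq1
      have hab : (quadPair q).1 * (quadPair q).2 ≤ M * (N * N) := by
        simp only [quadPair]
        rw [mul_mul_mul_comm]
        exact Nat.mul_le_mul hmn (Nat.mul_le_mul h1' h2')
      have hs := Nat.lt_succ_sqrt M
      have hk1 : (quadPair q).1 < 2 * (quadPair q).2 := by exact_mod_cast k1
      have hk2 : (quadPair q).2 < 2 * (quadPair q).1 := by exact_mod_cast k2
      have bound : ∀ a b : ℕ, a < 2 * b → a * b ≤ M * (N * N) → a ≤ A := fun a b hlt hle => by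
        by_contra hgt
        rw [not_le, hA] at hgt
        have e1 : (2 * N * (M.sqrt + 1)) * (2 * N * (M.sqrt + 1)) < a * a :=
          Nat.mul_lt_mul_of_lt_of_lt hgt hgt
        have e2 : a * a ≤ 2 * (a * b) := by nlinarith
        have e3 : M * (N * N) ≤ (M.sqrt + 1) * (M.sqrt + 1) * (N * N) :=
          Nat.mul_le_mul_right _ hs.le
        nlinarith
      rw [hP, mem_filter, mem_product, mem_Icc, mem_Icc]
      exact ⟨⟨⟨p1, bound _ _ hk1 hab⟩, p2, bound _ _ hk2 (by rw [mul_comm]; exact hab)⟩, hne⟩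
    rw [← sum_filter_add_sum_filter_not Q' (fun q => (quadPair q).1 = (quadPair q).2)]
    rw [sum_eq_zero (s := Q'.filter fun q => (quadPair q).1 = (quadPair q).2) (fun q hq => by
      rw [mem_filter] at hq
      rw [offTerm, if_pos hq.2]), zero_add]
    refine (sum_le_sum (g := fun q => 2 / |((quadPair q).2 : ℝ) - (quadPair q).1|) fun q hq => by
      rw [mem_filter] at hq
      exact (hQ'mem q hq.1 hq.2).2).trans ?_
    rw [← sum_fiberwise_of_maps_to (g := quadPair) (t := P) fun q hq => by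
      rw [mem_filter] at hq
      exact (hQ'mem q hq.1 hq.2).1]
    refine le_trans (sum_le_sum (g := fun p : ℕ × ℕ =>
      ((p.1.divisors.card : ℝ) ^ 2 + (p.2.divisors.card : ℝ) ^ 2) * (1 / |(p.2 : ℝ) - p.1|))
      fun p _ => ?_) ?_
    · rw [sum_congr rfl (g := fun _ => 2 / |(p.2 : ℝ) - p.1|) (fun q hq => by
        rw [(mem_filter.1 hq).2]), sum_const, nsmul_eq_mul]
      have hc : (((Q'.filter fun q => ¬(quadPair q).1 = (quadPair q).2).filter
          fun q => quadPair q = p).card : ℝ) ≤ (p.1.divisors.card : ℝ) * p.2.divisors.card := by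
        rw [← Nat.cast_mul]
        refine Nat.cast_le.2 ((card_le_card fun q hq => ?_).trans
          (card_fibre_le (N := N) (M := M) p.1 p.2))
        simp only [mem_filter, hQ', hQ] at hq ⊢
        exact ⟨hq.1.1.1, hq.2⟩
      refine (mul_le_mul_of_nonneg_right hc (by positivity)).trans ?_
      rw [show (p.1.divisors.card : ℝ) * p.2.divisors.card * (2 / |(p.2 : ℝ) - p.1|) =
        (2 * p.1.divisors.card * p.2.divisors.card) * (1 / |(p.2 : ℝ) - p.1|) by ring]
      exact mul_le_mul_of_nonneg_right (two_mul_le_add_sq _ _) (by positivity)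
    · have hone : ∑ a ∈ Icc 1 A, (a.divisors.card : ℝ) ^ 2 *
          ∑ b ∈ (Icc 1 A).filter (fun b => a ≠ b), 1 / |(b : ℝ) - a| ≤
          2 * ((A : ℝ) * logOne A ^ 4) := by
        refine (sum_le_sum fun a ha => mul_le_mul_of_nonneg_left (sum_inv_abs_sub_le ha)
          (sq_nonneg _)).trans ?_
        rw [← sum_mul]
        have h := sum_card_divisors_sq_le A
        rw [show Ioc 0 A = Icc 1 A from (Icc_add_one_left_eq_Ioc 0 A).symm] at h
        have hl : 0 ≤ logOne A := by linarith [FA.ThreePrimes.one_le_logOne A]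
        refine (mul_le_mul_of_nonneg_right h (by positivity)).trans (le_of_eq ?_)
        ring
      rw [hP, sum_filter, sum_product]
      simp only [← sum_filter, add_mul, sum_add_distrib, ← mul_sum]
      have hswap : ∑ a ∈ Icc 1 A, ∑ b ∈ (Icc 1 A).filter (fun b => a ≠ b),
          (b.divisors.card : ℝ) ^ 2 * (1 / |(b : ℝ) - a|) =
          ∑ a ∈ Icc 1 A, (a.divisors.card : ℝ) ^ 2 *
            ∑ b ∈ (Icc 1 A).filter (fun b => a ≠ b), 1 / |(b : ℝ) - a| := by
        simp only [mul_sum, sum_filter]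
        rw [sum_comm]
        refine sum_congr rfl fun a _ => sum_congr rfl fun b _ => ?_
        by_cases hab : a = b
        · simp [hab]
        · rw [if_pos hab, if_pos (Ne.symm hab), abs_sub_comm]
      rw [hswap]
      nlinarith [mul_nonneg (Nat.cast_nonneg A : (0 : ℝ) ≤ A)
        (pow_nonneg (show 0 ≤ logOne A by linarith [FA.ThreePrimes.one_le_logOne A]) 4)]

end FA.TwistedMoment

end
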