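import Fermat.Agent.TwistedMoment.PairSum
import Fermat.Agent.TwistedMoment.Offdiag
import Mathlib.Data.Nat.Totient

/-!
# The product of the double sum and `|ψ|²`

With `ψ t = ∑ b h h^(-1/2-it)` the terms with `m h = n k` are indexed by `h, k` and
`j = gcd (m, n)`.
-/

set_option autoImplicit false

noncomputable section

namespace FA.TwistedMoment

open Complex Finset
open FA.SelbergCLT (cutoff cutoff_eq_zero natCast_cpow_eq_exp)
open FA.ThreePrimes (logOne)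
open scoped ComplexConjugate

/-- `∑ b h h^(-1/2 - it)`. -/
def mollPoly (N : ℕ) (b : ℕ → ℂ) (t : ℝ) : ℂ :=
  ∑ h ∈ Icc 1 N, b h * (h : ℂ) ^ (-((1 / 2 : ℂ) + t * I))

/-- `log n` as a complex number. -/
def clogNat (n : ℕ) : ℂ := (Real.log n : ℂ)

/-- The coefficient of a quadruple. -/
def quadCoef (b : ℕ → ℂ) (α β : ℂ) (q : (ℕ × ℕ) × (ℕ × ℕ)) : ℂ :=
  b q.1.1 * conj (b q.1.2) * cexp (-(clogNat q.1.1 / 2) - clogNat q.1.2 / 2 -
    (1 / 2 + α) * clogNat q.2.1 - (1 / 2 + β) * clogNat q.2.2)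

/-- `log (n k) - log (m h)`. -/
def quadFreq (q : (ℕ × ℕ) × (ℕ × ℕ)) : ℝ := Real.log (quadPair q).2 - Real.log (quadPair q).1

/-- `b h conj (b k) d^(1+α+β) h^(-1-β) k^(-1-α)`, `d = gcd (h, k)`. -/
def twistCoef (b : ℕ → ℂ) (α β : ℂ) (h k : ℕ) : ℂ :=
  b h * conj (b k) * cexp ((1 + (α + β)) * clogNat (h.gcd k) - (1 + β) * clogNat h -
    (1 + α) * clogNat k)

/-- **The sum of the main term.** -/
def twistSum (N : ℕ) (b : ℕ → ℂ) (α β : ℂ) : ℂ :=
  ∑ h ∈ Icc 1 N, ∑ k ∈ Icc 1 N, twistCoef b α β h k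

theorem clogNat_mul {a b : ℕ} (ha : 0 < a) (hb : 0 < b) :
    clogNat (a * b) = clogNat a + clogNat b := by
  simp only [clogNat]
  rw [Nat.cast_mul, Real.log_mul (Nat.cast_ne_zero.2 ha.ne') (Nat.cast_ne_zero.2 hb.ne'),
    ofReal_add]

theorem continuous_mollPoly (N : ℕ) (b : ℕ → ℂ) : Continuous (mollPoly N b) := by
  unfold mollPoly
  refine continuous_finsetSum _ fun h hh => continuous_const.mul ?_
  exact Continuous.const_cpow (by fun_prop) (Or.inl (Nat.cast_ne_zero.2 (by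
    rw [mem_Icc] at hh; omega)))

theorem normSq_mollPoly (N : ℕ) (b : ℕ → ℂ) (t : ℝ) :
    ((‖mollPoly N b t‖ ^ 2 : ℝ) : ℂ) = ∑ h ∈ Icc 1 N, ∑ k ∈ Icc 1 N,
      b h * conj (b k) * cexp (-(clogNat h / 2) - clogNat k / 2 +
        (clogNat k - clogNat h) * (t * I)) := by
  rw [ofReal_pow, ← Complex.mul_conj', mollPoly, map_sum, sum_mul_sum]
  refine sum_congr rfl fun h hh => sum_congr rfl fun k hk => ?_
  rw [mem_Icc] at hh hk
  rw [natCast_cpow_eq_exp hh.1, natCast_cpow_eq_exp hk.1, map_mul, ← Complex.exp_conj,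
    mul_mul_mul_comm, ← Complex.exp_add, clogNat, clogNat]
  congr 2
  simp only [map_mul, map_neg, map_add, conj_ofReal, conj_I, map_div₀, map_one, map_ofNat]
  ring

/-- **The expansion.** -/
theorem pairSum_mul_normSq {M : ℕ} {ℓ : ℝ} (hℓ : ℓ + 1 / 10 ≤ Real.log (M + 1 : ℕ)) (N : ℕ)
    (b : ℕ → ℂ) (α β : ℂ) (t : ℝ) :
    pairSum M ℓ α β t * ((‖mollPoly N b t‖ ^ 2 : ℝ) : ℂ) = ∑ q ∈ quadSet N M,
      quadCoef b α β q * cutoff (Real.log q.2.1 + Real.log q.2.2 - ℓ) *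
        cexp ((quadFreq q : ℂ) * t * I) := by
  rw [normSq_mollPoly, pairSum, ← sum_product', ← sum_product', mul_comm, sum_mul_sum,
    ← sum_product']
  symm
  refine sum_subset_zero_on_sdiff (filter_subset _ _) (fun q hq => ?_) fun q hq => ?_
  · rw [Finset.mem_sdiff, quadSet, mem_filter] at hq
    obtain ⟨hq1, hq2⟩ := hq
    have hlt : M < q.2.1 * q.2.2 := not_le.1 fun h => hq2 ⟨hq1, h⟩
    simp only [mem_product, mem_Icc] at hq1
    obtain ⟨-, ⟨hm, -⟩, hn, -⟩ := hq1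
    have hz : cutoff (Real.log q.2.1 + Real.log q.2.2 - ℓ) = 0 := by
      refine cutoff_eq_zero ?_
      rw [← Real.log_mul (Nat.cast_ne_zero.2 (by omega)) (Nat.cast_ne_zero.2 (by omega)),
        ← Nat.cast_mul]
      have := Real.log_le_log (Nat.cast_pos.2 M.succ_pos)
        (Nat.cast_le.2 (show M + 1 ≤ q.2.1 * q.2.2 from hlt))
      linarith
    rw [hz]
    ring
  · rw [mem_quadSet] at hq
    obtain ⟨⟨⟨h1, -⟩, h2, -⟩, ⟨⟨m1, -⟩, n1, -⟩, -⟩ := hq
    have hf : (quadFreq q : ℂ) = clogNat q.2.2 + clogNat q.1.2 - clogNat q.2.1 - clogNat q.1.1 := by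
      rw [quadFreq, quadPair, ofReal_sub, ← clogNat, ← clogNat, clogNat_mul n1 h2,
        clogNat_mul m1 h1]
      ring
    rw [hf, quadCoef, pairTerm, natCast_cpow_eq_exp m1, natCast_cpow_eq_exp n1, ← clogNat,
      ← clogNat]
    have e : ∀ E F E' F' : ℂ, E + F = E' + F' → cexp E * cexp F = cexp E' * cexp F' :=
      fun E F E' F' h => by rw [← Complex.exp_add, ← Complex.exp_add, h]
    rw [← Complex.exp_add]
    linear_combination (b q.1.1 * conj (b q.1.2) *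
      cutoff (Real.log q.2.1 + Real.log q.2.2 - ℓ)) * e (-(clogNat q.1.1 / 2) - clogNat q.1.2 / 2 -
        (1 / 2 + α) * clogNat q.2.1 - (1 / 2 + β) * clogNat q.2.2)
      ((clogNat q.2.2 + clogNat q.1.2 - clogNat q.2.1 - clogNat q.1.1) * t * I)
      (-(clogNat q.1.1 / 2) - clogNat q.1.2 / 2 + (clogNat q.1.2 - clogNat q.1.1) * (t * I))
      (clogNat q.2.1 * -((1 / 2 : ℂ) + t * I + α) + clogNat q.2.2 * -((1 / 2 : ℂ) - t * I + β))
      (by ring)

theorem sum_gcd_div_le (N : ℕ) :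
    ∑ h ∈ Icc 1 N, ∑ k ∈ Icc 1 N, (h.gcd k : ℝ) / (h * k) ≤ logOne N ^ 3 := by
  have hH : ∀ K : ℕ, K ≤ N → ∑ d ∈ Icc 1 K, 1 / (d : ℝ) ≤ logOne N := fun K hK => by
    refine (sum_le_sum_of_subset_of_nonneg (Icc_subset_Icc le_rfl hK)
      fun _ _ _ => by positivity).trans ?_
    have h := harmonic_le_one_add_log N
    rw [harmonic_eq_sum_Icc] at h
    push_cast at h
    simpa [logOne] using h
  have hl : 0 ≤ logOne N := by linarith [FA.ThreePrimes.one_le_logOne N]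
  have e : ∀ h ∈ Icc 1 N, ∀ k ∈ Icc 1 N, (h.gcd k : ℝ) / (h * k) = ∑ e ∈ Icc 1 N,
      (e.totient : ℝ) * ((if e ∣ h then 1 / (h : ℝ) else 0) *
        if e ∣ k then 1 / (k : ℝ) else 0) := by
    intro h hh k hk
    rw [mem_Icc] at hh hk
    have hd : 0 < h.gcd k := Nat.gcd_pos_of_pos_left _ hh.1
    conv_lhs => rw [← Nat.sum_totient (h.gcd k)]
    rw [Nat.cast_sum, sum_div]
    refine (sum_congr rfl fun e he => ?_).trans
      (sum_subset (s₁ := (h.gcd k).divisors) (fun e he => ?_) fun e _ he => ?_)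
    · rw [Nat.mem_divisors] at he
      rw [if_pos (he.1.trans (Nat.gcd_dvd_left _ _)), if_pos (he.1.trans (Nat.gcd_dvd_right _ _))]
      field_simp
    · rw [Nat.mem_divisors] at he
      rw [mem_Icc]
      exact ⟨Nat.pos_of_dvd_of_pos he.1 hd,
        (Nat.le_of_dvd hh.1 (he.1.trans (Nat.gcd_dvd_left _ _))).trans hh.2⟩
    · rw [Nat.mem_divisors, not_and] at he
      by_cases h1 : e ∣ h
      · rw [if_neg fun h2 => hd.ne' (by_contra fun h3 => he (Nat.dvd_gcd h1 h2) h3)]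
        ring
      · rw [if_neg h1]
        ring
  rw [sum_congr rfl fun h hh => (sum_congr rfl fun k hk => e h hh k hk).trans sum_comm, sum_comm]
  simp only [← mul_sum, ← sum_mul]
  refine (sum_le_sum (g := fun e : ℕ => logOne N ^ 2 * (1 / (e : ℝ))) fun e he => ?_).trans ?_
  · rw [mem_Icc] at he
    have he0 : (0 : ℝ) < e := Nat.cast_pos.2 he.1
    have h1 : ∑ h ∈ Icc 1 N, (if e ∣ h then 1 / (h : ℝ) else 0) ≤ logOne N / e := by
      rw [← sum_filter]
      refine le_trans ?_ (div_le_div_of_nonneg_right (hH (N / e) (Nat.div_le_self _ _)) he0.le)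
      rw [sum_div]
      refine sum_le_of_injOn (fun h => h / e) (fun h hh => ?_) (fun x hx y hy hxy => ?_)
        (fun d _ => by positivity) fun h hh => ?_
      · rw [mem_filter, mem_Icc] at hh
        rw [mem_Icc]
        exact ⟨Nat.div_pos (Nat.le_of_dvd hh.1.1 hh.2) he.1, Nat.div_le_div_right hh.1.2⟩
      · simp only [coe_filter, Set.mem_ofPred_eq] at hx hy
        simp only at hxy
        rw [← Nat.div_mul_cancel hx.2, ← Nat.div_mul_cancel hy.2, hxy]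
      · rw [mem_filter] at hh
        obtain ⟨c, rfl⟩ := hh.2
        rw [Nat.mul_div_cancel_left _ he.1, Nat.cast_mul]
        exact le_of_eq (by ring)
    refine (mul_le_mul (Nat.cast_le.2 (Nat.totient_le e)) (mul_le_mul h1 h1
      (sum_nonneg fun h _ => by positivity) (by positivity))
        (mul_nonneg (sum_nonneg fun h _ => by positivity) (sum_nonneg fun h _ => by positivity))
          he0.le).trans (le_of_eq ?_)
    field_simp
  · rw [← mul_sum, pow_succ _ 2]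
    exact mul_le_mul_of_nonneg_left (hH N le_rfl) (sq_nonneg _)

/-- **The diagonal, by `h`, `k` and `j = gcd (m, n)`.** -/
theorem diag_regroup (N M : ℕ) (b : ℕ → ℂ) (α β : ℂ) (W : ℝ → ℂ)
    (hW : ∀ x, Real.log (M + 1 : ℕ) ≤ x → W x = 0) :
    ∑ q ∈ (quadSet N M).filter (fun q => (quadPair q).1 = (quadPair q).2),
        quadCoef b α β q * W (Real.log q.2.1 + Real.log q.2.2) =
      ∑ h ∈ Icc 1 N, ∑ k ∈ Icc 1 N, twistCoef b α β h k * ∑ j ∈ Icc 1 M,
        cexp (-(1 + (α + β)) * clogNat j) *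
          W (2 * Real.log j - (2 * Real.log (h.gcd k) - Real.log h - Real.log k)) := by
  simp only [mul_sum]
  rw [← sum_product', ← sum_product']
  obtain ⟨f, hf⟩ : ∃ f : (ℕ × ℕ) × ℕ → ℕ × ℕ,
      f = fun r => (r.2 * (r.1.2 / r.1.1.gcd r.1.2), r.2 * (r.1.1 / r.1.1.gcd r.1.2)) :=
    ⟨_, rfl⟩
  have hfpos : ∀ r : (ℕ × ℕ) × ℕ, r ∈ (Icc 1 N ×ˢ Icc 1 N) ×ˢ Icc 1 M →
      0 < r.1.1.gcd r.1.2 ∧ 0 < r.1.1 / r.1.1.gcd r.1.2 ∧ 0 < r.1.2 / r.1.1.gcd r.1.2 ∧
        0 < r.2 := fun r hr => by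
    simp only [mem_product, mem_Icc] at hr
    exact ⟨Nat.gcd_pos_of_pos_left _ hr.1.1.1, Nat.div_pos
      (Nat.le_of_dvd hr.1.1.1 (Nat.gcd_dvd_left _ _)) (Nat.gcd_pos_of_pos_left _ hr.1.1.1),
      Nat.div_pos (Nat.le_of_dvd hr.1.2.1 (Nat.gcd_dvd_right _ _))
        (Nat.gcd_pos_of_pos_left _ hr.1.1.1), hr.2.1⟩
  have hval : ∀ r : (ℕ × ℕ) × ℕ, r ∈ (Icc 1 N ×ˢ Icc 1 N) ×ˢ Icc 1 M →
      Real.log (f r).1 + Real.log (f r).2 = 2 * Real.log r.2 -
        (2 * Real.log (r.1.1.gcd r.1.2) - Real.log r.1.1 - Real.log r.1.2) ∧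
      quadCoef b α β (r.1, f r) = twistCoef b α β r.1.1 r.1.2 *
        cexp (-(1 + (α + β)) * clogNat r.2) := fun r hr => by
    obtain ⟨hd, h1, h2, hj⟩ := hfpos r hr
    simp only [hf]
    have eh := clogNat_mul hd h1
    have ek := clogNat_mul hd h2
    rw [Nat.mul_div_cancel' (Nat.gcd_dvd_left _ _)] at eh
    rw [Nat.mul_div_cancel' (Nat.gcd_dvd_right _ _)] at ek
    constructor
    · have e1 := congrArg Complex.re eh
      have e2 := congrArg Complex.re ek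
      simp only [clogNat, add_re, ofReal_re] at e1 e2
      rw [Nat.cast_mul, Nat.cast_mul, Real.log_mul (Nat.cast_ne_zero.2 hj.ne')
        (Nat.cast_ne_zero.2 h2.ne'), Real.log_mul (Nat.cast_ne_zero.2 hj.ne')
        (Nat.cast_ne_zero.2 h1.ne')]
      linarith
    · rw [quadCoef, twistCoef, mul_assoc (b r.1.1 * conj (b r.1.2)) (cexp _) (cexp _),
        ← Complex.exp_add]
      congr 2
      simp only [clogNat_mul hj h2, clogNat_mul hj h1, eh, ek]
      ring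
  have key : ∀ q ∈ (quadSet N M).filter (fun q => (quadPair q).1 = (quadPair q).2),
      f (q.1, q.2.1.gcd q.2.2) = q.2 ∧
        (q.1, q.2.1.gcd q.2.2) ∈ (Icc 1 N ×ˢ Icc 1 N) ×ˢ Icc 1 M ∧ q.2.1 * q.2.2 ≤ M := by
    intro q hq
    rw [mem_filter, mem_quadSet] at hq
    obtain ⟨⟨⟨h1, h2⟩, ⟨⟨m1, m2⟩, n1, n2⟩, hmn⟩, he⟩ := hq
    simp only [quadPair] at he
    obtain ⟨⟨h, k⟩, m, n⟩ := q
    simp only at h1 h2 m1 m2 n1 n2 hmn he ⊢
    have hd : 0 < h.gcd k := Nat.gcd_pos_of_pos_left _ h1.1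
    have hc := Nat.coprime_div_gcd_div_gcd hd
    have he' : m * (h / h.gcd k) = n * (k / h.gcd k) := by
      apply Nat.eq_of_mul_eq_mul_right hd
      rw [mul_assoc, mul_assoc, Nat.div_mul_cancel (Nat.gcd_dvd_left _ _),
        Nat.div_mul_cancel (Nat.gcd_dvd_right _ _), he]
    have em : m.gcd n * (k / h.gcd k) = m := by
      rw [← Nat.gcd_mul_right, ← he', Nat.gcd_mul_left, Nat.Coprime.gcd_eq_one hc.symm, mul_one]
    have en : m.gcd n * (h / h.gcd k) = n := by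
      rw [← Nat.gcd_mul_right, he', Nat.gcd_mul_left, Nat.Coprime.gcd_eq_one hc.symm, mul_one]
    refine ⟨by rw [hf]; exact Prod.ext em en, ?_, hmn⟩
    simp only [mem_product, mem_Icc]
    exact ⟨⟨h1, h2⟩, Nat.gcd_pos_of_pos_left _ m1,
      (Nat.le_of_dvd m1 (Nat.gcd_dvd_left _ _)).trans m2⟩
  rw [← sum_filter_of_ne (s := (Icc 1 N ×ˢ Icc 1 N) ×ˢ Icc 1 M)
    (p := fun r => (f r).1 * (f r).2 ≤ M) fun r hr hne => ?_]
  · refine sum_nbij' (fun q => (q.1, q.2.1.gcd q.2.2)) (fun r => (r.1, f r)) ?_ ?_ ?_ ?_ ?_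
    · intro q hq
      obtain ⟨k1, k2, k3⟩ := key q hq
      rw [mem_filter, k1]
      exact ⟨k2, k3⟩
    · intro r hr
      rw [mem_filter] at hr
      obtain ⟨hd, h1, h2, hj⟩ := hfpos r hr.1
      have hm : 1 ≤ (f r).1 ∧ 1 ≤ (f r).2 := by
        rw [hf]; exact ⟨Nat.mul_pos hj h2, Nat.mul_pos hj h1⟩
      have hr1 := hr.1
      simp only [mem_product, mem_Icc] at hr1
      rw [mem_filter, mem_quadSet]
      refine ⟨⟨hr1.1, ⟨⟨hm.1, (Nat.le_mul_of_pos_right _ hm.2).trans hr.2⟩, hm.2,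
        (Nat.le_mul_of_pos_left _ hm.1).trans hr.2⟩, hr.2⟩, ?_⟩
      simp only [quadPair, hf]
      rw [mul_assoc, mul_assoc, Nat.div_mul_right_comm (Nat.gcd_dvd_right _ _),
        Nat.div_mul_right_comm (Nat.gcd_dvd_left _ _), mul_comm r.1.2]
    · intro q hq
      exact Prod.ext rfl (key q hq).1
    · intro r hr
      rw [mem_filter] at hr
      obtain ⟨hd, h1, h2, hj⟩ := hfpos r hr.1
      refine Prod.ext rfl ?_
      simp only [hf]
      rw [Nat.gcd_mul_left, Nat.Coprime.gcd_eq_one (Nat.coprime_div_gcd_div_gcd hd).symm, mul_one]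
    · intro q hq
      obtain ⟨k1, k2, -⟩ := key q hq
      obtain ⟨v1, v2⟩ := hval _ k2
      rw [k1] at v1 v2
      simp only at v1 v2 ⊢
      rw [v1, v2]
      ring
  · by_contra hgt
    refine hne ?_
    obtain ⟨hd, h1, h2, hj⟩ := hfpos r hr
    have hm : 0 < (f r).1 ∧ 0 < (f r).2 := by
      rw [hf]; exact ⟨Nat.mul_pos hj h2, Nat.mul_pos hj h1⟩
    rw [hW _ (?_), mul_zero, mul_zero]
    rw [← (hval r hr).1, ← Real.log_mul (Nat.cast_ne_zero.2 hm.1.ne')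
      (Nat.cast_ne_zero.2 hm.2.ne'), ← Nat.cast_mul]
    exact Real.log_le_log (Nat.cast_pos.2 M.succ_pos) (Nat.cast_le.2 (by omega))

end FA.TwistedMoment

end
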