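import Fermat.Agent.TwistedMoment.ChiPair
import Fermat.Agent.TwistedMoment.Expansion

/-!
# The sizes of the coefficients

The shifts are `O (1 / log T)`, so they change `n^(-1/2)` and `gcd (h, k) / hk` by a bounded
factor for `n, h, k ≤ T`.
-/

set_option autoImplicit false

noncomputable section

namespace FA.TwistedMoment

open Complex Finset
open FA.ThreePrimes (logOne)
open scoped Real ComplexConjugate

/-- `2 log gcd (h, k) - log h - log k`. -/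
def twistShift (h k : ℕ) : ℝ := 2 * Real.log (h.gcd k) - Real.log h - Real.log k

theorem Shifts.bound_nonneg {A T : ℝ} {α β : ℂ} (h : Shifts A T α β) (hT : 1 ≤ T) : 0 ≤ A :=
  (mul_nonneg (norm_nonneg α) (Real.log_nonneg hT)).trans h.2.2.1

theorem shift_log_le {A T : ℝ} {α : ℂ} (hα : ‖α‖ * Real.log T ≤ A) {n : ℕ} (h1 : 1 ≤ n)
    (h2 : (n : ℝ) ≤ T) : |α.re * Real.log n| ≤ A := by
  rw [abs_mul, abs_of_nonneg (Real.log_natCast_nonneg n)]
  exact (mul_le_mul (abs_re_le_norm α) (Real.log_le_log (Nat.cast_pos.2 h1) h2)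
    (Real.log_natCast_nonneg n) (norm_nonneg α)).trans hα

theorem norm_quadCoef_le {A T B : ℝ} {α β : ℂ} (hs : Shifts A T α β) {N M : ℕ} (hM : (M : ℝ) ≤ T)
    {b : ℕ → ℂ} (hb : ∀ h ∈ Icc 1 N, ‖b h‖ ≤ B) {q : (ℕ × ℕ) × (ℕ × ℕ)} (hq : q ∈ quadSet N M) :
    ‖quadCoef b α β q‖ ≤
      B ^ 2 * Real.exp (2 * A) / (√((quadPair q).1 : ℝ) * √((quadPair q).2 : ℝ)) := by
  rw [mem_quadSet] at hq
  obtain ⟨⟨⟨h1, h1'⟩, h2, h2'⟩, ⟨⟨m1, m1'⟩, n1, n1'⟩, -⟩ := hq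
  have hB : 0 ≤ B := (norm_nonneg _).trans (hb _ (mem_Icc.2 ⟨h1, h1'⟩))
  have ha : (0 : ℝ) < (quadPair q).1 := Nat.cast_pos.2 (Nat.mul_pos m1 h1)
  have hb' : (0 : ℝ) < (quadPair q).2 := Nat.cast_pos.2 (Nat.mul_pos n1 h2)
  have hsq : ∀ x : ℝ, 0 < x → √x = Real.exp (Real.log x / 2) := fun x hx => by
    rw [Real.sqrt_eq_rpow, Real.rpow_def_of_pos hx]
    ring_nf
  rw [quadCoef, norm_mul, norm_mul, Complex.norm_exp, norm_conj, mul_div_assoc, hsq _ ha,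
    hsq _ hb', ← Real.exp_add, ← Real.exp_sub, pow_two]
  refine mul_le_mul (mul_le_mul (hb _ (mem_Icc.2 ⟨h1, h1'⟩)) (hb _ (mem_Icc.2 ⟨h2, h2'⟩))
    (norm_nonneg _) hB) (Real.exp_le_exp.2 ?_) (Real.exp_pos _).le (by positivity)
  have e1 : Real.log (quadPair q).1 = Real.log q.2.1 + Real.log q.1.1 := by
    rw [quadPair, Nat.cast_mul, Real.log_mul (Nat.cast_ne_zero.2 (by omega))
      (Nat.cast_ne_zero.2 (by omega))]
  have e2 : Real.log (quadPair q).2 = Real.log q.2.2 + Real.log q.1.2 := by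
    rw [quadPair, Nat.cast_mul, Real.log_mul (Nat.cast_ne_zero.2 (by omega))
      (Nat.cast_ne_zero.2 (by omega))]
  have hm := abs_le.1 (shift_log_le hs.2.2.1 m1 (le_trans (Nat.cast_le.2 m1') hM))
  have hn := abs_le.1 (shift_log_le hs.2.2.2 n1 (le_trans (Nat.cast_le.2 n1') hM))
  rw [e1, e2]
  simp only [clogNat, sub_re, neg_re, add_re, mul_re, one_re, Complex.div_ofNat_re, ofReal_re,
    ofReal_im, mul_zero, sub_zero]
  linarith

theorem norm_twistCoef_le {A T B : ℝ} {α β : ℂ} (hs : Shifts A T α β) {N : ℕ} (hN : (N : ℝ) ≤ T)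
    {b : ℕ → ℂ} (hb : ∀ h ∈ Icc 1 N, ‖b h‖ ≤ B) {h k : ℕ} (hh : h ∈ Icc 1 N) (hk : k ∈ Icc 1 N) :
    ‖twistCoef b α β h k‖ ≤ B ^ 2 * Real.exp (4 * A) * ((h.gcd k : ℝ) / (h * k)) := by
  have hB : 0 ≤ B := (norm_nonneg _).trans (hb _ hh)
  have hbh := hb h hh
  have hbk := hb k hk
  rw [mem_Icc] at hh hk
  have hd : 0 < h.gcd k := Nat.gcd_pos_of_pos_left _ hh.1
  have hdN : h.gcd k ≤ N := (Nat.le_of_dvd hh.1 (Nat.gcd_dvd_left _ _)).trans hh.2
  have e : ((h.gcd k : ℝ) / (h * k)) =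
      Real.exp (Real.log (h.gcd k) - (Real.log h + Real.log k)) := by
    rw [Real.exp_sub, Real.exp_add, Real.exp_log (Nat.cast_pos.2 hd),
      Real.exp_log (Nat.cast_pos.2 hh.1), Real.exp_log (Nat.cast_pos.2 hk.1)]
  rw [e, twistCoef, norm_mul, norm_mul, Complex.norm_exp, norm_conj, pow_two,
    mul_assoc (B * B), ← Real.exp_add]
  refine mul_le_mul (mul_le_mul hbh hbk (norm_nonneg _) hB) (Real.exp_le_exp.2 ?_)
    (Real.exp_pos _).le (by positivity)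
  have k1 := abs_le.1 (shift_log_le hs.2.2.1 hk.1 (le_trans (Nat.cast_le.2 hk.2) hN))
  have k2 := abs_le.1 (shift_log_le hs.2.2.2 hh.1 (le_trans (Nat.cast_le.2 hh.2) hN))
  have k3 := abs_le.1 (shift_log_le hs.2.2.1 hd (le_trans (Nat.cast_le.2 hdN) hN))
  have k4 := abs_le.1 (shift_log_le hs.2.2.2 hd (le_trans (Nat.cast_le.2 hdN) hN))
  simp only [clogNat, sub_re, add_re, mul_re, one_re, ofReal_re, ofReal_im, mul_zero, sub_zero]
  linarith

theorem logOne_le_of_le {T : ℝ} {N : ℕ} (h1 : 1 ≤ N) (hN : (N : ℝ) ≤ T) :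
    logOne N ≤ 1 + Real.log T :=
  add_le_add le_rfl (Real.log_le_log (Nat.cast_pos.2 h1) hN)

theorem sum_norm_twistCoef_le {A T B : ℝ} {α β : ℂ} (hs : Shifts A T α β) {N : ℕ} (h1 : 1 ≤ N)
    (hN : (N : ℝ) ≤ T) {b : ℕ → ℂ} (hb : ∀ h ∈ Icc 1 N, ‖b h‖ ≤ B) :
    ∑ h ∈ Icc 1 N, ∑ k ∈ Icc 1 N, ‖twistCoef b α β h k‖ ≤
      B ^ 2 * Real.exp (4 * A) * (1 + Real.log T) ^ 3 := by
  refine (sum_le_sum fun h hh => sum_le_sum fun k hk => norm_twistCoef_le hs hN hb hh hk).trans ?_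
  simp only [← mul_sum]
  refine mul_le_mul_of_nonneg_left ((sum_gcd_div_le N).trans ?_) (by positivity)
  exact pow_le_pow_left₀ (by linarith [FA.ThreePrimes.one_le_logOne N]) (logOne_le_of_le h1 hN) 3

/-- The off-diagonal sum for `N, M ≤ T`. -/
theorem sum_offTerm_le_scale {T : ℝ} (hT : 4 ≤ T) {N M : ℕ} (h1 : 1 ≤ N) (hN : (N : ℝ) ≤ T)
    (hM1 : 1 ≤ M) (hM : (M : ℝ) ≤ T) :
    ∑ q ∈ quadSet N M, offTerm q ≤ 2608 * N * √T * (1 + Real.log T) ^ 4 := by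
  have hL : 1 ≤ 1 + Real.log T := by linarith [Real.log_nonneg (show 1 ≤ T by linarith)]
  have hsT : 1 ≤ √T := Real.one_le_sqrt.2 (by linarith)
  have hsM : √(M : ℝ) ≤ √T := Real.sqrt_le_sqrt hM
  obtain ⟨X, hX⟩ : ∃ X : ℕ, X = 2 * N * (Nat.sqrt M + 1) := ⟨_, rfl⟩
  have hX1 : 1 ≤ X := by
    rw [hX]; exact Nat.mul_pos (Nat.mul_pos two_pos h1) (Nat.succ_pos _)
  have hXle : (X : ℝ) ≤ 4 * N * √T := by
    rw [hX]
    push_cast
    have hsq : (Nat.sqrt M : ℝ) ≤ √T := (Real.nat_sqrt_le_real_sqrt (a := M)).trans hsM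
    nlinarith [Nat.cast_nonneg (α := ℝ) N]
  have hlogX : logOne X ≤ 3 * (1 + Real.log T) := by
    have hsle : √T ≤ T := by
      refine (Real.sqrt_le_iff).2 ⟨by linarith, ?_⟩
      nlinarith
    have hXT : (X : ℝ) ≤ T ^ 3 := by
      refine hXle.trans ?_
      calc 4 * (N : ℝ) * √T ≤ T * T * T := by gcongr
        _ = T ^ 3 := by ring
    have h := Real.log_le_log (Nat.cast_pos.2 hX1) hXT
    rw [Real.log_pow] at h
    simp only [logOne]
    push_cast at h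
    linarith
  refine (sum_offTerm_le N M).trans ?_
  rw [← hX]
  have hl := FA.ThreePrimes.one_le_logOne X
  calc 16 * (N : ℝ) * √(M : ℝ) * logOne M + 8 * (X : ℝ) * logOne X ^ 4
      ≤ 16 * N * √T * (1 + Real.log T) ^ 4 +
          8 * (4 * N * √T) * (3 * (1 + Real.log T)) ^ 4 := by
        gcongr
        · linarith [FA.ThreePrimes.one_le_logOne M]
        · exact (logOne_le_of_le hM1 hM).trans (le_self_pow₀ hL (by norm_num))
    _ = _ := by ring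

theorem twistShift_bounds {N h k : ℕ} (hh : h ∈ Icc 1 N) (hk : k ∈ Icc 1 N) :
    twistShift h k ≤ 0 ∧ -(2 * Real.log N) ≤ twistShift h k := by
  rw [mem_Icc] at hh hk
  have hd : 0 < h.gcd k := Nat.gcd_pos_of_pos_left _ hh.1
  have l1 := Real.log_le_log (Nat.cast_pos.2 hd)
    (Nat.cast_le.2 (Nat.le_of_dvd hh.1 (Nat.gcd_dvd_left h k)))
  have l2 := Real.log_le_log (Nat.cast_pos.2 hd)
    (Nat.cast_le.2 (Nat.le_of_dvd hk.1 (Nat.gcd_dvd_right h k)))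
  have l3 := Real.log_le_log (Nat.cast_pos.2 hh.1) (Nat.cast_le.2 hh.2)
  have l4 := Real.log_le_log (Nat.cast_pos.2 hk.1) (Nat.cast_le.2 hk.2)
  have l5 := Real.log_natCast_nonneg (h.gcd k)
  unfold twistShift
  constructor <;> linarith

/-- The two twisted coefficients differ by `e^(γ c)`. -/
theorem twistCoef_swap (b : ℕ → ℂ) (α β : ℂ) (h k : ℕ) :
    twistCoef b α β h k =
      twistCoef b (-β) (-α) h k * cexp ((α + β) * (twistShift h k : ℂ)) := by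
  rw [twistCoef, twistCoef, mul_assoc _ (cexp _) (cexp _), ← Complex.exp_add]
  congr 2
  simp only [twistShift, clogNat]
  push_cast
  ring

end FA.TwistedMoment

end
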