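import Fermat.Agent.TwistedMoment.Oscillatory
import Fermat.Agent.TwistedMoment.Weights
import Fermat.Agent.TwistedMoment.DiagonalSeries

/-!
# Each of the two sums against `|ψ|²` over `[T, 2T]`

Both integrals are their diagonals plus `O (B² ∑ (m n h k)^(-1/2) / |log (n k / m h)|)`.
-/

set_option autoImplicit false

noncomputable section

namespace FA.TwistedMoment

open Complex Finset MeasureTheory
open FA.SelbergCLT (cutoff cutoff_eq_zero natCast_cpow_eq_exp exists_norm_cutoff_le)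
open scoped Real Interval

theorem norm_sum_sub_diag_le {A T B : ℝ} {α β : ℂ} (hs : Shifts A T α β) {N M : ℕ}
    (hM : (M : ℝ) ≤ T) {b : ℕ → ℂ} (hb : ∀ h ∈ Icc 1 N, ‖b h‖ ≤ B)
    (F : (ℕ × ℕ) × (ℕ × ℕ) → ℂ) {K : ℝ}
    (hF : ∀ q ∈ quadSet N M, (quadPair q).1 ≠ (quadPair q).2 → ‖F q‖ ≤ K / |quadFreq q|) :
    ‖(∑ q ∈ quadSet N M, quadCoef b α β q * F q) -
        ∑ q ∈ (quadSet N M).filter (fun q => (quadPair q).1 = (quadPair q).2),
          quadCoef b α β q * F q‖ ≤
      B ^ 2 * Real.exp (2 * A) * K * ∑ q ∈ quadSet N M, offTerm q := by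
  rw [← sum_filter_add_sum_filter_not (quadSet N M) (fun q => (quadPair q).1 = (quadPair q).2)
    (fun q => quadCoef b α β q * F q), add_sub_cancel_left, mul_sum]
  refine (norm_sum_le _ _).trans ?_
  rw [← sum_filter_add_sum_filter_not (quadSet N M) (fun q => (quadPair q).1 = (quadPair q).2)
    (fun q => B ^ 2 * Real.exp (2 * A) * K * offTerm q)]
  refine (sum_le_sum fun q hq => ?_).trans (le_add_of_nonneg_left (le_of_eq ?_))
  · rw [mem_filter] at hq
    rw [norm_mul, offTerm, if_neg hq.2]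
    refine (mul_le_mul (norm_quadCoef_le hs hM hb hq.1) (hF q hq.1 hq.2) (norm_nonneg _)
      (by positivity)).trans (le_of_eq ?_)
    rw [quadFreq]
    ring
  · symm
    refine sum_eq_zero fun q hq => ?_
    rw [offTerm, if_pos (mem_filter.1 hq).2, mul_zero]

theorem quadFreq_eq_zero {q : (ℕ × ℕ) × (ℕ × ℕ)} (h : (quadPair q).1 = (quadPair q).2) :
    quadFreq q = 0 := by
  rw [quadFreq, h, sub_self]

theorem quadFreq_ne_zero {N M : ℕ} {q : (ℕ × ℕ) × (ℕ × ℕ)} (hq : q ∈ quadSet N M)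
    (h : (quadPair q).1 ≠ (quadPair q).2) : quadFreq q ≠ 0 := by
  rw [mem_quadSet] at hq
  obtain ⟨⟨⟨h1, -⟩, h2, -⟩, ⟨⟨m1, -⟩, n1, -⟩, -⟩ := hq
  intro h0
  exact h (Nat.cast_injective (R := ℝ) (Real.log_injOn_pos
    (Set.mem_Ioi.2 (Nat.cast_pos.2 (Nat.mul_pos m1 h1)))
    (Set.mem_Ioi.2 (Nat.cast_pos.2 (Nat.mul_pos n1 h2))) (sub_eq_zero.1 h0).symm))

/-- **The first part.** -/
theorem exists_direct_part_le (A : ℝ) : ∃ C, 0 ≤ C ∧ ∀ (T B ℓ : ℝ) (α β : ℂ) (N M : ℕ)
    (b : ℕ → ℂ), 64 ≤ T → Shifts A T α β → (M : ℝ) ≤ T → ℓ + 1 / 10 ≤ Real.log (M + 1 : ℕ) →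
    (∀ h ∈ Icc 1 N, ‖b h‖ ≤ B) →
    ‖(∫ t in T..2 * T, pairSum M ℓ α β t * ((‖mollPoly N b t‖ ^ 2 : ℝ) : ℂ)) -
        ∑ h ∈ Icc 1 N, ∑ k ∈ Icc 1 N,
          twistCoef b α β h k * ((T : ℂ) * diagSeries M (α + β) (ℓ + twistShift h k))‖ ≤
      C * B ^ 2 * ∑ q ∈ quadSet N M, offTerm q := by
  obtain ⟨K, hK0, hK⟩ := exists_phase_le A
  obtain ⟨Bc, hBc1, hBc⟩ := exists_norm_cutoff_le
  refine ⟨Real.exp (2 * A) * (Bc * K), by positivity,
    fun T B ℓ α β N M b hT hs hM hℓ hb => ?_⟩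
  obtain ⟨F, hF⟩ : ∃ F : (ℕ × ℕ) × (ℕ × ℕ) → ℂ, F = fun q =>
      cutoff (Real.log q.2.1 + Real.log q.2.2 - ℓ) *
        ∫ t in T..2 * T, cexp ((quadFreq q : ℂ) * t * I) := ⟨_, rfl⟩
  have e1 : (∫ t in T..2 * T, pairSum M ℓ α β t * ((‖mollPoly N b t‖ ^ 2 : ℝ) : ℂ)) =
      ∑ q ∈ quadSet N M, quadCoef b α β q * F q := by
    simp only [pairSum_mul_normSq hℓ]
    rw [intervalIntegral.integral_finsetSum fun q _ =>
      (Continuous.intervalIntegrable (by fun_prop) _ _)]
    refine sum_congr rfl fun q _ => ?_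
    rw [intervalIntegral.integral_const_mul, hF]
    ring
  have e2 : (∑ q ∈ (quadSet N M).filter (fun q => (quadPair q).1 = (quadPair q).2),
      quadCoef b α β q * F q) = ∑ h ∈ Icc 1 N, ∑ k ∈ Icc 1 N,
        twistCoef b α β h k * ((T : ℂ) * diagSeries M (α + β) (ℓ + twistShift h k)) := by
    have h1 := diag_regroup N M b α β (fun x => (T : ℂ) * cutoff (x - ℓ)) fun x hx => by
      rw [cutoff_eq_zero (by linarith), mul_zero]
    refine (sum_congr rfl fun q hq => ?_).trans (h1.trans ?_)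
    · rw [hF]
      simp only [quadFreq_eq_zero (mem_filter.1 hq).2, ofReal_zero, zero_mul,
        Complex.exp_zero, intervalIntegral.integral_const,
        real_smul]
      push_cast
      ring
    · refine sum_congr rfl fun h _ => sum_congr rfl fun k _ => ?_
      rw [diagSeries, mul_sum (a := (T : ℂ))]
      congr 1
      refine sum_congr rfl fun j hj => ?_
      rw [natCast_cpow_eq_exp (mem_Icc.1 hj).1, clogNat, twistShift,
        mul_comm (Real.log j : ℂ)]
      ring_nf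
  rw [e1, ← e2]
  refine (norm_sum_sub_diag_le hs hM hb F (K := Bc * K) fun q hq hne => ?_).trans
    (le_of_eq (by ring))
  rw [hF, norm_mul, mul_div_assoc]
  exact mul_le_mul (hBc _) (hK T 0 _ α β hT hs (quadFreq_ne_zero hq hne)).1 (norm_nonneg _)
    (by linarith)

/-- **The second part.** -/
theorem exists_dual_part_le (A : ℝ) : ∃ C, 0 ≤ C ∧ ∀ (T B : ℝ) (α β : ℂ) (N M : ℕ)
    (b : ℕ → ℂ), 64 ≤ T → Shifts A T α β → (M : ℝ) ≤ T →
    (∀ t ∈ Set.Icc T (2 * T), 2 * tau t - tau T + 1 / 10 ≤ Real.log (M + 1 : ℕ)) →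
    (∀ h ∈ Icc 1 N, ‖b h‖ ≤ B) →
    ‖(∫ t in T..2 * T, cexp (-(α + β) * tau t) *
          pairSum M (2 * tau t - tau T) (-β) (-α) t * ((‖mollPoly N b t‖ ^ 2 : ℝ) : ℂ)) -
        ∑ h ∈ Icc 1 N, ∑ k ∈ Icc 1 N, twistCoef b (-β) (-α) h k *
          ∫ t in T..2 * T, cexp (-(α + β) * tau t) *
            diagSeries M (-(α + β)) (2 * tau t - tau T + twistShift h k)‖ ≤
      C * B ^ 2 * ∑ q ∈ quadSet N M, offTerm q := by
  obtain ⟨K, hK0, hK⟩ := exists_phase_le A
  refine ⟨Real.exp (2 * A) * K, by positivity, fun T B α β N M b hT hs hM hℓ hb => ?_⟩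
  have hu : Set.uIcc T (2 * T) = Set.Icc T (2 * T) := Set.uIcc_of_le (by linarith)
  have hcont : ∀ x, ContinuousOn (dualWeight (α + β) T x) (Set.uIcc T (2 * T)) := fun x => by
    rw [hu]; exact continuousOn_dualWeight _ _ _ (by linarith)
  obtain ⟨F, hF⟩ : ∃ F : (ℕ × ℕ) × (ℕ × ℕ) → ℂ, F = fun q => ∫ t in T..2 * T,
      dualWeight (α + β) T (Real.log q.2.1 + Real.log q.2.2) t *
        cexp ((quadFreq q : ℂ) * t * I) := ⟨_, rfl⟩
  have e1 : (∫ t in T..2 * T, cexp (-(α + β) * tau t) *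
      pairSum M (2 * tau t - tau T) (-β) (-α) t * ((‖mollPoly N b t‖ ^ 2 : ℝ) : ℂ)) =
        ∑ q ∈ quadSet N M, quadCoef b (-β) (-α) q * F q := by
    rw [hF]
    simp only [← intervalIntegral.integral_const_mul]
    have hi : ∀ q : (ℕ × ℕ) × (ℕ × ℕ), IntervalIntegrable (fun t : ℝ => quadCoef b (-β) (-α) q *
        (dualWeight (α + β) T (Real.log q.2.1 + Real.log q.2.2) t *
          cexp ((quadFreq q : ℂ) * t * I))) volume T (2 * T) := fun q =>
      (((hcont _).mul (Continuous.continuousOn (by fun_prop))).intervalIntegrable).const_mul _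
    rw [← intervalIntegral.integral_finsetSum fun q _ => hi q]
    refine intervalIntegral.integral_congr fun t ht => ?_
    rw [hu] at ht
    simp only [mul_assoc (cexp _) (pairSum _ _ _ _ _), pairSum_mul_normSq (hℓ t ht), mul_sum]
    refine sum_congr rfl fun q _ => ?_
    rw [dualWeight]
    ring
  have e2 : (∑ q ∈ (quadSet N M).filter (fun q => (quadPair q).1 = (quadPair q).2),
      quadCoef b (-β) (-α) q * F q) = ∑ h ∈ Icc 1 N, ∑ k ∈ Icc 1 N,
        twistCoef b (-β) (-α) h k * ∫ t in T..2 * T, cexp (-(α + β) * tau t) *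
          diagSeries M (-(α + β)) (2 * tau t - tau T + twistShift h k) := by
    have h1 := diag_regroup N M b (-β) (-α)
      (fun x => ∫ t in T..2 * T, dualWeight (α + β) T x t) fun x hx => by
        refine (intervalIntegral.integral_congr fun t ht => ?_).trans
          intervalIntegral.integral_zero
        rw [hu] at ht
        rw [dualWeight, cutoff_eq_zero (by linarith [hℓ t ht]), mul_zero]
    refine (sum_congr rfl fun q hq => ?_).trans (h1.trans ?_)
    · rw [hF]
      simp only [quadFreq_eq_zero (mem_filter.1 hq).2, ofReal_zero, zero_mul, Complex.exp_zero,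
        mul_one]
    · refine sum_congr rfl fun h _ => sum_congr rfl fun k _ => ?_
      have hi : ∀ j : ℕ, IntervalIntegrable (fun t : ℝ => cexp (-(1 + (-β + -α)) * clogNat j) *
          dualWeight (α + β) T
            (2 * Real.log j - (2 * Real.log (h.gcd k) - Real.log h - Real.log k)) t)
          volume T (2 * T) := fun j => ((hcont _).intervalIntegrable).const_mul _
      simp only [← intervalIntegral.integral_const_mul]
      rw [← intervalIntegral.integral_finsetSum fun j _ => hi j,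
        intervalIntegral.integral_const_mul]
      congr 1
      refine intervalIntegral.integral_congr fun t _ => ?_
      simp only [diagSeries, dualWeight, mul_sum]
      refine sum_congr rfl fun j hj => ?_
      rw [natCast_cpow_eq_exp (mem_Icc.1 hj).1, clogNat, twistShift, mul_comm (Real.log j : ℂ)]
      ring_nf
  rw [e1, ← e2]
  refine (norm_sum_sub_diag_le hs.swap hM hb F (K := K) fun q hq hne => ?_).trans
    (le_of_eq (by ring))
  rw [hF]
  exact (hK T _ _ α β hT hs (quadFreq_ne_zero hq hne)).2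

end FA.TwistedMoment

end
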