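import Fermat.Agent.TwistedMoment.Product
import Fermat.Agent.TwistedMoment.Parts

/-!
# The twisted second moment of `ζ`

`∫_T^2T ζ (1/2 + it + α) ζ (1/2 - it + β) |∑ b h h^(-1/2-it)|²` is
`T ζ (1+α+β) S (α, β) + ∫ (t/2π)^(-α-β) ζ (1-α-β) S (-β, -α)` up to
`O (B² (N √T + √N T^(3/4)) (log T)^4)`.
-/

set_option autoImplicit false

noncomputable section

namespace FA.TwistedMoment

open Complex Finset MeasureTheory
open FA.SelbergCLT (cutoff cutoff_eq_one g₀ exists_norm_cutoff_le)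
open scoped Real Interval

/-- The main term. -/
def momentMain (N : ℕ) (b : ℕ → ℂ) (T : ℝ) (α β : ℂ) : ℂ :=
  (T : ℂ) * riemannZeta (1 + (α + β)) * twistSum N b α β +
    (∫ t in T..2 * T, cexp (-(α + β) * tau t)) * riemannZeta (1 - (α + β)) *
      twistSum N b (-β) (-α)

theorem norm_cexp_tau_le {A T t : ℝ} {α β : ℂ} (hs : Shifts A T α β) (hT : 16 ≤ T) (ht : T ≤ t)
    (ht' : t ≤ 2 * T) : ‖cexp (-(α + β) * tau t)‖ ≤ Real.exp (2 * A) := by
  rw [Complex.norm_exp, Real.exp_le_exp]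
  have h := abs_le.1 (hs.re_mul_tau hT ht ht')
  simp only [mul_re, neg_re, ofReal_re, ofReal_im, mul_zero, sub_zero] at h ⊢
  linarith

/-- The mean square of the polynomial. -/
theorem exists_mollPoly_meanSquare_le (A : ℝ) : ∃ C, 0 ≤ C ∧ ∀ (T B : ℝ) (α β : ℂ) (N : ℕ)
    (b : ℕ → ℂ), 64 ≤ T → Shifts A T α β → 1 ≤ N → (N : ℝ) ≤ T →
    (∀ h ∈ Icc 1 N, ‖b h‖ ≤ B) →
    (∫ t in T..2 * T, ‖mollPoly N b t‖ ^ 2) ≤
      C * B ^ 2 * (T + N * √T) * (1 + Real.log T) ^ 4 := by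
  obtain ⟨K, hK0, hK⟩ := exists_direct_part_le A
  obtain ⟨Bc, hBc1, hBc⟩ := exists_norm_cutoff_le
  refine ⟨2608 * K + Real.exp (4 * A) * Bc, by positivity,
    fun T B α β N b hT hs h1 hN hb => ?_⟩
  have hA := hs.bound_nonneg (by linarith)
  have h0 : Shifts A T 0 0 := by
    refine ⟨?_, ?_, ?_, ?_⟩ <;> simp [hA]
  have hL : 1 ≤ 1 + Real.log T := by linarith [Real.log_nonneg (show 1 ≤ T by linarith)]
  have hps : ∀ t, pairSum 1 (1 / 5) 0 0 t = 1 := fun t => by
    simp only [pairSum, pairTerm, Finset.Icc_self, Finset.sum_singleton, Nat.cast_one,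
      Real.log_one, Complex.one_cpow, mul_one]
    exact cutoff_eq_one (by norm_num)
  have hd : ∀ h ∈ Icc 1 N, ∀ k ∈ Icc 1 N,
      ‖(T : ℂ) * diagSeries 1 (0 + 0) (1 / 5 + twistShift h k)‖ ≤ T * Bc := fun h _ k _ => by
    simp only [diagSeries, Finset.Icc_self, Finset.sum_singleton, Nat.cast_one, Complex.one_cpow,
      mul_one]
    rw [norm_mul, Complex.norm_real, Real.norm_of_nonneg (by linarith)]
    exact mul_le_mul_of_nonneg_left (hBc _) (by linarith)
  have h := hK T B (1 / 5) 0 0 N 1 b hT h0 (by push_cast; linarith)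
    (by push_cast; norm_num; linarith [Real.log_two_gt_d9]) hb
  simp only [hps, one_mul] at h
  rw [intervalIntegral.integral_ofReal] at h
  refine le_trans (le_trans (le_abs_self _) ?_) (le_of_eq rfl)
  rw [← Real.norm_eq_abs, ← Complex.norm_real]
  refine (norm_le_norm_sub_add _ (∑ h ∈ Icc 1 N, ∑ k ∈ Icc 1 N,
    twistCoef b 0 0 h k * ((T : ℂ) * diagSeries 1 (0 + 0) (1 / 5 + twistShift h k)))).trans ?_
  refine (add_le_add (h.trans (mul_le_mul_of_nonneg_left
    (sum_offTerm_le_scale (by linarith) h1 hN le_rfl (by push_cast; linarith)) (by positivity)))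
    ((norm_sum_le _ _).trans (sum_le_sum fun h hh => (norm_sum_le _ _).trans
      (sum_le_sum fun k hk => (norm_mul_le _ _).trans (mul_le_mul_of_nonneg_left (hd h hh k hk)
        (norm_nonneg _)))))).trans ?_
  simp only [← sum_mul]
  have hS := sum_norm_twistCoef_le h0 h1 hN hb
  have hp : (1 + Real.log T) ^ 3 ≤ (1 + Real.log T) ^ 4 := pow_le_pow_right₀ hL (by norm_num)
  have hT0 : 0 ≤ T * Bc := mul_nonneg (by linarith) (by linarith)
  refine (add_le_add le_rfl (mul_le_mul_of_nonneg_right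
    (hS.trans (mul_le_mul_of_nonneg_left hp (by positivity))) hT0)).trans ?_
  have e1 : 0 ≤ K * B ^ 2 * (1 + Real.log T) ^ 4 * T := by positivity
  have e2 : 0 ≤ Real.exp (4 * A) * Bc * B ^ 2 * (1 + Real.log T) ^ 4 * ((N : ℝ) * √T) := by
    positivity
  linarith

theorem exp_quarter_le {T ℓ c : ℝ} (hT : 0 < T) {N : ℕ} (h1 : 1 ≤ N) (hℓ : tau T ≤ ℓ)
    (hc : -(2 * Real.log N) ≤ c) :
    Real.exp (-(ℓ + c) / 4) ≤ 2 * √(N : ℝ) * T ^ (-(1 / 4) : ℝ) := by
  have hN : (0 : ℝ) < N := Nat.cast_pos.2 h1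
  have hπ : Real.log (2 * π) ≤ 4 * Real.log 2 := by
    rw [← Real.log_rpow two_pos]
    refine Real.log_le_log (by positivity) ?_
    have := Real.pi_lt_d2
    norm_num
    linarith
  rw [tau, Real.log_div hT.ne' (by positivity)] at hℓ
  refine (Real.exp_le_exp.2 (show -(ℓ + c) / 4 ≤
    Real.log 2 + Real.log N * (1 / 2) + Real.log T * -(1 / 4) by linarith)).trans (le_of_eq ?_)
  rw [Real.exp_add, Real.exp_add, Real.exp_log two_pos, Real.sqrt_eq_rpow,
    Real.rpow_def_of_pos hN, Real.rpow_def_of_pos hT]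

theorem diag_scale {T ℓ : ℝ} (hT : 64 ≤ T) {M : ℕ} (hM : T - 1 ≤ M)
    (hℓ : ℓ + 1 / 10 ≤ Real.log T) : Real.exp ((ℓ + 1 / 10) / 2) ≤ M := by
  obtain ⟨y, hy⟩ : ∃ y, y = Real.exp (Real.log T / 2) := ⟨_, rfl⟩
  have hy2 : y * y = T := by
    rw [hy, ← Real.exp_add, add_halves, Real.exp_log (by linarith)]
  have hy0 : 0 < y := hy ▸ Real.exp_pos _
  refine le_trans (Real.exp_le_exp.2 (div_le_div_of_nonneg_right hℓ zero_le_two)) ?_
  rw [← hy]
  nlinarith

/-- **One pair `h, k`.** -/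
theorem exists_pair_diag_le (A : ℝ) : ∃ C, 0 ≤ C ∧ ∀ (T B : ℝ) (α β : ℂ) (N M : ℕ)
    (b : ℕ → ℂ), 64 ≤ T → Shifts A T α β → α + β ≠ 0 → (N : ℝ) ≤ T → T - 1 ≤ M →
    (∀ t ∈ Set.Icc T (2 * T), 2 * tau t - tau T + 1 / 10 ≤ Real.log T) →
    (∀ h ∈ Icc 1 N, ‖b h‖ ≤ B) → ∀ h ∈ Icc 1 N, ∀ k ∈ Icc 1 N,
    ‖twistCoef b α β h k * ((T : ℂ) * diagSeries M (α + β) (tau T + twistShift h k)) +
        twistCoef b (-β) (-α) h k * (∫ t in T..2 * T, cexp (-(α + β) * tau t) *
          diagSeries M (-(α + β)) (2 * tau t - tau T + twistShift h k)) -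
        ((T : ℂ) * riemannZeta (1 + (α + β)) * twistCoef b α β h k +
          (∫ t in T..2 * T, cexp (-(α + β) * tau t)) * riemannZeta (1 - (α + β)) *
            twistCoef b (-β) (-α) h k)‖ ≤
      C * (‖twistCoef b α β h k‖ + ‖twistCoef b (-β) (-α) h k‖) * √(N : ℝ) *
        (T * T ^ (-(1 / 4) : ℝ)) := by
  obtain ⟨C, hC0, hC⟩ := exists_diagSeries_sub_le
  refine ⟨2 * C * (1 + Real.exp (2 * A)), by positivity,
    fun T B α β N M b hT hs hγ hN hM hℓ hb h hh k hk => ?_⟩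
  have h1N : 1 ≤ N := le_trans (mem_Icc.1 hh).1 (mem_Icc.1 hh).2
  obtain ⟨γ, hγdef⟩ : ∃ γ, γ = α + β := ⟨_, rfl⟩
  obtain ⟨c, hc⟩ : ∃ c, c = twistShift h k := ⟨_, rfl⟩
  obtain ⟨hc0, hc1⟩ := twistShift_bounds hh hk
  rw [← hc] at hc0 hc1 ⊢
  have hγ10 : ‖γ‖ ≤ 1 / 10 := by
    rw [hγdef]; exact (norm_add_le α β).trans (by linarith [hs.1, hs.2.1])
  have hτT : tau T + 1 / 10 ≤ Real.log T := by
    have h := hℓ T ⟨le_rfl, by linarith⟩
    linarith
  have hT0 : 0 < T := by linarith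
  rw [← hγdef]
  obtain ⟨U, hU⟩ : ∃ U : ℂ, U = cexp (γ / 2 * ((c - tau T : ℝ) : ℂ)) * g₀ (γ / 2) / γ := ⟨_, rfl⟩
  have htw : twistCoef b α β h k * (cexp (-γ / 2 * ((tau T + c : ℝ) : ℂ)) * g₀ (γ / 2) / γ) =
      twistCoef b (-β) (-α) h k * U := by
    rw [twistCoef_swap b α β h k, ← hc, ← hγdef, hU, mul_assoc]
    congr 1
    rw [← mul_div_assoc, ← mul_assoc, ← Complex.exp_add]
    congr 3
    push_cast
    ring
  obtain ⟨X, hX⟩ : ∃ X : ℂ, X = diagSeries M γ (tau T + c) -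
      (riemannZeta (1 + γ) - cexp (-γ / 2 * ((tau T + c : ℝ) : ℂ)) * g₀ (γ / 2) / γ) := ⟨_, rfl⟩
  have hXb : ‖X‖ ≤ C * (2 * √(N : ℝ) * T ^ (-(1 / 4) : ℝ)) := by
    rw [hX]
    exact (hC M γ _ (hγdef ▸ hγ) hγ10 (diag_scale hT hM (by linarith))).trans
      (mul_le_mul_of_nonneg_left (exp_quarter_le hT0 h1N le_rfl hc1) hC0)
  have hu : Set.uIcc T (2 * T) = Set.Icc T (2 * T) := Set.uIcc_of_le (by linarith)
  have hτc : ContinuousOn (fun t : ℝ => tau t) (Set.uIcc T (2 * T)) := fun t ht => by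
    rw [hu] at ht
    exact (hasDerivAt_tau (by linarith [ht.1])).continuousAt.continuousWithinAt
  have hec : ContinuousOn (fun t : ℝ => cexp (-γ * tau t)) (Set.uIcc T (2 * T)) :=
    (continuousOn_const.mul (continuous_ofReal.comp_continuousOn hτc)).cexp
  obtain ⟨D, hD⟩ : ∃ D : ℝ → ℂ, D = fun t : ℝ =>
      cexp (-γ * tau t) * diagSeries M (-γ) (2 * tau t - tau T + c) := ⟨_, rfl⟩
  have hDc : ContinuousOn D (Set.uIcc T (2 * T)) := by
    rw [hD]
    obtain ⟨-, -, hd, -⟩ := exists_cutoff_deriv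
    refine hec.mul ?_
    unfold diagSeries
    exact continuousOn_finsetSum _ fun j _ => (hd.continuous.comp_continuousOn
      (continuousOn_const.sub (((continuousOn_const.mul hτc).sub continuousOn_const).add
        continuousOn_const))).mul continuousOn_const
  have hJ : ‖(∫ t in T..2 * T, D t) -
      ((∫ t in T..2 * T, cexp (-γ * tau t)) * riemannZeta (1 - γ) + (T : ℂ) * U)‖ ≤
        Real.exp (2 * A) * (C * (2 * √(N : ℝ) * T ^ (-(1 / 4) : ℝ))) * T := by
    have e : (∫ t in T..2 * T, (cexp (-γ * tau t) * riemannZeta (1 - γ) + U)) =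
        (∫ t in T..2 * T, cexp (-γ * tau t)) * riemannZeta (1 - γ) + (T : ℂ) * U := by
      rw [intervalIntegral.integral_add (hec.intervalIntegrable.mul_const _)
        intervalIntegrable_const, intervalIntegral.integral_mul_const,
        intervalIntegral.integral_const, real_smul, show (2 * T - T : ℝ) = T by ring]
    rw [← e, ← intervalIntegral.integral_sub hDc.intervalIntegrable
      ((hec.intervalIntegrable.mul_const _).add intervalIntegrable_const)]
    refine (intervalIntegral.norm_integral_le_of_norm_le_const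
      (C := Real.exp (2 * A) * (C * (2 * √(N : ℝ) * T ^ (-(1 / 4) : ℝ)))) fun t ht => ?_).trans
      (le_of_eq ?_)
    · rw [Set.uIoc_of_le (by linarith)] at ht
      have hl1 : tau T ≤ 2 * tau t - tau T := by
        have : tau T ≤ tau t :=
          Real.log_le_log (by positivity) (div_le_div_of_nonneg_right ht.1.le (by positivity))
        linarith
      have hl2 := hℓ t ⟨ht.1.le, ht.2⟩
      have hR := (hC M (-γ) (2 * tau t - tau T + c) (neg_ne_zero.2 (hγdef ▸ hγ))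
        (by rwa [norm_neg]) (diag_scale hT hM (by linarith))).trans
        (mul_le_mul_of_nonneg_left (exp_quarter_le hT0 h1N hl1 hc1) hC0)
      have e2 : cexp (-γ * tau t) * riemannZeta (1 - γ) + U = cexp (-γ * tau t) *
          (riemannZeta (1 + -γ) - cexp (- -γ / 2 * ((2 * tau t - tau T + c : ℝ) : ℂ)) *
            g₀ (-γ / 2) / -γ) := by
        have e3 : cexp (γ / 2 * ((c - tau T : ℝ) : ℂ)) = cexp (-γ * tau t) *
            cexp (- -γ / 2 * ((2 * tau t - tau T + c : ℝ) : ℂ)) := by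
          rw [← Complex.exp_add]
          congr 1
          push_cast
          ring
        rw [hU, e3, show g₀ (-γ / 2) = g₀ (γ / 2) by rw [neg_div, g₀_neg] ,
          ← sub_eq_add_neg]
        ring
      rw [hD, e2, ← mul_sub, norm_mul]
      exact mul_le_mul (hγdef ▸ norm_cexp_tau_le hs (by linarith) ht.1.le ht.2) hR (norm_nonneg _)
        (Real.exp_pos _).le
    · rw [show 2 * T - T = T by ring, abs_of_pos hT0]
  simp only [hD] at hJ
  generalize (∫ t in T..2 * T, cexp (-γ * tau t) *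
    diagSeries M (-γ) (2 * tau t - tau T + c)) = J at hJ ⊢
  generalize (∫ t in T..2 * T, cexp (-γ * tau t)) = E at hJ ⊢
  rw [show twistCoef b α β h k * ((T : ℂ) * diagSeries M γ (tau T + c)) +
      twistCoef b (-β) (-α) h k * J - ((T : ℂ) * riemannZeta (1 + γ) * twistCoef b α β h k +
        E * riemannZeta (1 - γ) * twistCoef b (-β) (-α) h k) =
      twistCoef b α β h k * ((T : ℂ) * X) +
        twistCoef b (-β) (-α) h k * (J - (E * riemannZeta (1 - γ) + (T : ℂ) * U)) by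
    rw [hX]; linear_combination (-(T : ℂ)) * htw]
  refine (norm_add_le _ _).trans ?_
  rw [norm_mul, norm_mul, norm_mul, Complex.norm_real, Real.norm_of_nonneg hT0.le]
  refine (add_le_add (mul_le_mul_of_nonneg_left (mul_le_mul_of_nonneg_left hXb hT0.le)
    (norm_nonneg _)) (mul_le_mul_of_nonneg_left hJ (norm_nonneg _))).trans ?_
  have e0 : 0 ≤ C * √(N : ℝ) * (T * T ^ (-(1 / 4) : ℝ)) := by positivity
  have e1 := mul_nonneg
    (mul_nonneg (norm_nonneg (twistCoef b α β h k)) (Real.exp_pos (2 * A)).le) e0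
  have e2 := mul_nonneg (norm_nonneg (twistCoef b (-β) (-α) h k)) e0
  linarith

theorem continuous_zeta_line {α : ℂ} (hα : ‖α‖ ≤ 1 / 40) {a b : ℝ} (ha : 1 ≤ a) :
    ContinuousOn (fun t : ℝ => riemannZeta ((1 / 2 : ℂ) + t * I + α)) (Set.Icc a b) ∧
      ContinuousOn (fun t : ℝ => riemannZeta ((1 / 2 : ℂ) - t * I + α)) (Set.Icc a b) := by
  have ai := abs_le.1 ((abs_im_le_norm α).trans hα)
  constructor <;> intro t ht <;> refine ContinuousAt.continuousWithinAt ?_ <;>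
    refine ContinuousAt.comp' (differentiableAt_riemannZeta fun h => ?_).continuousAt
      (by fun_prop) <;>
    · have := congrArg Complex.im h
      simp at this
      linarith [ht.1]

/-- **The twisted second moment.** -/
theorem exists_twisted_second_moment (A : ℝ) : ∃ C, 0 ≤ C ∧
    ∀ (T B : ℝ) (α β : ℂ) (N : ℕ) (b : ℕ → ℂ), 64 ≤ T → Shifts A T α β → α + β ≠ 0 →
    1 ≤ N → (N : ℝ) ≤ T → (∀ h ∈ Icc 1 N, ‖b h‖ ≤ B) →
    ‖(∫ t in T..2 * T, riemannZeta ((1 / 2 : ℂ) + t * I + α) *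
        riemannZeta ((1 / 2 : ℂ) - t * I + β) * ((‖mollPoly N b t‖ ^ 2 : ℝ) : ℂ)) -
        momentMain N b T α β‖ ≤
      C * B ^ 2 * (N * √T + √(N : ℝ) * T ^ (3 / 4 : ℝ)) * (1 + Real.log T) ^ 4 := by
  obtain ⟨Ca, hCa, hafe⟩ := exists_product_afe A
  obtain ⟨C₁, hC₁, hP⟩ := exists_direct_part_le A
  obtain ⟨C₂, hC₂, hQ⟩ := exists_dual_part_le A
  obtain ⟨C₃, hC₃, hD⟩ := exists_pair_diag_le A
  obtain ⟨C₄, hC₄, hms⟩ := exists_mollPoly_meanSquare_le A
  refine ⟨Ca * C₄ + 2608 * (C₁ + C₂) + 2 * C₃ * Real.exp (4 * A), by positivity,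
    fun T B α β N b hT hs hγ h1 hN hb => ?_⟩
  obtain ⟨M, hMdef⟩ : ∃ M : ℕ, M = ⌊T⌋₊ := ⟨_, rfl⟩
  have hMT : (M : ℝ) ≤ T := hMdef ▸ Nat.floor_le (by linarith)
  have hTM : T < (M : ℝ) + 1 := hMdef ▸ Nat.lt_floor_add_one T
  have hM1 : 1 ≤ M := hMdef ▸ Nat.le_floor (by push_cast; linarith)
  have hlogM : Real.log T ≤ Real.log (M + 1 : ℕ) :=
    Real.log_le_log (by linarith) (by push_cast; linarith)
  have hL : 1 ≤ 1 + Real.log T := by linarith [Real.log_nonneg (show 1 ≤ T by linarith)]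
  have hπ := Real.pi_gt_three
  have hl2 : 1 / 10 ≤ Real.log (2 * π) - 2 * Real.log 2 := by
    have h := Real.one_sub_inv_le_log_of_pos (show (0 : ℝ) < π / 2 by positivity)
    have h' : (π / 2)⁻¹ ≤ 2 / 3 := by
      rw [inv_div]; exact div_le_div_of_nonneg_left zero_le_two (by norm_num) hπ.le
    rw [Real.log_div Real.pi_ne_zero two_ne_zero] at h
    rw [Real.log_mul two_ne_zero Real.pi_ne_zero]
    linarith
  have hℓ : ∀ t ∈ Set.Icc T (2 * T), 2 * tau t - tau T + 1 / 10 ≤ Real.log T := fun t ht => by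
    have ht0 : 0 < t := by linarith [ht.1]
    have h := Real.log_le_log ht0 ht.2
    rw [Real.log_mul two_ne_zero (by linarith)] at h
    rw [tau, tau, Real.log_div ht0.ne' (by positivity), Real.log_div (by linarith) (by positivity)]
    linarith
  have hτT : tau T + 1 / 10 ≤ Real.log (M + 1 : ℕ) := by
    have h := hℓ T ⟨le_rfl, by linarith⟩
    linarith
  have hu : Set.uIcc T (2 * T) = Set.Icc T (2 * T) := Set.uIcc_of_le (by linarith)
  have hsum := sum_offTerm_le_scale (by linarith) h1 hN hM1 hMT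
  have e1 := (hP T B (tau T) α β N M b hT hs hMT hτT hb).trans
    (mul_le_mul_of_nonneg_left hsum (by positivity))
  have e2 := (hQ T B α β N M b hT hs hMT (fun t ht => (hℓ t ht).trans hlogM) hb).trans
    (mul_le_mul_of_nonneg_left hsum (by positivity))
  obtain ⟨Z, hZ⟩ : ∃ Z : ℝ → ℂ, Z = fun t : ℝ => riemannZeta ((1 / 2 : ℂ) + t * I + α) *
      riemannZeta ((1 / 2 : ℂ) - t * I + β) := ⟨_, rfl⟩
  obtain ⟨P, hPdef⟩ : ∃ P : ℝ → ℂ, P = fun t : ℝ => pairSum M (tau T) α β t := ⟨_, rfl⟩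
  obtain ⟨Q, hQdef⟩ : ∃ Q : ℝ → ℂ, Q = fun t : ℝ =>
      cexp (-(α + β) * tau t) * pairSum M (2 * tau t - tau T) (-β) (-α) t := ⟨_, rfl⟩
  obtain ⟨w, hw⟩ : ∃ w : ℝ → ℂ, w = fun t : ℝ => ((‖mollPoly N b t‖ ^ 2 : ℝ) : ℂ) := ⟨_, rfl⟩
  have hwc : ContinuousOn w (Set.uIcc T (2 * T)) := hw ▸
    (continuous_ofReal.comp ((continuous_mollPoly N b).norm.pow 2)).continuousOn
  have hτc : ContinuousOn (fun t : ℝ => tau t) (Set.uIcc T (2 * T)) := fun t ht => by
    rw [hu] at ht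
    exact (hasDerivAt_tau (by linarith [ht.1])).continuousAt.continuousWithinAt
  obtain ⟨-, -, hd, -⟩ := exists_cutoff_deriv
  have hpt : ∀ α β : ℂ, ∀ m ∈ Icc 1 M, ∀ n ∈ Icc 1 M,
      Continuous fun t : ℝ => pairTerm α β t m n := fun α β m hm n hn => by
    have hm0 : (m : ℂ) ≠ 0 := Nat.cast_ne_zero.2 (by rw [mem_Icc] at hm; omega)
    have hn0 : (n : ℂ) ≠ 0 := Nat.cast_ne_zero.2 (by rw [mem_Icc] at hn; omega)
    exact (Continuous.const_cpow (by fun_prop) (Or.inl hm0)).mul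
      (Continuous.const_cpow (by fun_prop) (Or.inl hn0))
  have hps : ∀ (α β : ℂ) (l : ℝ → ℝ), ContinuousOn l (Set.uIcc T (2 * T)) →
      ContinuousOn (fun t : ℝ => pairSum M (l t) α β t) (Set.uIcc T (2 * T)) := fun α β l hl =>
    continuousOn_finsetSum _ fun m hm => continuousOn_finsetSum _ fun n hn =>
      (hd.continuous.comp_continuousOn (continuousOn_const.sub hl)).mul
        (hpt α β m hm n hn).continuousOn
  have hPc : ContinuousOn P (Set.uIcc T (2 * T)) := hPdef ▸ hps α β _ continuousOn_const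
  have hQc : ContinuousOn Q (Set.uIcc T (2 * T)) := hQdef ▸
    (continuousOn_const.mul (continuous_ofReal.comp_continuousOn hτc)).cexp.mul
      (hps (-β) (-α) _ ((continuousOn_const.mul hτc).sub continuousOn_const))
  have hZc : ContinuousOn Z (Set.uIcc T (2 * T)) := by
    rw [hZ, hu]
    exact (continuous_zeta_line hs.1 (by linarith)).1.mul
      (continuous_zeta_line hs.2.1 (by linarith)).2
  have hT34 : T * T ^ (-(1 / 4) : ℝ) = T ^ (3 / 4 : ℝ) := by
    rw [show (3 / 4 : ℝ) = 1 + -(1 / 4) by norm_num, Real.rpow_add (by linarith), Real.rpow_one]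
  have e0 : ‖(∫ t in T..2 * T, Z t * w t) -
      ((∫ t in T..2 * T, P t * w t) + ∫ t in T..2 * T, Q t * w t)‖ ≤
      Ca * T ^ (-(1 / 4) : ℝ) * (C₄ * B ^ 2 * (T + N * √T) * (1 + Real.log T) ^ 4) := by
    have iP : IntervalIntegrable (fun t => P t * w t) volume T (2 * T) :=
      (hPc.mul hwc).intervalIntegrable
    have iQ : IntervalIntegrable (fun t => Q t * w t) volume T (2 * T) :=
      (hQc.mul hwc).intervalIntegrable
    have iZ : IntervalIntegrable (fun t => Z t * w t) volume T (2 * T) :=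
      (hZc.mul hwc).intervalIntegrable
    rw [← intervalIntegral.integral_add iP iQ, ← intervalIntegral.integral_sub iZ (iP.add iQ)]
    refine le_trans ?_ (mul_le_mul_of_nonneg_left (hms T B α β N b hT hs h1 hN hb) (by positivity))
    rw [← intervalIntegral.integral_const_mul]
    refine intervalIntegral.norm_integral_le_of_norm_le (by linarith)
      (Filter.Eventually.of_forall fun t ht => ?_)
      ((((continuous_mollPoly N b).norm.pow 2).const_mul _).intervalIntegrable _ _)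
    rw [← add_mul, ← sub_mul, norm_mul, hw, hZ, hPdef, hQdef]
    simp only []
    rw [Complex.norm_real, Real.norm_of_nonneg (by positivity)]
    exact mul_le_mul_of_nonneg_right
      (hafe T t α β M hT hs ht.1.le ht.2 (by linarith)) (by positivity)
  have e3 : ‖(∑ h ∈ Icc 1 N, ∑ k ∈ Icc 1 N, twistCoef b α β h k *
        ((T : ℂ) * diagSeries M (α + β) (tau T + twistShift h k))) +
      (∑ h ∈ Icc 1 N, ∑ k ∈ Icc 1 N, twistCoef b (-β) (-α) h k *
        ∫ t in T..2 * T, cexp (-(α + β) * tau t) *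
          diagSeries M (-(α + β)) (2 * tau t - tau T + twistShift h k)) -
      momentMain N b T α β‖ ≤
      2 * C₃ * Real.exp (4 * A) * B ^ 2 * (1 + Real.log T) ^ 3 * √(N : ℝ) * T ^ (3 / 4 : ℝ) := by
    simp only [momentMain, twistSum, mul_sum, ← sum_add_distrib, ← sum_sub_distrib]
    refine (norm_sum_le _ _).trans ((sum_le_sum fun h hh => (norm_sum_le _ _).trans
      (sum_le_sum fun k hk =>
        hD T B α β N M b hT hs hγ hN (by linarith) hℓ hb h hh k hk)).trans ?_)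
    simp only [← sum_mul, ← mul_sum, sum_add_distrib]
    rw [hT34]
    refine mul_le_mul_of_nonneg_right (mul_le_mul_of_nonneg_right ((mul_le_mul_of_nonneg_left
      (add_le_add (sum_norm_twistCoef_le hs h1 hN hb) (sum_norm_twistCoef_le hs.swap h1 hN hb))
      hC₃).trans (le_of_eq (by ring))) (Real.sqrt_nonneg _)) (by positivity)
  simp only [hPdef, hQdef, hw, hZ] at e0
  refine ((norm_sub_le_norm_sub_add_norm_sub _ ((∫ t in T..2 * T,
      pairSum M (tau T) α β t * ((‖mollPoly N b t‖ ^ 2 : ℝ) : ℂ)) +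
    ∫ t in T..2 * T, cexp (-(α + β) * tau t) * pairSum M (2 * tau t - tau T) (-β) (-α) t *
      ((‖mollPoly N b t‖ ^ 2 : ℝ) : ℂ)) _).trans (add_le_add e0
    ((norm_sub_le_norm_sub_add_norm_sub _ _ _).trans (add_le_add
      ((congrArg norm (add_sub_add_comm _ _ _ _)).trans_le ((norm_add_le _ _).trans
        (add_le_add e1 e2))) e3)))).trans ?_
  have hsN : 1 ≤ √(N : ℝ) := Real.one_le_sqrt.2 (Nat.one_le_cast.2 h1)
  have hq : T ^ (-(1 / 4) : ℝ) ≤ 1 :=
    Real.rpow_le_one_of_one_le_of_nonpos (by linarith) (by norm_num)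
  have h34 : 0 ≤ T ^ (3 / 4 : ℝ) := by positivity
  have hNT : 0 ≤ (N : ℝ) * √T := by positivity
  have hkey : T ^ (-(1 / 4) : ℝ) * (T + N * √T) ≤ N * √T + √(N : ℝ) * T ^ (3 / 4 : ℝ) := by
    rw [mul_add, mul_comm (T ^ (-(1 / 4) : ℝ)) T, hT34, add_comm ((N : ℝ) * √T)]
    exact add_le_add (le_mul_of_one_le_left h34 hsN) (mul_le_of_le_one_left hNT hq)
  have hp : (1 + Real.log T) ^ 3 ≤ (1 + Real.log T) ^ 4 := pow_le_pow_right₀ hL (by norm_num)
  have m1 := mul_le_mul_of_nonneg_left hkey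
    (show 0 ≤ Ca * C₄ * B ^ 2 * (1 + Real.log T) ^ 4 by positivity)
  have m2 := mul_le_mul_of_nonneg_left hp
    (show 0 ≤ 2 * C₃ * Real.exp (4 * A) * B ^ 2 * (√(N : ℝ) * T ^ (3 / 4 : ℝ)) by positivity)
  have m3 : 0 ≤ (2608 * (C₁ + C₂)) * B ^ 2 * (1 + Real.log T) ^ 4 *
      (√(N : ℝ) * T ^ (3 / 4 : ℝ)) := by positivity
  have m4 : 0 ≤ 2 * C₃ * Real.exp (4 * A) * B ^ 2 * (1 + Real.log T) ^ 4 *
      ((N : ℝ) * √T) := by positivity
  linarith

end FA.TwistedMoment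

end
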