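import Fermat.Agent.TwistedMoment.Stirling
import Fermat.Agent.SelbergCLT.Growth

/-!
# The two factors of the functional equation together

`χ (1/2 + it + α - w) χ (1/2 - it + β - w) = (t/2π)^(2w - α - β) (1 + O ((1 + |im w|)² / t))`
on `re w = 3/4`.
-/

set_option autoImplicit false

noncomputable section

namespace FA.TwistedMoment

open Complex Filter Topology Set FA.Levinson
open FA.SelbergCLT (chiFac exists_chiFac_le)
open scoped Real

/-- The shifts allowed: `O (1 / log T)`. -/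
def Shifts (A T : ℝ) (α β : ℂ) : Prop :=
  ‖α‖ ≤ 1 / 40 ∧ ‖β‖ ≤ 1 / 40 ∧ ‖α‖ * Real.log T ≤ A ∧ ‖β‖ * Real.log T ≤ A

theorem Shifts.swap {A T : ℝ} {α β : ℂ} (h : Shifts A T α β) : Shifts A T (-β) (-α) := by
  obtain ⟨h1, h2, h3, h4⟩ := h
  exact ⟨by rwa [norm_neg], by rwa [norm_neg], by rwa [norm_neg], by rwa [norm_neg]⟩

/-- `log (t / 2π)`. -/
def tau (t : ℝ) : ℝ := Real.log (t / (2 * π))

theorem tau_bounds {T t : ℝ} (hT : 16 ≤ T) (ht : T ≤ t) (ht' : t ≤ 2 * T) :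
    0 ≤ tau t ∧ tau t ≤ Real.log T := by
  have hπ := Real.pi_gt_three
  have hπ' := Real.pi_lt_d2
  refine ⟨Real.log_nonneg (by rw [one_le_div (by positivity)]; linarith), ?_⟩
  refine Real.log_le_log (div_pos (by linarith) (by positivity)) ?_
  rw [div_le_iff₀ (by positivity)]
  nlinarith

theorem Shifts.re_mul_tau {A T t : ℝ} {α β : ℂ} (h : Shifts A T α β) (hT : 16 ≤ T) (ht : T ≤ t)
    (ht' : t ≤ 2 * T) : |(α + β).re * tau t| ≤ 2 * A := by
  obtain ⟨τ0, τ1⟩ := tau_bounds hT ht ht'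
  rw [abs_mul, abs_of_nonneg τ0]
  refine (mul_le_mul ((abs_re_le_norm _).trans (norm_add_le α β)) τ1 τ0 (by positivity)).trans ?_
  linarith [h.2.2.1, h.2.2.2]

/-- The product of the two factors. -/
def chiPair (α β : ℂ) (t : ℝ) (w : ℂ) : ℂ :=
  chiFac ((1 / 2 : ℂ) + t * I + α - w) * chiFac ((1 / 2 : ℂ) - t * I + β - w)

theorem chiFac_ne_zero {z : ℂ} (hz : z.im ≠ 0) : chiFac z ≠ 0 := by
  rw [chiFac]
  exact mul_ne_zero (gammaℝ_ne_zero (by simpa using hz)) (inv_ne_zero (gammaℝ_ne_zero hz))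

theorem hasDerivAt_chiFac_lvD {z : ℂ} (hz : z.im ≠ 0) :
    HasDerivAt chiFac (-(chiFac z * lvD z)) z := by
  have hz' : (1 - z).im ≠ 0 := by simpa using hz
  have h := ((differentiableAt_gammaℝ (gammaℝ_ne_zero hz')).hasDerivAt.comp z
    ((hasDerivAt_id' z).const_sub 1)).mul
      ((differentiableAt_gammaℝ (gammaℝ_ne_zero hz)).hasDerivAt.inv (gammaℝ_ne_zero hz))
  refine h.congr_deriv ?_
  have a := gammaℝ_ne_zero hz
  have b := gammaℝ_ne_zero hz'
  simp only [chiFac, lvD, gammaLog, Function.comp_apply, Pi.inv_apply]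
  field_simp
  ring

theorem norm_lvD_sub_tau_le {t : ℝ} {z : ℂ} {d : ℝ} (ht : 32 ≤ t) (h1 : -3 ≤ z.re)
    (h2 : z.re ≤ 4) (hd : |z.im - t| ≤ d) (hdt : d ≤ t / 2) :
    ‖lvD z - (tau t : ℂ)‖ ≤ (80 + 2 * d) / t := by
  obtain ⟨hl, hu⟩ := abs_le.1 hd
  have hy : t / 2 ≤ z.im := by linarith
  have h := norm_lvD_sub_sharp h1 h2 (by linarith)
  have hd0 : 0 ≤ d := (abs_nonneg _).trans hd
  have hlog : |Real.log (z.im / (2 * π)) - tau t| ≤ 2 * d / t := by
    rw [tau, Real.log_div (by linarith) (by positivity), Real.log_div (by linarith) (by positivity),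
      sub_sub_sub_cancel_right, ← Real.log_div (by linarith) (by linarith)]
    have hq : 0 < z.im / t := div_pos (by linarith) (by linarith)
    rw [abs_le]
    constructor
    · refine le_trans ?_ (Real.one_sub_inv_le_log_of_pos hq)
      rw [inv_div, neg_le_sub_iff_le_add, div_le_iff₀ (by linarith), add_mul, div_mul_eq_mul_div]
      have : d ≤ 2 * d * z.im / t := by
        rw [le_div_iff₀ (by linarith)]
        nlinarith
      linarith
    · refine (Real.log_le_sub_one_of_pos hq).trans ?_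
      rw [sub_le_iff_le_add, div_le_iff₀ (by linarith), add_mul, div_mul_cancel₀ _ (by linarith)]
      linarith
  rw [show lvD z - (tau t : ℂ) = (lvD z - ((Real.log (z.im / (2 * π)) : ℝ) : ℂ)) +
    ((Real.log (z.im / (2 * π)) - tau t : ℝ) : ℂ) by push_cast; ring]
  refine (norm_add_le _ _).trans ?_
  rw [Complex.norm_real, Real.norm_eq_abs, add_div]
  refine add_le_add (h.trans ?_) hlog
  rw [div_le_div_iff₀ (by linarith) (by linarith)]
  linarith

/-- **The product in the range where Stirling's formula applies.** -/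
theorem norm_chiPair_sub_precise {α β : ℂ} (hα : ‖α‖ ≤ 1 / 40) (hβ : ‖β‖ ≤ 1 / 40) {t v : ℝ}
    (ht : 32 ≤ t) (hv : 1000 * (1 + |v|) ^ 2 ≤ t) :
    ‖chiPair α β t ((3 / 4 : ℝ) + v * I) -
        Complex.exp ((2 * ((3 / 4 : ℝ) + (v : ℂ) * I) - (α + β)) * tau t)‖ ≤
      1000 * (1 + |v|) ^ 2 / t *
        ‖Complex.exp ((2 * ((3 / 4 : ℝ) + (v : ℂ) * I) - (α + β)) * tau t)‖ := by
  obtain ⟨w, hw⟩ : ∃ w : ℂ, w = ((3 / 4 : ℝ) : ℂ) + (v : ℂ) * I := ⟨_, rfl⟩
  rw [← hw]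
  have hwre : w.re = 3 / 4 := by simp [hw]
  have hwim : w.im = v := by simp [hw]
  have ar := abs_le.1 ((abs_re_le_norm α).trans hα)
  have ai := abs_le.1 ((abs_im_le_norm α).trans hα)
  have br := abs_le.1 ((abs_re_le_norm β).trans hβ)
  have bi := abs_le.1 ((abs_im_le_norm β).trans hβ)
  have hv0 := abs_nonneg v
  have hv1 : |v| + 1 ≤ t / 2 := by nlinarith
  obtain ⟨z₀, hz₀⟩ : ∃ z₀ : ℂ, z₀ = (1 / 2 : ℂ) + t * I - β + w := ⟨_, rfl⟩
  obtain ⟨δ, hδ⟩ : ∃ δ : ℂ, δ = α + β - 2 * w := ⟨_, rfl⟩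
  have hzu : ∀ u ∈ Icc (0 : ℝ) 1, (-3 ≤ (z₀ + u * δ).re ∧ (z₀ + u * δ).re ≤ 4) ∧
      |(z₀ + u * δ).im - t| ≤ |v| + 1 := fun u hu => by
    have e1 : (z₀ + u * δ).re = (1 - u) * (5 / 4 - β.re) + u * (-1 / 4 + α.re) := by
      simp [hz₀, hδ, hwre]; ring
    have e2 : (z₀ + u * δ).im - t = (1 - 2 * u) * v + u * α.im - (1 - u) * β.im := by
      simp [hz₀, hδ, hwim]; ring
    have k1 : |(1 - 2 * u) * v| ≤ |v| := by
      rw [abs_mul]
      exact mul_le_of_le_one_left hv0 (abs_le.2 ⟨by linarith [hu.2], by linarith [hu.1]⟩)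
    rw [e1, e2]
    refine ⟨⟨by nlinarith [hu.1, hu.2], by nlinarith [hu.1, hu.2]⟩, ?_⟩
    rw [abs_le] at k1 ⊢
    constructor <;> nlinarith [hu.1, hu.2]
  have him : ∀ u ∈ Icc (0 : ℝ) 1, (z₀ + u * δ).im ≠ 0 := fun u hu => by
    have := (abs_le.1 (hzu u hu).2).1
    linarith
  have hz0im : z₀.im ≠ 0 := by simpa using him 0 (by simp)
  obtain ⟨q, hq⟩ : ∃ q : ℝ → ℂ,
      q = fun u : ℝ => chiFac (z₀ + u * δ) * Complex.exp (u * δ * tau t) / chiFac z₀ := ⟨_, rfl⟩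
  have hqd : ∀ u ∈ Icc (0 : ℝ) 1,
      HasDerivWithinAt q (q u * (δ * ((tau t : ℂ) - lvD (z₀ + u * δ)))) (Icc 0 1) u :=
      fun u hu => by
    rw [hq]
    refine ((((hasDerivAt_chiFac_lvD (him u hu)).comp (u : ℂ)
      (((hasDerivAt_id' (u : ℂ)).mul_const δ).const_add z₀)).mul
        (((hasDerivAt_id' (u : ℂ)).mul_const δ).mul_const (tau t : ℂ)).cexp).div_const
          (chiFac z₀)).comp_ofReal.hasDerivWithinAt.congr_deriv ?_
    simp only [Function.comp_apply]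
    ring
  obtain ⟨ε, hε⟩ : ∃ ε, ε = (2 * |v| + 2) * ((80 + 2 * (|v| + 1)) / t) := ⟨_, rfl⟩
  have hεb : ε ≤ 500 * (1 + |v|) ^ 2 / t := by
    rw [hε, mul_div_assoc']
    exact div_le_div_of_nonneg_right (by nlinarith) (by linarith)
  have hε1 : ε ≤ 1 / 2 := hεb.trans (by rw [div_le_iff₀ (by linarith)]; linarith)
  have hε0 : 0 ≤ ε := by rw [hε]; positivity
  have hδn : ‖δ‖ ≤ 2 * |v| + 2 := by
    rw [hδ]
    refine (norm_sub_le _ _).trans ?_
    rw [norm_mul, Complex.norm_two]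
    have h1 := norm_add_le α β
    have h2 := norm_le_abs_re_add_abs_im w
    rw [hwre, hwim, abs_of_nonneg (by norm_num : (0 : ℝ) ≤ 3 / 4)] at h2
    linarith
  obtain ⟨u₀, hu₀, hmax⟩ := isCompact_Icc.exists_isMaxOn (nonempty_Icc.2 zero_le_one)
    (ContinuousOn.norm fun u hu => (hqd u hu).continuousWithinAt)
  have hmax' : ∀ u ∈ Icc (0 : ℝ) 1, ‖q u‖ ≤ ‖q u₀‖ := fun u hu => hmax hu
  have hqb : ∀ u ∈ Icc (0 : ℝ) 1, ‖q u - q 0‖ ≤ ‖q u₀‖ * ε := fun u hu => by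
    refine ((convex_Icc (0 : ℝ) 1).norm_image_sub_le_of_norm_hasDerivWithin_le hqd
      (C := ‖q u₀‖ * ε) (fun x hx => ?_) (left_mem_Icc.2 zero_le_one) hu).trans ?_
    · rw [norm_mul, norm_mul, norm_sub_rev]
      refine mul_le_mul (hmax' x hx) ?_ (by positivity) (norm_nonneg _)
      rw [hε]
      exact mul_le_mul hδn (norm_lvD_sub_tau_le ht (hzu x hx).1.1 (hzu x hx).1.2 (hzu x hx).2 hv1)
        (norm_nonneg _) (by positivity)
    · rw [Real.norm_eq_abs, sub_zero, abs_of_nonneg hu.1]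
      exact mul_le_of_le_one_right (mul_nonneg (norm_nonneg _) hε0) hu.2
  have hq0 : q 0 = 1 := by
    rw [hq]
    simp [chiFac_ne_zero hz0im]
  have hM : ‖q u₀‖ ≤ 2 := by
    have h1 := hqb u₀ hu₀
    have h2 := norm_sub_norm_le (q u₀) (q 0)
    rw [hq0, norm_one] at h2
    rw [hq0] at h1
    nlinarith [norm_nonneg (q u₀)]
  have hq1 : ‖q 1 - 1‖ ≤ 1000 * (1 + |v|) ^ 2 / t := by
    have h1 := hqb 1 (by simp)
    rw [hq0] at h1
    refine h1.trans ((mul_le_mul hM hεb hε0 zero_le_two).trans (le_of_eq ?_))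
    ring
  have hrefl : chiFac ((1 / 2 : ℂ) - t * I + β - w) = (chiFac z₀)⁻¹ := by
    rw [chiFac, chiFac, mul_inv, inv_inv, mul_comm,
      show (1 : ℂ) - ((1 / 2 : ℂ) - t * I + β - w) = z₀ by rw [hz₀]; ring,
      show (1 : ℂ) - z₀ = (1 / 2 : ℂ) - t * I + β - w by rw [hz₀]; ring]
  have hpair : chiPair α β t w = q 1 * Complex.exp ((2 * w - (α + β)) * tau t) := by
    rw [chiPair, hrefl, hq]
    simp only [ofReal_one, one_mul]
    rw [show z₀ + δ = (1 / 2 : ℂ) + t * I + α - w by rw [hz₀, hδ]; ring,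
      show (2 * w - (α + β)) * (tau t : ℂ) = -(δ * tau t) by rw [hδ]; ring, Complex.exp_neg]
    field_simp
  rw [hpair, show q 1 * Complex.exp ((2 * w - (α + β)) * tau t) -
      Complex.exp ((2 * w - (α + β)) * tau t) =
      (q 1 - 1) * Complex.exp ((2 * w - (α + β)) * tau t) by ring, norm_mul]
  exact mul_le_mul_of_nonneg_right hq1 (norm_nonneg _)

/-- **The product on `re w = 3/4`.** -/
theorem exists_chiPair_sub_le (A : ℝ) : ∃ C, 0 ≤ C ∧ ∀ (T t : ℝ) (α β : ℂ), 64 ≤ T →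
    Shifts A T α β → T ≤ t → t ≤ 2 * T → ∀ v : ℝ,
      ‖chiPair α β t ((3 / 4 : ℝ) + v * I) -
          Complex.exp ((2 * ((3 / 4 : ℝ) + (v : ℂ) * I) - (α + β)) * tau t)‖ ≤
        C * √T * (1 + |v|) ^ 18 := by
  obtain ⟨C, hC, hchi⟩ := exists_chiFac_le
  obtain ⟨D, hD⟩ : ∃ D, D = 1000 * Real.exp (2 * A) + C ^ 2 * 3000 ^ 8 := ⟨_, rfl⟩
  refine ⟨D, by rw [hD]; positivity, fun T t α β hT hs ht ht' v => ?_⟩
  obtain ⟨hα, hβ, -, -⟩ := id hs
  have hτ := tau_bounds (by linarith) ht ht'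
  have hX : ‖Complex.exp ((2 * ((3 / 4 : ℝ) + (v : ℂ) * I) - (α + β)) * tau t)‖ ≤
      Real.exp (2 * A) * (T * √T) := by
    rw [Complex.norm_exp,
      show T * √T = Real.exp (Real.log T * (3 / 2)) by
        rw [← Real.rpow_def_of_pos (by linarith), show (3 / 2 : ℝ) = 1 + 1 / 2 by norm_num,
          Real.rpow_add (by linarith), Real.rpow_one, Real.sqrt_eq_rpow],
      ← Real.exp_add, Real.exp_le_exp]
    have h := (abs_le.1 (hs.re_mul_tau (by linarith) ht ht')).1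
    simp only [mul_re, sub_re, re_ofNat, im_ofNat, zero_mul, sub_zero, ofReal_re, ofReal_im,
      mul_zero, add_re, I_re, I_im, mul_one, sub_self, add_zero] at h ⊢
    nlinarith [hτ.2]
  have h1v : 1 ≤ 1 + |v| := by linarith [abs_nonneg v]
  have hp2 : (1 + |v|) ^ 2 ≤ (1 + |v|) ^ 18 := pow_le_pow_right₀ h1v (by norm_num)
  rcases le_or_gt (1000 * (1 + |v|) ^ 2) t with h | h
  · refine (norm_chiPair_sub_precise hα hβ (by linarith) h).trans ?_
    refine (mul_le_mul (div_le_div_of_nonneg_left (by positivity) (by linarith) ht) hX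
      (norm_nonneg _) (by positivity)).trans ?_
    rw [show 1000 * (1 + |v|) ^ 2 / T * (Real.exp (2 * A) * (T * √T)) =
      1000 * Real.exp (2 * A) * √T * (1 + |v|) ^ 2 by field_simp]
    rw [hD]
    gcongr
    exact le_add_of_nonneg_right (by positivity)
  · have hb : ∀ z : ℂ, z.re ∈ Icc (-7 / 2 : ℝ) (1 / 2) → |z.im| ≤ t + |v| + 1 →
        ‖chiFac z‖ ≤ C * (3000 * (1 + |v|) ^ 2) ^ 4 := fun z hz hzi => by
      refine (hchi z hz).trans (mul_le_mul_of_nonneg_left (pow_le_pow_left₀ (by positivity) ?_ 4)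
        (by linarith))
      nlinarith [abs_nonneg v]
    have ar := abs_le.1 ((abs_re_le_norm α).trans hα)
    have ai := abs_le.1 ((abs_im_le_norm α).trans hα)
    have br := abs_le.1 ((abs_re_le_norm β).trans hβ)
    have bi := abs_le.1 ((abs_im_le_norm β).trans hβ)
    have h1 := hb ((1 / 2 : ℂ) + t * I + α - ((3 / 4 : ℝ) + v * I))
      (by simp; constructor <;> linarith)
      (by simp; rw [abs_le]; constructor <;> linarith [le_abs_self v, neg_abs_le v])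
    have h2 := hb ((1 / 2 : ℂ) - t * I + β - ((3 / 4 : ℝ) + v * I))
      (by simp; constructor <;> linarith)
      (by simp; rw [abs_le]; constructor <;> linarith [le_abs_self v, neg_abs_le v])
    refine (norm_sub_le _ _).trans ?_
    rw [chiPair, norm_mul]
    have hT1 : T ≤ 1000 * (1 + |v|) ^ 2 := by linarith
    have hsT : 1 ≤ √T := Real.one_le_sqrt.2 (by linarith)
    refine (add_le_add (mul_le_mul h1 h2 (norm_nonneg _) (by positivity))
      (hX.trans (mul_le_mul_of_nonneg_left (mul_le_mul_of_nonneg_right hT1 (Real.sqrt_nonneg _))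
        (Real.exp_pos _).le))).trans ?_
    rw [hD, show C * (3000 * (1 + |v|) ^ 2) ^ 4 * (C * (3000 * (1 + |v|) ^ 2) ^ 4) =
      C ^ 2 * 3000 ^ 8 * (1 + |v|) ^ 16 by ring]
    have h16 : (1 + |v|) ^ 16 ≤ √T * (1 + |v|) ^ 18 :=
      (pow_le_pow_right₀ h1v (by norm_num)).trans (le_mul_of_one_le_left (by positivity) hsT)
    have h3 := mul_le_mul_of_nonneg_left h16 (show 0 ≤ C ^ 2 * 3000 ^ 8 by positivity)
    have h4 := mul_le_mul_of_nonneg_left hp2
      (show 0 ≤ 1000 * Real.exp (2 * A) * √T by positivity)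
    linarith

end FA.TwistedMoment

end
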