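import Fermat.Agent.SelbergCLT.Identity

/-!
# The kernel, its cutoff, and a contour with one pole

`g₀` is even; the cutoff has a bounded derivative; for `Φ` entire and decreasing in a strip the
integrals of `Φ w / (w - ρ)` up its two sides differ by `2π Φ ρ`.
-/

set_option autoImplicit false

noncomputable section

namespace FA.TwistedMoment

open Complex Filter MeasureTheory Set
open FA.SelbergCLT
open FA.ExplicitFormula (boxInt boxInt_residue)
open scoped Topology Real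

theorem g₀_neg (w : ℂ) : g₀ (-w) = g₀ w := by
  rw [g₀, g₀, neg_div]
  congr 1
  obtain ⟨z, hz⟩ : ∃ z : ℂ, z = w / ((10 * kernelDeg : ℕ) : ℂ) := ⟨_, rfl⟩
  rw [← hz]
  rcases eq_or_ne z 0 with rfl | h
  · rw [neg_zero]
  · rw [dslope_of_ne _ (neg_ne_zero.2 h), dslope_of_ne _ h, slope, slope]
    simp only [Complex.sinh_zero, Complex.sinh_neg, vsub_eq_sub, sub_zero, smul_eq_mul]
    rw [inv_neg, neg_mul_neg]

/-- The `b`-derivative of `kern 1 b`. -/
def kernDiff (b v : ℝ) : ℂ := -(cexp (-(b : ℂ) * (1 + (v : ℂ) * I)) * g₀ (1 + (v : ℂ) * I))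

theorem norm_kernDiff_le (b v : ℝ) :
    ‖kernDiff b v‖ ≤ Real.exp (|b| + 1 / 10) * kernelConst * decay kernelDeg v := by
  have hg := norm_g₀_le ((1 : ℂ) + (v : ℂ) * I)
  simp only [add_re, one_re, mul_re, ofReal_re, I_re, mul_zero, ofReal_im, I_im, mul_one,
    sub_self, add_zero, abs_one, add_im, one_im, mul_im, zero_add] at hg
  rw [kernDiff, norm_neg, norm_mul, Complex.norm_exp]
  refine (mul_le_mul (Real.exp_le_exp.2 (show _ ≤ |b| from ?_)) hg (norm_nonneg _)
    (Real.exp_pos _).le).trans (le_of_eq (by rw [Real.exp_add]; ring))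
  simp [neg_le_abs b]

theorem hasDerivAt_kern (b v : ℝ) : HasDerivAt (fun x : ℝ => kern 1 x v) (kernDiff b v) b := by
  have hne : (1 : ℂ) + (v : ℂ) * I ≠ 0 := fun h => by
    simpa using congrArg Complex.re h
  have h := ((((hasDerivAt_id' (b : ℂ)).neg.mul_const (1 + (v : ℂ) * I)).cexp.mul_const
    (g₀ (1 + (v : ℂ) * I))).div_const (1 + (v : ℂ) * I)).comp_ofReal
  simp only [kern, ofReal_one]
  refine h.congr_deriv ?_
  rw [kernDiff, Pi.neg_apply, div_eq_iff hne]
  ring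

theorem continuous_kernDiff (b : ℝ) : Continuous (kernDiff b) :=
  ((by fun_prop : Continuous fun v : ℝ => cexp (-(b : ℂ) * (1 + (v : ℂ) * I))).mul
    (differentiable_g₀.continuous.comp (by fun_prop))).neg

theorem norm_kernDiff_near (b : ℝ) : ∀ᶠ x in 𝓝 b, ∀ v,
    ‖kernDiff x v‖ ≤ Real.exp (|b| + 1 + 1 / 10) * kernelConst * decay kernelDeg v := by
  filter_upwards [Metric.ball_mem_nhds b one_pos] with x hx v
  rw [Metric.mem_ball, Real.dist_eq] at hx
  refine (norm_kernDiff_le x v).trans ?_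
  gcongr
  · exact decay_nonneg _ _
  · exact zero_le_one.trans one_le_kernelConst
  · linarith [abs_sub_abs_le_abs_sub x b]

theorem hasDerivAt_cutoff (b : ℝ) :
    HasDerivAt cutoff ((2 * π : ℂ)⁻¹ * ∫ v, kernDiff b v) b :=
  (hasDerivAt_integral_of_dominated_loc_of_deriv_le (F := fun x v => kern 1 x v)
    (F' := kernDiff) (s := {x | ∀ v,
      ‖kernDiff x v‖ ≤ Real.exp (|b| + 1 + 1 / 10) * kernelConst * decay kernelDeg v})
    (norm_kernDiff_near b)
    (Eventually.of_forall fun x => (continuous_kern one_ne_zero x).aestronglyMeasurable)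
    (integrable_kern one_ne_zero b) (continuous_kernDiff b).aestronglyMeasurable
    (Eventually.of_forall fun v _ hx => hx v) ((integrable_decay two_le_kernelDeg).const_mul _)
    (Eventually.of_forall fun v x _ => hasDerivAt_kern x v)).2.const_mul _

theorem continuous_deriv_cutoff : Continuous (deriv cutoff) := by
  refine continuous_iff_continuousAt.2 fun b => ?_
  rw [show deriv cutoff = fun x : ℝ => (2 * π : ℂ)⁻¹ * ∫ v, kernDiff x v from
    funext fun x => (hasDerivAt_cutoff x).deriv]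
  exact continuousAt_const.mul (continuousAt_of_dominated
    (Eventually.of_forall fun x => (continuous_kernDiff x).aestronglyMeasurable)
    ((norm_kernDiff_near b).mono fun x hx => Eventually.of_forall hx)
    ((integrable_decay two_le_kernelDeg).const_mul _)
    (Eventually.of_forall fun v => by unfold kernDiff; fun_prop))

/-- **The derivative of the cutoff is bounded.** -/
theorem exists_cutoff_deriv : ∃ D, 0 ≤ D ∧ Differentiable ℝ cutoff ∧
    ∀ b, ‖deriv cutoff b‖ ≤ D := by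
  obtain ⟨J, hJ⟩ : ∃ J, J = ∫ v, decay kernelDeg v := ⟨_, rfl⟩
  have hJ0 : 0 ≤ J := hJ ▸ integral_nonneg fun v => decay_nonneg _ v
  have hK := zero_le_one.trans one_le_kernelConst
  refine ⟨Real.exp (1 / 5) * kernelConst * J, by positivity,
    fun b => (hasDerivAt_cutoff b).differentiableAt, fun b => ?_⟩
  rcases le_or_gt |b| (1 / 10) with h | h
  · rw [(hasDerivAt_cutoff b).deriv, norm_mul, norm_inv, norm_mul, Complex.norm_two, norm_real,
      Real.norm_of_nonneg Real.pi_pos.le]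
    refine (mul_le_of_le_one_left (norm_nonneg _)
      (inv_le_one_of_one_le₀ (by linarith [Real.pi_gt_three]))).trans ?_
    refine (norm_integral_le_of_norm_le ((integrable_decay two_le_kernelDeg).const_mul _)
      (Eventually.of_forall (norm_kernDiff_le b))).trans ?_
    rw [integral_const_mul, ← hJ]
    gcongr
    linarith
  · have hconst : ∃ c : ℂ, cutoff =ᶠ[𝓝 b] fun _ => c := by
      rcases lt_abs.1 h with h1 | h1
      · exact ⟨0, (eventually_gt_nhds h1).mono fun x hx => cutoff_eq_zero hx.le⟩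
      · exact ⟨1, (eventually_lt_nhds (show b < -(1 / 10) by linarith)).mono
          fun x hx => cutoff_eq_one hx.le⟩
    obtain ⟨c, hc⟩ := hconst
    rw [hc.deriv_eq, deriv_const, norm_zero]
    positivity

/-- **The contour with one pole.** -/
theorem pole_contour {Φ : ℂ → ℂ} (hΦ : Differentiable ℂ Φ) {a b : ℝ} (hab : a ≤ b) {C : ℝ}
    {m : ℕ} (hm : 2 ≤ m)
    (hbd : ∀ u v : ℝ, u ∈ Icc a b → ‖Φ ((u : ℂ) + (v : ℂ) * I)‖ ≤ C * decay m v) {ρ : ℂ}
    (hρa : a < ρ.re) (hρb : ρ.re < b) :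
    Integrable (fun v : ℝ => Φ ((a : ℂ) + (v : ℂ) * I) / ((a : ℂ) + (v : ℂ) * I - ρ)) ∧
    Integrable (fun v : ℝ => Φ ((b : ℂ) + (v : ℂ) * I) / ((b : ℂ) + (v : ℂ) * I - ρ)) ∧
    (∫ v : ℝ, Φ ((b : ℂ) + (v : ℂ) * I) / ((b : ℂ) + (v : ℂ) * I - ρ)) -
        ∫ v : ℝ, Φ ((a : ℂ) + (v : ℂ) * I) / ((a : ℂ) + (v : ℂ) * I - ρ) = 2 * π * Φ ρ := by
  have hC : ∀ v, 0 ≤ C * decay m v := fun v => (norm_nonneg _).trans (hbd a v ⟨le_rfl, hab⟩)
  have hint : ∀ u : ℝ, u ∈ Icc a b → u ≠ ρ.re →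
      Integrable fun v : ℝ => Φ ((u : ℂ) + (v : ℂ) * I) / ((u : ℂ) + (v : ℂ) * I - ρ) :=
    fun u hu hr => by
    have hne : ∀ v : ℝ, |u - ρ.re| ≤ ‖(u : ℂ) + (v : ℂ) * I - ρ‖ := fun v => by
      simpa using abs_re_le_norm ((u : ℂ) + (v : ℂ) * I - ρ)
    have hp : 0 < |u - ρ.re| := abs_pos.2 (sub_ne_zero.2 hr)
    refine integrable_of_decay (C := C / |u - ρ.re|) hm ((hΦ.continuous.comp (by fun_prop)).div
      (by fun_prop) fun v => norm_pos_iff.1 (hp.trans_le (hne v))) fun v => ?_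
    rw [norm_div, div_mul_eq_mul_div]
    exact div_le_div₀ (hC v) (hbd u v hu) hp (hne v)
  have hia := hint a ⟨le_rfl, hab⟩ hρa.ne
  have hib := hint b ⟨hab, le_rfl⟩ hρb.ne'
  refine ⟨hia, hib, ?_⟩
  have hbox : ∀ R : ℝ, |ρ.im| < R →
      boxInt (fun w => Φ w / (w - ρ)) a b R = 2 * π * I * Φ ρ := fun R hR => by
    rw [boxInt_residue isOpen_univ hΦ.differentiableOn (fun x _ _ => mem_univ x)
      ((abs_nonneg _).trans hR.le) hρa hρb hR.ne, if_pos hR]
  have hh : ∀ᶠ R in atTop, ∀ u ∈ uIcc a b,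
      ‖Φ ((u : ℂ) + ((-R : ℝ) : ℂ) * I) / ((u : ℂ) + ((-R : ℝ) : ℂ) * I - ρ)‖ ≤ C * decay m R ∧
      ‖Φ ((u : ℂ) + (R : ℂ) * I) / ((u : ℂ) + (R : ℂ) * I - ρ)‖ ≤ C * decay m R := by
    filter_upwards [eventually_ge_atTop (|ρ.im| + 1)] with R hR u hu
    rw [uIcc_of_le hab] at hu
    have hv : ∀ v : ℝ, |v| = R →
        ‖Φ ((u : ℂ) + (v : ℂ) * I) / ((u : ℂ) + (v : ℂ) * I - ρ)‖ ≤ C * decay m v := fun v hv => by
      rw [norm_div]
      refine (div_le_self (norm_nonneg _) (le_trans ?_ (abs_im_le_norm _))).trans (hbd u v hu)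
      simp only [sub_im, add_im, ofReal_im, mul_im, ofReal_re, I_im, mul_one, I_re, mul_zero,
        add_zero, zero_add]
      linarith [abs_sub_abs_le_abs_sub v ρ.im]
    have hR0 : (0 : ℝ) ≤ R := by linarith [abs_nonneg ρ.im]
    exact ⟨(hv (-R) (by rw [abs_neg, abs_of_nonneg hR0])).trans_eq (by rw [decay_neg]),
      hv R (abs_of_nonneg hR0)⟩
  have hvert := verticals_of_boxInt (F := fun w => Φ w / (w - ρ)) hia hib
    ((eventually_gt_atTop |ρ.im|).mono hbox)
    (by simpa using ((tendsto_decay (le_trans one_le_two hm)).const_mul C)) hh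
  apply mul_left_cancel₀ I_ne_zero
  linear_combination hvert

theorem exists_norm_zeta_le : ∃ Z, 0 ≤ Z ∧ ∀ s : ℂ, 6 / 5 ≤ s.re → ‖riemannZeta s‖ ≤ Z := by
  have hsum := summable_powSum (show (1 : ℝ) < 6 / 5 by norm_num)
  refine ⟨powSum (6 / 5), tsum_nonneg fun n => by positivity, fun s hs => ?_⟩
  rw [zeta_eq_tsum_one_div_nat_add_one_cpow (by linarith), powSum]
  refine tsum_of_norm_bounded hsum.hasSum fun n => ?_
  rw [one_div, norm_inv, norm_add_one_cpow, ← Real.rpow_neg (by positivity)]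
  exact Real.rpow_le_rpow_of_exponent_le (by linarith [(Nat.cast_nonneg n : (0 : ℝ) ≤ n)])
    (by linarith)

end FA.TwistedMoment

end
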