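import Fermat.Agent.TwistedMoment.Kernel

/-!
# The line integral of `ζ ζ` against the kernel is a finite sum

The cutoff vanishes beyond `e^(1/10)` times its scale, so the double Dirichlet series stops.
-/

set_option autoImplicit false

noncomputable section

namespace FA.TwistedMoment

open Complex Filter MeasureTheory
open FA.SelbergCLT
open scoped Topology Real

/-- `m^(-1/2 - it - α) n^(-1/2 + it - β)`. -/
def pairTerm (α β : ℂ) (t : ℝ) (m n : ℕ) : ℂ :=
  (m : ℂ) ^ (-((1 / 2 : ℂ) + t * I + α)) * (n : ℂ) ^ (-((1 / 2 : ℂ) - t * I + β))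

/-- The double sum cut smoothly at `m n = e^ℓ`. -/
def pairSum (M : ℕ) (ℓ : ℝ) (α β : ℂ) (t : ℝ) : ℂ :=
  ∑ m ∈ Finset.Icc 1 M, ∑ n ∈ Finset.Icc 1 M,
    cutoff (Real.log m + Real.log n - ℓ) * pairTerm α β t m n

theorem sum_range_succ_eq_Icc {R : Type*} [AddCommMonoid R] (f : ℕ → R) (M : ℕ) :
    ∑ i ∈ Finset.range M, f (i + 1) = ∑ i ∈ Finset.Icc 1 M, f i := by
  refine Finset.sum_nbij' (fun n => n + 1) (fun n => n - 1) ?_ ?_ ?_ ?_ ?_
  · intro n hn
    simp only [Finset.mem_range, Finset.mem_Icc] at hn ⊢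
    omega
  · intro n hn
    simp only [Finset.mem_range, Finset.mem_Icc] at hn ⊢
    omega
  · intro n _
    simp
  · intro n hn
    simp only [Finset.mem_Icc] at hn
    omega
  · intro n _
    rfl

/-- The integrand. -/
def pairLine (ℓ : ℝ) (α β : ℂ) (t v : ℝ) : ℂ :=
  riemannZeta ((1 / 2 : ℂ) + t * I + α + ((3 / 4 : ℝ) + v * I)) *
    riemannZeta ((1 / 2 : ℂ) - t * I + β + ((3 / 4 : ℝ) + v * I)) * kern (3 / 4) (-ℓ) v

theorem line_re_ge {α : ℂ} (hα : ‖α‖ ≤ 1 / 40) (t v : ℝ) :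
    6 / 5 ≤ ((1 / 2 : ℂ) + t * I + α + ((3 / 4 : ℝ) + v * I)).re := by
  have := (abs_le.1 ((abs_re_le_norm α).trans hα)).1
  simp
  linarith

theorem line_re_ge' {β : ℂ} (hβ : ‖β‖ ≤ 1 / 40) (t v : ℝ) :
    6 / 5 ≤ ((1 / 2 : ℂ) - t * I + β + ((3 / 4 : ℝ) + v * I)).re := by
  have := (abs_le.1 ((abs_re_le_norm β).trans hβ)).1
  simp
  linarith

theorem continuous_zeta_of_re {f : ℝ → ℂ} (hf : Continuous f) (h : ∀ v, 1 < (f v).re) :
    Continuous fun v => riemannZeta (f v) :=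
  continuous_iff_continuousAt.2 fun v => (differentiableAt_riemannZeta fun h1 => by
    have := h v
    rw [h1, one_re] at this
    exact lt_irrefl _ this).continuousAt.comp' hf.continuousAt

theorem integrable_pairLine (ℓ : ℝ) {α β : ℂ} (hα : ‖α‖ ≤ 1 / 40) (hβ : ‖β‖ ≤ 1 / 40) (t : ℝ) :
    Integrable (pairLine ℓ α β t) := by
  obtain ⟨Z, hZ0, hZ⟩ := exists_norm_zeta_le
  unfold pairLine
  refine Integrable.bdd_mul (c := Z * Z) (integrable_kern (by norm_num) _)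
    ((Continuous.mul (continuous_zeta_of_re (by fun_prop) fun v => ?_)
      (continuous_zeta_of_re (by fun_prop) fun v => ?_)).aestronglyMeasurable)
    (Eventually.of_forall fun v => ?_)
  · linarith [line_re_ge hα t v]
  · linarith [line_re_ge' hβ t v]
  · rw [norm_mul]
    exact mul_le_mul (hZ _ (line_re_ge hα t v)) (hZ _ (line_re_ge' hβ t v)) (norm_nonneg _) hZ0

/-- **The integral is the finite sum.** -/
theorem integral_pairLine {M : ℕ} {ℓ : ℝ} (hM : Real.exp (ℓ + 1 / 10) ≤ M) {α β : ℂ}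
    (hα : ‖α‖ ≤ 1 / 40) (hβ : ‖β‖ ≤ 1 / 40) (t : ℝ) :
    ∫ v, pairLine ℓ α β t v = (2 * π : ℂ) * pairSum M ℓ α β t := by
  obtain ⟨F, hF⟩ : ∃ F : ℕ × ℕ → ℝ → ℂ, F = fun (p : ℕ × ℕ) (v : ℝ) =>
      pairTerm α β t (p.1 + 1) (p.2 + 1) *
        kern (3 / 4) (Real.log ((p.1 + 1 : ℕ) : ℝ) + Real.log ((p.2 + 1 : ℕ) : ℝ) - ℓ) v :=
    ⟨_, rfl⟩
  have hcast : ∀ (k : ℕ) (z : ℂ), ((k + 1 : ℕ) : ℂ) ^ z = cexp ((Real.log (k + 1 : ℕ) : ℝ) * z) :=
    fun k z => by rw [natCast_cpow_eq_exp k.succ_pos]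
  have hsplit : ∀ (p : ℕ × ℕ) (v : ℝ), F p v =
      ((p.1 + 1 : ℕ) : ℂ) ^ (-((1 / 2 : ℂ) + t * I + α + ((3 / 4 : ℝ) + v * I))) *
      ((p.2 + 1 : ℕ) : ℂ) ^ (-((1 / 2 : ℂ) - t * I + β + ((3 / 4 : ℝ) + v * I))) *
        kern (3 / 4) (-ℓ) v := fun p v => by
    simp only [hF, pairTerm, kern, hcast]
    rw [mul_div_assoc', mul_div_assoc']
    congr 1
    simp only [← mul_assoc, ← Complex.exp_add]
    congr 2
    push_cast
    ring
  have hsum := summable_powSum (show (1 : ℝ) < 6 / 5 by norm_num)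
  have hterm : ∀ (k : ℕ) (z : ℂ), 6 / 5 ≤ z.re →
      ‖((k + 1 : ℕ) : ℂ) ^ (-z)‖ ≤ ((k : ℝ) + 1) ^ (-(6 / 5 : ℝ)) := fun k z hz => by
    rw [Nat.cast_add, Nat.cast_one, norm_add_one_cpow, neg_re]
    exact Real.rpow_le_rpow_of_exponent_le (by linarith [(Nat.cast_nonneg k : (0 : ℝ) ≤ k)])
      (by linarith)
  obtain ⟨D, hD⟩ : ∃ D, D = Real.exp (-(-ℓ) * (3 / 4) + |(3 / 4 : ℝ)| / 10) * kernelConst /
      |(3 / 4 : ℝ)| := ⟨_, rfl⟩
  have hbound : ∀ (p : ℕ × ℕ) (v : ℝ), ‖F p v‖ ≤ ((p.1 : ℝ) + 1) ^ (-(6 / 5 : ℝ)) *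
      ((p.2 : ℝ) + 1) ^ (-(6 / 5 : ℝ)) * (D * decay kernelDeg v) := fun p v => by
    rw [hsplit, norm_mul, norm_mul, hD]
    gcongr
    · exact hterm _ _ (line_re_ge hα t v)
    · exact hterm _ _ (line_re_ge' hβ t v)
    · exact norm_kern_le (by norm_num) _ v
  have hint : ∀ p, Integrable (F p) := fun p => by
    rw [hF]
    exact (integrable_kern (by norm_num) _).const_mul _
  have hS : Summable fun p : ℕ × ℕ => ∫ v, ‖F p v‖ := by
    refine Summable.of_nonneg_of_le (fun p => integral_nonneg fun v => norm_nonneg _)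
      (fun p => integral_mono (hint p).norm
        (((integrable_decay two_le_kernelDeg).const_mul D).const_mul _) (hbound p)) ?_
    simp only [integral_const_mul]
    exact (hsum.mul_of_nonneg hsum (fun n => by positivity) fun n => by positivity).mul_right _
  have hnorm : ∀ z : ℂ, 6 / 5 ≤ z.re → Summable fun k : ℕ => ‖1 / ((k : ℂ) + 1) ^ z‖ :=
    fun z hz => by
    refine hsum.of_nonneg_of_le (fun k => norm_nonneg _) fun k => le_of_eq_of_le ?_ (hterm k z hz)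
    rw [one_div, ← cpow_neg, Nat.cast_add, Nat.cast_one]
  have e : ∀ v, pairLine ℓ α β t v = ∑' p, F p v := fun v => by
    have h1 := line_re_ge hα t v
    have h2 := line_re_ge' hβ t v
    rw [pairLine, zeta_eq_tsum_one_div_nat_add_one_cpow (by linarith),
      zeta_eq_tsum_one_div_nat_add_one_cpow (by linarith),
      tsum_mul_tsum_of_summable_norm (hnorm _ h1) (hnorm _ h2), ← tsum_mul_right]
    refine tsum_congr fun p => ?_
    rw [hsplit]
    simp only [one_div, ← cpow_neg, Nat.cast_add, Nat.cast_one]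
  simp only [e]
  rw [← integral_tsum_of_summable_integral_norm hint hS, hF]
  simp only [integral_const_mul]
  have hcut : ∀ b, (∫ v, kern (3 / 4) b v) = (2 * π : ℂ) * cutoff b := fun b => by
    rw [cutoff_eq (show (0 : ℝ) < 3 / 4 by norm_num), mul_inv_cancel_left₀
      (mul_ne_zero two_ne_zero (ofReal_ne_zero.2 Real.pi_ne_zero))]
  simp only [hcut]
  rw [tsum_eq_sum (s := Finset.range M ×ˢ Finset.range M) fun p hp => ?_, pairSum,
    Finset.sum_product, Finset.mul_sum]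
  · rw [← sum_range_succ_eq_Icc]
    refine Finset.sum_congr rfl fun m _ => ?_
    rw [Finset.mul_sum, ← sum_range_succ_eq_Icc]
    exact Finset.sum_congr rfl fun n _ => by ring
  · have hzero : 1 / 10 ≤ Real.log (p.1 + 1 : ℕ) + Real.log (p.2 + 1 : ℕ) - ℓ := by
      have hk : ∀ k : ℕ, M ≤ k → ℓ + 1 / 10 ≤ Real.log (k + 1 : ℕ) := fun k hk => by
        rw [Real.le_log_iff_exp_le (Nat.cast_pos.2 k.succ_pos)]
        exact hM.trans (Nat.cast_le.2 (hk.trans (Nat.le_succ k)))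
      have h0 : ∀ k : ℕ, 0 ≤ Real.log (k + 1 : ℕ) := fun k => Real.log_natCast_nonneg _
      simp only [Finset.mem_product, Finset.mem_range, not_and_or, not_lt] at hp
      rcases hp with h | h
      · linarith [hk _ h, h0 p.2]
      · linarith [hk _ h, h0 p.1]
    rw [cutoff_eq_zero hzero, mul_zero, mul_zero]

end FA.TwistedMoment

end
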