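import Fermat.Agent.TwistedMoment.ChiPair
import Fermat.Agent.TwistedMoment.PairSum

/-!
# Oscillatory integrals over `[T, 2T]`

`∫ f e^(iλt) ≪ (sup |f| + T sup |f'|) / |λ|`, applied to the constant and to
`(t/2π)^(-α-β)` times the cutoff at the dual scale.
-/

set_option autoImplicit false

noncomputable section

namespace FA.TwistedMoment

open Complex Filter MeasureTheory Set
open FA.SelbergCLT
open scoped Topology Real

/-- **Integration by parts.** -/
theorem norm_integral_phase_le {f f' : ℝ → ℂ} {a b : ℝ} (hab : a ≤ b) {B D : ℝ}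
    (hf : ∀ t ∈ Icc a b, HasDerivAt f (f' t) t) (hf' : ContinuousOn f' (Icc a b))
    (hB : ∀ t ∈ Icc a b, ‖f t‖ ≤ B) (hD : ∀ t ∈ Icc a b, ‖f' t‖ ≤ D) {l : ℝ} (hl : l ≠ 0) :
    ‖∫ t in a..b, f t * cexp ((l : ℂ) * t * I)‖ ≤ (2 * B + D * (b - a)) / |l| := by
  obtain ⟨e, he⟩ : ∃ e : ℝ → ℂ, e = fun t : ℝ => cexp ((l : ℂ) * t * I) := ⟨_, rfl⟩
  have hlI : (l : ℂ) * I ≠ 0 := mul_ne_zero (ofReal_ne_zero.2 hl) I_ne_zero
  have hne : ∀ t, ‖e t‖ = 1 := fun t => by
    simp only [he]
    rw [← ofReal_mul, Complex.norm_exp_ofReal_mul_I]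
  have hed : ∀ t, HasDerivAt e (e t * ((l : ℂ) * I)) t := fun t => by
    rw [he]
    exact ((((hasDerivAt_id' (t : ℂ)).const_mul (l : ℂ)).mul_const I).cexp.comp_ofReal).congr_deriv
      (by ring)
  have hec : Continuous e := by rw [he]; fun_prop
  have hfc : ContinuousOn f (uIcc a b) := fun t ht =>
    (hf t (by rwa [uIcc_of_le hab] at ht)).continuousAt.continuousWithinAt
  have hf'c : ContinuousOn f' (uIcc a b) := by rwa [uIcc_of_le hab]
  have h := intervalIntegral.integral_mul_deriv_eq_deriv_mul (u := f) (v := e)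
    (fun t ht => hf t (by rwa [uIcc_of_le hab] at ht)) (fun t _ => hed t) hf'c.intervalIntegrable
    ((hec.mul continuous_const).intervalIntegrable a b)
  have e1 : (∫ t in a..b, f t * cexp ((l : ℂ) * t * I)) * ((l : ℂ) * I) =
      f b * e b - f a * e a - ∫ t in a..b, f' t * e t := by
    rw [← h, ← intervalIntegral.integral_mul_const]
    simp only [he, mul_assoc]
  rw [eq_div_iff hlI |>.2 e1, norm_div, norm_mul, norm_I, mul_one, Complex.norm_real,
    Real.norm_eq_abs]
  refine div_le_div_of_nonneg_right ((norm_sub_le _ _).trans (add_le_add ((norm_sub_le _ _).trans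
    (le_of_le_of_eq (add_le_add ?_ ?_) (two_mul B).symm)) ?_)) (abs_nonneg l)
  · rw [norm_mul, hne, mul_one]
    exact hB b ⟨hab, le_rfl⟩
  · rw [norm_mul, hne, mul_one]
    exact hB a ⟨le_rfl, hab⟩
  · refine (intervalIntegral.norm_integral_le_of_norm_le_const fun t ht => ?_).trans
      (le_of_eq (by rw [abs_of_nonneg (sub_nonneg.2 hab)]))
    rw [uIoc_of_le hab] at ht
    rw [norm_mul, hne, mul_one]
    exact hD t ⟨ht.1.le, ht.2⟩

/-- `(t/2π)^(-γ)` times the cutoff at the dual scale. -/
def dualWeight (γ : ℂ) (T x t : ℝ) : ℂ :=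
  cexp (-γ * tau t) * cutoff (x - (2 * tau t - tau T))

theorem hasDerivAt_tau {t : ℝ} (ht : t ≠ 0) : HasDerivAt tau t⁻¹ t := by
  have h := ((hasDerivAt_id' t).div_const (2 * π)).log (div_ne_zero ht (by positivity))
  exact h.congr_deriv (by field_simp)

theorem continuousOn_dualWeight (γ : ℂ) (T x : ℝ) {a b : ℝ} (ha : 0 < a) :
    ContinuousOn (dualWeight γ T x) (Icc a b) := by
  obtain ⟨D, -, hd, -⟩ := exists_cutoff_deriv
  intro t ht
  have hτ := (hasDerivAt_tau (show t ≠ 0 by linarith [ht.1])).continuousAt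
  unfold dualWeight
  exact (((continuousAt_const.mul (continuous_ofReal.continuousAt.comp' hτ)).cexp).mul
    (hd.continuous.continuousAt.comp' (continuousAt_const.sub
      ((continuousAt_const.mul hτ).sub continuousAt_const)))).continuousWithinAt

/-- **The two oscillatory integrals are `O (1 / |λ|)`.** -/
theorem exists_phase_le (A : ℝ) : ∃ C, 0 ≤ C ∧ ∀ (T x l : ℝ) (α β : ℂ), 64 ≤ T →
    Shifts A T α β → l ≠ 0 →
      ‖∫ t in T..2 * T, cexp ((l : ℂ) * t * I)‖ ≤ C / |l| ∧
      ‖∫ t in T..2 * T, dualWeight (α + β) T x t * cexp ((l : ℂ) * t * I)‖ ≤ C / |l| := by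
  obtain ⟨B, hB1, hB⟩ := exists_norm_cutoff_le
  obtain ⟨D, hD0, hd, hD⟩ := exists_cutoff_deriv
  refine ⟨2 + Real.exp (2 * A) * (3 * B + 2 * D), by positivity,
    fun T x l α β hT hs hl => ⟨?_, ?_⟩⟩
  · have h := norm_integral_phase_le (f := fun _ => (1 : ℂ)) (f' := fun _ => 0) (a := T)
      (b := 2 * T) (B := 1) (D := 0) (by linarith) (fun t _ => hasDerivAt_const t 1)
      continuousOn_const (fun t _ => by simp) (fun t _ => by simp) hl
    simp only [one_mul, zero_mul, add_zero, mul_one] at h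
    refine h.trans (div_le_div_of_nonneg_right ?_ (abs_nonneg l))
    linarith [mul_nonneg (Real.exp_pos (2 * A)).le (show 0 ≤ 3 * B + 2 * D by linarith)]
  · obtain ⟨f', hf'⟩ : ∃ f' : ℝ → ℂ, f' = fun t : ℝ =>
        cexp (-(α + β) * tau t) * (-(α + β) * ((t⁻¹ : ℝ) : ℂ)) *
          cutoff (x - (2 * tau t - tau T)) +
        cexp (-(α + β) * tau t) *
          ((-(2 * t⁻¹)) • deriv cutoff (x - (2 * tau t - tau T))) := ⟨_, rfl⟩
    have hne : ∀ t ∈ Icc T (2 * T), t ≠ 0 := fun t ht => by linarith [ht.1]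
    have hE : ∀ t ∈ Icc T (2 * T),
        ‖cexp (-(α + β) * tau t)‖ ≤ Real.exp (2 * A) := fun t ht => by
      rw [Complex.norm_exp, Real.exp_le_exp]
      have h := abs_le.1 (hs.re_mul_tau (by linarith) ht.1 ht.2)
      simp only [mul_re, neg_re, ofReal_re, ofReal_im, mul_zero, sub_zero] at h ⊢
      linarith
    have hab : ‖-(α + β)‖ ≤ 1 := by
      rw [norm_neg]
      exact (norm_add_le α β).trans (by linarith [hs.1, hs.2.1])
    refine (norm_integral_phase_le (f' := f') (B := Real.exp (2 * A) * B)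
      (D := Real.exp (2 * A) * (B + 2 * D) / T) (by linarith) (fun t ht => ?_) ?_
      (fun t ht => ?_) (fun t ht => ?_) hl).trans
        (div_le_div_of_nonneg_right ?_ (abs_nonneg l))
    · have hτ := hasDerivAt_tau (hne t ht)
      rw [hf']
      exact ((hτ.ofReal_comp.const_mul (-(α + β))).cexp.mul ((hd _).hasDerivAt.scomp t
        (((hτ.const_mul 2).sub_const (tau T)).const_sub x))).congr_deriv (by rfl)
    · rw [hf']
      intro t ht
      have hτ := (hasDerivAt_tau (hne t ht)).continuousAt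
      have hi : ContinuousAt (fun s : ℝ => s⁻¹) t := continuousAt_inv₀ (hne t ht)
      have hE' : ContinuousAt (fun s : ℝ => cexp (-(α + β) * tau s)) t :=
        (continuousAt_const.mul (continuous_ofReal.continuousAt.comp' hτ)).cexp
      have harg : ContinuousAt (fun s : ℝ => x - (2 * tau s - tau T)) t :=
        continuousAt_const.sub ((continuousAt_const.mul hτ).sub continuousAt_const)
      exact (((hE'.mul (continuousAt_const.mul (continuous_ofReal.continuousAt.comp' hi))).mul
        (hd.continuous.continuousAt.comp' harg)).add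
        (hE'.mul (((continuousAt_const.mul hi).neg).smul
          (continuous_deriv_cutoff.continuousAt.comp' harg)))).continuousWithinAt
    · rw [dualWeight, norm_mul]
      exact mul_le_mul (hE t ht) (hB _) (norm_nonneg _) (Real.exp_pos _).le
    · have ht0 : 0 < t := by linarith [ht.1]
      have hti : t⁻¹ ≤ T⁻¹ := inv_anti₀ (by linarith) ht.1
      rw [hf']
      refine (norm_add_le _ _).trans ?_
      rw [norm_mul, norm_mul, norm_mul, norm_mul, norm_smul, Complex.norm_real,
        Real.norm_of_nonneg (inv_nonneg.2 ht0.le), show ‖-(2 * t⁻¹)‖ = 2 * t⁻¹ by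
          rw [norm_neg, Real.norm_of_nonneg (show 0 ≤ 2 * t⁻¹ by positivity)]]
      refine (add_le_add (mul_le_mul (mul_le_mul (hE t ht) (mul_le_mul hab hti (by positivity)
        zero_le_one) (by positivity) (Real.exp_pos _).le) (hB _) (norm_nonneg _) ?_)
        (mul_le_mul (hE t ht) (mul_le_mul (mul_le_mul_of_nonneg_left hti zero_le_two) (hD _)
          (norm_nonneg _) ?_) (by positivity) (Real.exp_pos _).le)).trans (le_of_eq (by ring))
      · positivity
      · have : 0 < T := by linarith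
        positivity
    · rw [div_mul_eq_mul_div, show 2 * T - T = T by ring, mul_div_assoc,
        div_self (by linarith), mul_one]
      nlinarith [Real.exp_pos (2 * A)]

end FA.TwistedMoment

end
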