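import Fermat.Agent.TwistedMoment.ChiPair
import Fermat.Agent.TwistedMoment.PairSum
import Fermat.Agent.FourthMoment.SquareIdentity

/-!
# The approximate functional equation of `ζ (s + α) ζ (1 - s + β)`

For `s = 1/2 + it`, `T ≤ t ≤ 2T`, the product is the sum at the scale `log (T / 2π)` plus
`(t/2π)^(-α-β)` times the sum with shifts `-β, -α` at the dual scale, up to `O (T^(-1/4))`.
-/

set_option autoImplicit false

noncomputable section

namespace FA.TwistedMoment

open Complex Filter MeasureTheory Set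
open FA.SelbergCLT
open FA.FourthMoment (wt differentiable_wt norm_wt_le growDeg_le two_growDeg_le shift_pow_le)
open scoped Topology Real

/-- The product without its poles, times the kernel. -/
def prodPhi (l : ℝ) (α β : ℂ) (t : ℝ) (w : ℂ) : ℂ :=
  riemannZeta₁ ((1 / 2 : ℂ) + t * I + α + w) * riemannZeta₁ ((1 / 2 : ℂ) - t * I + β + w) * wt l w

theorem differentiable_prodPhi (l : ℝ) (α β : ℂ) (t : ℝ) : Differentiable ℂ (prodPhi l α β t) :=
  ((differentiable_riemannZeta₁.comp (differentiable_id.const_add _)).mul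
    (differentiable_riemannZeta₁.comp (differentiable_id.const_add _))).mul (differentiable_wt l)

theorem wt_eq_kern (l u v : ℝ) :
    wt l ((u : ℂ) + v * I) / ((u : ℂ) + v * I) = kern u (-l) v := by
  rw [kern, wt]
  push_cast
  ring_nf

variable {A T t : ℝ} {α β : ℂ}

theorem prodPhi_le {l : ℝ} (hl : 0 ≤ l) (hα : ‖α‖ ≤ 1 / 40) (hβ : ‖β‖ ≤ 1 / 40) (ht : 0 ≤ t)
    (u v : ℝ) (hu : u ∈ Icc (-(3 / 4) : ℝ) (3 / 4)) :
    ‖prodPhi l α β t ((u : ℂ) + v * I)‖ ≤ (Real.exp growDeg * (t + 4) ^ growDeg) ^ 2 *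
      (2 * kernelConst * Real.exp l) * decay (kernelDeg - 2 * growDeg) v := by
  have ar := abs_le.1 ((abs_re_le_norm α).trans hα)
  have ai := abs_le.1 ((abs_im_le_norm α).trans hα)
  have br := abs_le.1 ((abs_re_le_norm β).trans hβ)
  have bi := abs_le.1 ((abs_im_le_norm β).trans hβ)
  obtain ⟨z₁, hz₁⟩ : ∃ z : ℂ, z = (1 / 2 : ℂ) + t * I + α + ((u : ℂ) + v * I) := ⟨_, rfl⟩
  obtain ⟨z₂, hz₂⟩ : ∃ z : ℂ, z = (1 / 2 : ℂ) - t * I + β + ((u : ℂ) + v * I) := ⟨_, rfl⟩
  have hz : ∀ z : ℂ, -1 ≤ z.re → z.re ≤ 2 → |z.im| ≤ t + |v| + 1 → ‖riemannZeta₁ z‖ ≤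
      Real.exp growDeg * (t + 4) ^ growDeg * (1 + |v|) ^ growDeg := fun z h1 h2 h3 => by
    refine (norm_riemannZeta₁_le ⟨by linarith, by linarith⟩).trans ?_
    rw [mul_assoc]
    refine mul_le_mul_of_nonneg_left ?_ (Real.exp_pos _).le
    rw [← mul_pow]
    exact pow_le_pow_left₀ (by positivity) (by nlinarith [abs_nonneg v]) _
  have k1 := hz z₁ (by simp [hz₁]; linarith [hu.1]) (by simp [hz₁]; linarith [hu.2])
    (by simp [hz₁]; rw [abs_le]; constructor <;> linarith [le_abs_self v, neg_abs_le v])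
  have k2 := hz z₂ (by simp [hz₂]; linarith [hu.1]) (by simp [hz₂]; linarith [hu.2])
    (by simp [hz₂]; rw [abs_le]; constructor <;> linarith [le_abs_self v, neg_abs_le v])
  rw [prodPhi, ← hz₁, ← hz₂, norm_mul, norm_mul]
  have hw := norm_wt_le l (w := (u : ℂ) + v * I)
    (by simp [abs_le]; constructor <;> linarith [hu.1, hu.2])
  simp only [add_re, ofReal_re, mul_re, I_re, mul_zero, ofReal_im, I_im, mul_one, sub_self,
    add_zero, add_im, mul_im, zero_add] at hw
  have hK := zero_le_one.trans one_le_kernelConst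
  have he : Real.exp (l * u) ≤ Real.exp l :=
    Real.exp_le_exp.2 (mul_le_of_le_one_right hl (by linarith [hu.2]))
  refine (mul_le_mul (mul_le_mul k1 k2 (norm_nonneg _) (by positivity))
    (hw.trans (mul_le_mul_of_nonneg_right (mul_le_mul_of_nonneg_left he (by positivity))
      (decay_nonneg _ _))) (norm_nonneg _) (by positivity)).trans (le_of_eq ?_)
  rw [← pow_mul_decay (show 2 * growDeg ≤ kernelDeg by have := two_growDeg_le; omega) v]
  ring

/-- The residue at one of the two distant poles is `O (1 / T)`. -/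
theorem exists_prodPhi_pole_le : ∃ C, 0 ≤ C ∧ ∀ (T t : ℝ) (α β : ℂ), 64 ≤ T → ‖α‖ ≤ 1 / 40 →
    ‖β‖ ≤ 1 / 40 → T ≤ t → t ≤ 2 * T →
      ‖prodPhi (tau T) α β t ((1 / 2 : ℂ) - t * I - α)‖ ≤ C / T ∧
      ‖prodPhi (tau T) α β t ((1 / 2 : ℂ) + t * I - β)‖ ≤ C / T := by
  have hK := zero_le_one.trans one_le_kernelConst
  refine ⟨Real.exp growDeg * 9 ^ growDeg * (2 * kernelConst * 2 ^ (growDeg + 2)), by positivity,
    fun T t α β hT hα hβ ht ht' => ?_⟩
  have ar := abs_le.1 ((abs_re_le_norm α).trans hα)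
  have ai := abs_le.1 ((abs_im_le_norm α).trans hα)
  have br := abs_le.1 ((abs_re_le_norm β).trans hβ)
  have bi := abs_le.1 ((abs_im_le_norm β).trans hβ)
  have hT0 : 0 < T := by linarith
  have key : ∀ z w : ℂ, -4 ≤ z.re → z.re ≤ 5 → |z.im| ≤ 6 * T → |w.re| ≤ 1 → T / 2 ≤ |w.im| →
      ‖riemannZeta₁ z‖ * ‖wt (tau T) w‖ ≤
        Real.exp growDeg * 9 ^ growDeg * (2 * kernelConst * 2 ^ (growDeg + 2)) / T := by
    intro z w z1 z2 z3 w1 w2
    have hζ : ‖riemannZeta₁ z‖ ≤ Real.exp growDeg * (9 * T) ^ growDeg :=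
      (norm_riemannZeta₁_le ⟨z1, z2⟩).trans (mul_le_mul_of_nonneg_left
        (pow_le_pow_left₀ (by positivity) (by linarith) _) (Real.exp_pos _).le)
    have he : Real.exp (tau T * w.re) ≤ T := by
      have hτ := tau_bounds (T := T) (t := T) (by linarith) le_rfl (by linarith)
      refine (Real.exp_le_exp.2 ((mul_le_of_le_one_right hτ.1 ((le_abs_self _).trans w1)).trans
        hτ.2)).trans (le_of_eq (Real.exp_log hT0))
    have hd : decay kernelDeg w.im ≤ 2 ^ (growDeg + 2) / T ^ (growDeg + 2) := by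
      refine (decay_le_of_le (show growDeg + 2 ≤ kernelDeg by
        have := two_growDeg_le; omega) _).trans ?_
      rw [decay, ← inv_div, ← div_pow]
      exact inv_anti₀ (by positivity) (pow_le_pow_left₀ (by positivity) (by linarith) _)
    refine (mul_le_mul hζ ((norm_wt_le _ w1).trans (mul_le_mul (mul_le_mul_of_nonneg_left he
      (by positivity)) hd (decay_nonneg _ _) (by positivity))) (norm_nonneg _)
        (by positivity)).trans (le_of_eq ?_)
    rw [mul_pow, pow_succ T (growDeg + 1), pow_succ T growDeg]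
    field_simp
  constructor
  · rw [prodPhi, show (1 / 2 : ℂ) + t * I + α + ((1 / 2 : ℂ) - t * I - α) = 1 by ring,
      riemannZeta₁_one, one_mul, norm_mul]
    refine key _ _ (by simp; linarith) (by simp; linarith) ?_ ?_ ?_
    · simp; rw [abs_le]; constructor <;> linarith
    · simp; rw [abs_le]; constructor <;> linarith
    · simp
      refine le_trans ?_ (neg_le_abs _)
      linarith
  · rw [prodPhi, show (1 / 2 : ℂ) - t * I + β + ((1 / 2 : ℂ) + t * I - β) = 1 by ring,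
      riemannZeta₁_one, mul_one, norm_mul]
    refine key _ _ (by simp; linarith) (by simp; linarith) ?_ ?_ ?_
    · simp; rw [abs_le]; constructor <;> linarith
    · simp; rw [abs_le]; constructor <;> linarith
    · simp
      refine le_trans ?_ (le_abs_self _)
      linarith

/-- The integrand `ζ ζ e^(lw) g₀ w / w`. -/
def prodLine (l : ℝ) (α β : ℂ) (t : ℝ) (w : ℂ) : ℂ :=
  riemannZeta ((1 / 2 : ℂ) + t * I + α + w) * riemannZeta ((1 / 2 : ℂ) - t * I + β + w) *
    (wt l w / w)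

/-- **The contour.** -/
theorem product_contour (hT : 64 ≤ T) (hα : ‖α‖ ≤ 1 / 40) (hβ : ‖β‖ ≤ 1 / 40) (ht : T ≤ t) :
    Integrable (fun v : ℝ => prodLine (tau T) α β t (((-(3 / 4) : ℝ) : ℂ) + v * I)) ∧
    (∫ v : ℝ, prodLine (tau T) α β t (((3 / 4 : ℝ) : ℂ) + v * I)) -
        ∫ v : ℝ, prodLine (tau T) α β t (((-(3 / 4) : ℝ) : ℂ) + v * I) =
      2 * π * (riemannZeta ((1 / 2 : ℂ) + t * I + α) * riemannZeta ((1 / 2 : ℂ) - t * I + β) +
        (prodPhi (tau T) α β t ((1 / 2 : ℂ) - t * I - α) / ((1 / 2 : ℂ) - t * I - α) -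
          prodPhi (tau T) α β t ((1 / 2 : ℂ) + t * I - β) / ((1 / 2 : ℂ) + t * I - β)) /
        (((1 / 2 : ℂ) - t * I - α) - ((1 / 2 : ℂ) + t * I - β))) := by
  obtain ⟨p, hp⟩ : ∃ p : ℂ, p = (1 / 2 : ℂ) - t * I - α := ⟨_, rfl⟩
  obtain ⟨q, hq⟩ : ∃ q : ℂ, q = (1 / 2 : ℂ) + t * I - β := ⟨_, rfl⟩
  obtain ⟨Φ, hΦ⟩ : ∃ Φ : ℂ → ℂ, Φ = prodPhi (tau T) α β t := ⟨_, rfl⟩
  have ar := abs_le.1 ((abs_re_le_norm α).trans hα)
  have ai := abs_le.1 ((abs_im_le_norm α).trans hα)
  have br := abs_le.1 ((abs_re_le_norm β).trans hβ)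
  have bi := abs_le.1 ((abs_im_le_norm β).trans hβ)
  have hm : 2 ≤ kernelDeg - 2 * growDeg := by have := two_growDeg_le; omega
  have hbd := prodPhi_le (l := tau T) (tau_bounds (T := T) (t := T) (by linarith) le_rfl
    (by linarith)).1 hα hβ (t := t) (by linarith)
  rw [← hΦ] at hbd
  have hd : Differentiable ℂ Φ := hΦ ▸ differentiable_prodPhi _ _ _ _
  have hp1 : -(3 / 4) < p.re ∧ p.re < 3 / 4 := by simp [hp]; constructor <;> linarith
  have hq1 : -(3 / 4) < q.re ∧ q.re < 3 / 4 := by simp [hq]; constructor <;> linarith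
  obtain ⟨ip, ip', ep⟩ := pole_contour hd (by norm_num) hm hbd hp1.1 hp1.2
  obtain ⟨iq, iq', eq'⟩ := pole_contour hd (by norm_num) hm hbd hq1.1 hq1.2
  obtain ⟨i0, i0', e0⟩ := pole_contour hd (by norm_num) hm hbd (ρ := 0) (by simp) (by simp)
  simp only [sub_zero] at i0 i0' e0
  have hp0 : p ≠ 0 := fun h => by
    have := congrArg Complex.im h
    simp [hp] at this
    linarith
  have hq0 : q ≠ 0 := fun h => by
    have := congrArg Complex.im h
    simp [hq] at this
    linarith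
  have hpq : p - q ≠ 0 := fun h => by
    have := congrArg Complex.im h
    simp [hp, hq] at this
    linarith
  have hF : ∀ w : ℂ, w ≠ 0 → w ≠ p → w ≠ q → prodLine (tau T) α β t w =
      (p - q)⁻¹ * (p⁻¹ * (Φ w / (w - p) - Φ w / w) - q⁻¹ * (Φ w / (w - q) - Φ w / w)) := by
    intro w h0 h1 h2
    have e1 : (1 / 2 : ℂ) + t * I + α + w - 1 = w - p := by rw [hp]; ring
    have e2 : (1 / 2 : ℂ) - t * I + β + w - 1 = w - q := by rw [hq]; ring
    have n1 := sub_ne_zero.2 h1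
    have n2 := sub_ne_zero.2 h2
    rw [prodLine, riemannZeta_eq_of_ne_one (fun h => n1 (by rw [← e1, h, sub_self])),
      riemannZeta_eq_of_ne_one (fun h => n2 (by rw [← e2, h, sub_self])), e1, e2, hΦ, prodPhi]
    field_simp
    ring
  have hline : ∀ u : ℝ, u ≠ 0 → u ≠ p.re → u ≠ q.re → ∀ v : ℝ,
      prodLine (tau T) α β t ((u : ℂ) + v * I) = (p - q)⁻¹ *
        (p⁻¹ * (Φ ((u : ℂ) + v * I) / ((u : ℂ) + v * I - p) -
          Φ ((u : ℂ) + v * I) / ((u : ℂ) + v * I)) -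
        q⁻¹ * (Φ ((u : ℂ) + v * I) / ((u : ℂ) + v * I - q) -
          Φ ((u : ℂ) + v * I) / ((u : ℂ) + v * I))) := fun u h0 h1 h2 v =>
    hF _ (line_ne_zero h0 v) (fun h => h1 (by simpa using congrArg Complex.re h))
      fun h => h2 (by simpa using congrArg Complex.re h)
  have hl := hline (-(3 / 4)) (by norm_num) hp1.1.ne hq1.1.ne
  have hr := hline (3 / 4) (by norm_num) hp1.2.ne' hq1.2.ne'
  refine ⟨((((ip.sub i0).const_mul p⁻¹).sub ((iq.sub i0).const_mul q⁻¹)).const_mul (p - q)⁻¹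
    ).congr (Eventually.of_forall fun v => (hl v).symm), ?_⟩
  have hval : Φ 0 = p * q *
      (riemannZeta ((1 / 2 : ℂ) + t * I + α) * riemannZeta ((1 / 2 : ℂ) - t * I + β)) := by
    have e1 : (1 / 2 : ℂ) + t * I + α - 1 = -p := by rw [hp]; ring
    have e2 : (1 / 2 : ℂ) - t * I + β - 1 = -q := by rw [hq]; ring
    rw [riemannZeta_eq_of_ne_one (fun h => hp0 (by rw [h, sub_self] at e1; linear_combination e1)),
      riemannZeta_eq_of_ne_one (fun h => hq0 (by rw [h, sub_self] at e2; linear_combination e2)),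
      e1, e2, hΦ, prodPhi, wt]
    simp only [add_zero, mul_zero, Complex.exp_zero, g₀_zero, mul_one]
    field_simp
  simp only [hl, hr]
  rw [integral_const_mul, integral_const_mul,
    integral_sub ((ip'.sub' i0').const_mul _) ((iq'.sub' i0').const_mul _),
    integral_sub ((ip.sub' i0).const_mul _) ((iq.sub' i0).const_mul _),
    integral_const_mul, integral_const_mul, integral_const_mul, integral_const_mul,
    integral_sub ip' i0', integral_sub iq' i0', integral_sub ip i0, integral_sub iq i0,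
    ← hp, ← hq, ← hΦ, show riemannZeta ((1 / 2 : ℂ) + t * I + α) *
      riemannZeta ((1 / 2 : ℂ) - t * I + β) = Φ 0 / (p * q) by rw [hval]; field_simp]
  rw [sub_eq_iff_eq_add] at ep eq' e0
  rw [ep, eq', e0]
  generalize (∫ v : ℝ, Φ (((-(3 / 4) : ℝ) : ℂ) + (v : ℂ) * I) /
      ((((-(3 / 4) : ℝ) : ℂ) + (v : ℂ) * I) - p)) = Xp
  generalize (∫ v : ℝ, Φ (((-(3 / 4) : ℝ) : ℂ) + (v : ℂ) * I) /
      ((((-(3 / 4) : ℝ) : ℂ) + (v : ℂ) * I) - q)) = Xq
  generalize (∫ v : ℝ, Φ (((-(3 / 4) : ℝ) : ℂ) + (v : ℂ) * I) /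
      (((-(3 / 4) : ℝ) : ℂ) + (v : ℂ) * I)) = Xz
  field_simp
  ring

/-- The reflected integrand. -/
theorem prodLine_neg (l : ℝ) (hα : ‖α‖ ≤ 1 / 40) (hβ : ‖β‖ ≤ 1 / 40) (t v : ℝ) :
    prodLine l α β t (((-(3 / 4) : ℝ) : ℂ) + ((-v : ℝ) : ℂ) * I) =
      -(chiPair α β t ((3 / 4 : ℝ) + v * I) *
        (riemannZeta ((1 / 2 : ℂ) - t * I + -α + ((3 / 4 : ℝ) + v * I)) *
          riemannZeta ((1 / 2 : ℂ) + t * I + -β + ((3 / 4 : ℝ) + v * I))) * kern (3 / 4) l v) := by
  have ar := abs_le.1 ((abs_re_le_norm α).trans hα)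
  have br := abs_le.1 ((abs_re_le_norm β).trans hβ)
  obtain ⟨w, hw⟩ : ∃ w : ℂ, w = ((3 / 4 : ℝ) : ℂ) + v * I := ⟨_, rfl⟩
  rw [← hw, show ((-(3 / 4) : ℝ) : ℂ) + ((-v : ℝ) : ℂ) * I = -w by rw [hw]; push_cast; ring]
  have h1 : ((1 / 2 : ℂ) + t * I + α + -w).re < 0 := by simp [hw]; linarith
  have h2 : ((1 / 2 : ℂ) - t * I + β + -w).re < 0 := by simp [hw]; linarith
  rw [prodLine, riemannZeta_eq_chiFac_mul (z := (1 / 2 : ℂ) + t * I + α + -w)
      (fun h => by rw [h, zero_re] at h1; exact lt_irrefl _ h1) (by linarith),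
    riemannZeta_eq_chiFac_mul (z := (1 / 2 : ℂ) - t * I + β + -w)
      (fun h => by rw [h, zero_re] at h2; exact lt_irrefl _ h2) (by linarith),
    show (1 : ℂ) - ((1 / 2 : ℂ) + t * I + α + -w) = (1 / 2 : ℂ) - t * I + -α + w by ring,
    show (1 : ℂ) - ((1 / 2 : ℂ) - t * I + β + -w) = (1 / 2 : ℂ) + t * I + -β + w by ring,
    wt, g₀_neg, chiPair, kern, ← hw]
  simp only [← sub_eq_add_neg]
  rw [div_neg, show (-(l : ℂ)) * w = (l : ℂ) * -w by ring]
  ring

/-- **The approximate functional equation.** -/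
theorem exists_product_afe (A : ℝ) : ∃ C, 0 ≤ C ∧ ∀ (T t : ℝ) (α β : ℂ) (M : ℕ), 64 ≤ T →
    Shifts A T α β → T ≤ t → t ≤ 2 * T → T - 1 ≤ M →
    ‖riemannZeta ((1 / 2 : ℂ) + t * I + α) * riemannZeta ((1 / 2 : ℂ) - t * I + β) -
        (pairSum M (tau T) α β t +
          cexp (-(α + β) * tau t) * pairSum M (2 * tau t - tau T) (-β) (-α) t)‖ ≤
      C * T ^ (-(1 / 4) : ℝ) := by
  obtain ⟨C₁, hC₁, hchi⟩ := exists_chiPair_sub_le A
  obtain ⟨C₂, hC₂, hpole⟩ := exists_prodPhi_pole_le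
  obtain ⟨Z, hZ0, hZ⟩ := exists_norm_zeta_le
  obtain ⟨J, hJ⟩ : ∃ J, J = ∫ v, decay (kernelDeg - 18) v := ⟨_, rfl⟩
  have hJ0 : 0 ≤ J := hJ ▸ integral_nonneg fun v => decay_nonneg _ v
  have h18 : 18 ≤ kernelDeg := by have := growDeg_add_le; omega
  have hd18 : 2 ≤ kernelDeg - 18 := by have := growDeg_add_le; omega
  have hK := zero_le_one.trans one_le_kernelConst
  refine ⟨C₁ * Z * Z * (20 * kernelConst) * J + 4 * C₂, by positivity,
    fun T t α β M hT hs ht ht' hM => ?_⟩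
  obtain ⟨hα, hβ, -, -⟩ := id hs
  have hπ := Real.pi_gt_three
  have hπ' := Real.pi_lt_d2
  have hT0 : 0 < T := by linarith
  obtain ⟨l, hl⟩ : ∃ l, l = tau T := ⟨_, rfl⟩
  have hexpl : Real.exp l = T / (2 * π) := by rw [hl, tau, Real.exp_log (by positivity)]
  obtain ⟨hli, hcont⟩ := product_contour hT hα hβ ht
  rw [← hl] at hli hcont
  have e10 : Real.exp (1 / 10) ≤ 1.2 :=
    (Real.exp_bound_div_one_sub_of_interval (by norm_num) (by norm_num)).trans (by norm_num)
  have hM1 : Real.exp (l + 1 / 10) ≤ M := by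
    rw [Real.exp_add, hexpl]
    refine le_trans ?_ hM
    refine (mul_le_mul_of_nonneg_left e10 (by positivity)).trans ?_
    rw [div_mul_eq_mul_div, div_le_iff₀ (by positivity)]
    nlinarith
  have hexp2 : Real.exp (2 * tau t - l) ≤ 4 * (T / (2 * π)) := by
    rw [Real.exp_sub, hexpl, two_mul, Real.exp_add, tau, Real.exp_log (by
      have : 0 < t := by linarith
      positivity), div_le_iff₀ (by positivity)]
    have h1 : t / (2 * π) ≤ 2 * (T / (2 * π)) := by
      rw [mul_div_assoc']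
      exact div_le_div_of_nonneg_right ht' (by positivity)
    have h0 : 0 ≤ t / (2 * π) := div_nonneg (by linarith) (by positivity)
    nlinarith
  have hM2 : Real.exp (2 * tau t - l + 1 / 10) ≤ M := by
    rw [Real.exp_add]
    refine le_trans ?_ hM
    refine (mul_le_mul hexp2 e10 (Real.exp_pos _).le (by positivity)).trans ?_
    rw [mul_div_assoc', div_mul_eq_mul_div, div_le_iff₀ (by positivity)]
    nlinarith
  have hright : (∫ v : ℝ, prodLine l α β t (((3 / 4 : ℝ) : ℂ) + v * I)) =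
      (2 * π : ℂ) * pairSum M l α β t := by
    rw [← integral_pairLine hM1 hα hβ t]
    refine integral_congr_ae (Eventually.of_forall fun v => ?_)
    simp only [prodLine, pairLine, wt_eq_kern]
  obtain ⟨G, hG⟩ : ∃ G : ℝ → ℂ, G = fun v : ℝ => chiPair α β t ((3 / 4 : ℝ) + v * I) *
      (riemannZeta ((1 / 2 : ℂ) - t * I + -α + ((3 / 4 : ℝ) + v * I)) *
        riemannZeta ((1 / 2 : ℂ) + t * I + -β + ((3 / 4 : ℝ) + v * I))) * kern (3 / 4) l v :=
    ⟨_, rfl⟩
  have hGeq : ∀ v, prodLine l α β t (((-(3 / 4) : ℝ) : ℂ) + ((-v : ℝ) : ℂ) * I) = -G v :=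
      fun v => by
    rw [prodLine_neg l hα hβ t v, hG]
  have hGi : Integrable G := (hli.comp_neg.neg).congr (Eventually.of_forall fun v => by
    rw [Pi.neg_apply, hGeq, neg_neg])
  have hleft : (∫ v : ℝ, prodLine l α β t (((-(3 / 4) : ℝ) : ℂ) + v * I)) = -∫ v, G v := by
    rw [← integral_neg_eq_self (fun v : ℝ => prodLine l α β t (((-(3 / 4) : ℝ) : ℂ) + v * I)),
      ← integral_neg]
    exact integral_congr_ae (Eventually.of_forall hGeq)
  obtain ⟨c, hc⟩ : ∃ c : ℂ, c = cexp (-(α + β) * tau t) := ⟨_, rfl⟩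
  obtain ⟨H, hH⟩ : ∃ H : ℝ → ℂ,
      H = fun v : ℝ => c * pairLine (2 * tau t - l) (-β) (-α) t v := ⟨_, rfl⟩
  have hHi : Integrable H := hH ▸ (integrable_pairLine _ (by rwa [norm_neg]) (by rwa [norm_neg])
    t).const_mul c
  have hHint : (∫ v, H v) = (2 * π : ℂ) * (c * pairSum M (2 * tau t - l) (-β) (-α) t) := by
    rw [hH, integral_const_mul, integral_pairLine hM2 (by rwa [norm_neg]) (by rwa [norm_neg]) t]
    ring
  have hHv : ∀ v, H v = cexp ((2 * ((3 / 4 : ℝ) + (v : ℂ) * I) - (α + β)) * tau t) *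
      (riemannZeta ((1 / 2 : ℂ) - t * I + -α + ((3 / 4 : ℝ) + v * I)) *
        riemannZeta ((1 / 2 : ℂ) + t * I + -β + ((3 / 4 : ℝ) + v * I))) * kern (3 / 4) l v :=
    fun v => by
    have e : c * cexp (-((-(2 * tau t - l) : ℝ) : ℂ) * ((3 / 4 : ℝ) + v * I)) =
        cexp ((2 * ((3 / 4 : ℝ) + (v : ℂ) * I) - (α + β)) * tau t) *
          cexp (-(l : ℂ) * ((3 / 4 : ℝ) + v * I)) := by
      rw [hc, ← Complex.exp_add, ← Complex.exp_add]
      congr 1
      push_cast
      ring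
    simp only [hH, pairLine, kern]
    linear_combination (riemannZeta ((1 / 2 : ℂ) - t * I + -α + ((3 / 4 : ℝ) + v * I)) *
      riemannZeta ((1 / 2 : ℂ) + t * I + -β + ((3 / 4 : ℝ) + v * I)) *
      g₀ ((3 / 4 : ℝ) + v * I) / ((3 / 4 : ℝ) + v * I)) * e
  have hsT : √T * Real.exp (-l * (3 / 4)) ≤ 8 * T ^ (-(1 / 4) : ℝ) := by
    rw [Real.exp_mul, Real.exp_neg, hexpl, inv_div, Real.div_rpow (by positivity) hT0.le,
      Real.sqrt_eq_rpow, mul_div_left_comm, ← Real.rpow_sub hT0,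
      show (1 / 2 : ℝ) - 3 / 4 = -(1 / 4) by norm_num]
    refine mul_le_mul_of_nonneg_right ?_ (by positivity)
    refine (Real.rpow_le_self_of_one_le (by linarith) (by norm_num)).trans ?_
    linarith
  have hdiff : ‖(∫ v, G v) - ∫ v, H v‖ ≤
      C₁ * Z * Z * (20 * kernelConst) * J * T ^ (-(1 / 4) : ℝ) := by
    rw [← integral_sub hGi hHi]
    refine (norm_integral_le_of_norm_le ((integrable_decay hd18).const_mul
      (C₁ * Z * Z * (20 * kernelConst) * T ^ (-(1 / 4) : ℝ)))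
      (Eventually.of_forall fun v => ?_)).trans (le_of_eq ?_)
    · rw [hG, hHv]
      simp only []
      rw [← sub_mul, ← sub_mul, norm_mul, norm_mul]
      have hk := norm_kern_le (show (3 / 4 : ℝ) ≠ 0 by norm_num) l v
      have he : Real.exp (|(3 / 4 : ℝ)| / 10) ≤ 15 / 8 := by
        refine (Real.exp_le_exp.2 (show |(3 / 4 : ℝ)| / 10 ≤ 1 / 10 by norm_num)).trans ?_
        linarith
      rw [Real.exp_add] at hk
      refine (mul_le_mul (mul_le_mul (hchi T t α β hT hs ht ht' v) ((norm_mul_le _ _).trans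
        (mul_le_mul (hZ _ (line_re_ge' (by rwa [norm_neg]) t v))
          (hZ _ (line_re_ge (by rwa [norm_neg]) t v)) (norm_nonneg _) hZ0)) (norm_nonneg _)
            (by positivity)) hk (norm_nonneg _) (by positivity)).trans ?_
      rw [← pow_mul_decay h18 v, abs_of_pos (show (0 : ℝ) < 3 / 4 by norm_num)] at *
      have hd := decay_nonneg kernelDeg v
      calc C₁ * √T * (1 + |v|) ^ 18 * (Z * Z) *
            (Real.exp (-l * (3 / 4)) * Real.exp (3 / 4 / 10) * kernelConst / (3 / 4) *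
              decay kernelDeg v)
          = C₁ * Z * Z * kernelConst * (4 / 3 * Real.exp (3 / 4 / 10)) *
              (√T * Real.exp (-l * (3 / 4))) * ((1 + |v|) ^ 18 * decay kernelDeg v) := by ring
        _ ≤ C₁ * Z * Z * kernelConst * (5 / 2) * (8 * T ^ (-(1 / 4) : ℝ)) *
              ((1 + |v|) ^ 18 * decay kernelDeg v) := by gcongr; linarith
        _ = _ := by ring
    · rw [integral_const_mul, ← hJ]
      ring
  obtain ⟨R, hR⟩ : ∃ R : ℂ, R = (prodPhi l α β t ((1 / 2 : ℂ) - t * I - α) /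
      ((1 / 2 : ℂ) - t * I - α) - prodPhi l α β t ((1 / 2 : ℂ) + t * I - β) /
        ((1 / 2 : ℂ) + t * I - β)) /
      (((1 / 2 : ℂ) - t * I - α) - ((1 / 2 : ℂ) + t * I - β)) := ⟨_, rfl⟩
  have hRb : ‖R‖ ≤ 2 * C₂ * T ^ (-(1 / 4) : ℝ) := by
    have ai := abs_le.1 ((abs_im_le_norm α).trans hα)
    have bi := abs_le.1 ((abs_im_le_norm β).trans hβ)
    obtain ⟨k1, k2⟩ := hpole T t α β hT hα hβ ht ht'
    rw [← hl] at k1 k2
    have n1 : 1 ≤ ‖(1 / 2 : ℂ) - t * I - α‖ := by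
      refine le_trans ?_ (abs_im_le_norm _)
      simp
      exact le_trans (by linarith) (neg_le_abs _)
    have n2 : 1 ≤ ‖(1 / 2 : ℂ) + t * I - β‖ := by
      refine le_trans ?_ (abs_im_le_norm _)
      simp
      exact le_trans (by linarith) (le_abs_self _)
    have n3 : 1 ≤ ‖((1 / 2 : ℂ) - t * I - α) - ((1 / 2 : ℂ) + t * I - β)‖ := by
      refine le_trans ?_ (abs_im_le_norm _)
      simp
      exact le_trans (by linarith) (neg_le_abs _)
    rw [hR, norm_div]
    refine (div_le_self (norm_nonneg _) n3).trans ((norm_sub_le _ _).trans ?_)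
    rw [norm_div, norm_div]
    refine (add_le_add ((div_le_self (norm_nonneg _) n1).trans k1)
      ((div_le_self (norm_nonneg _) n2).trans k2)).trans ?_
    rw [show C₂ / T + C₂ / T = 2 * C₂ * T ^ (-1 : ℝ) by rw [Real.rpow_neg_one]; ring]
    exact mul_le_mul_of_nonneg_left (Real.rpow_le_rpow_of_exponent_le (by linarith) (by norm_num))
      (by positivity)
  have h2π : (2 * π : ℂ) ≠ 0 := mul_ne_zero two_ne_zero (ofReal_ne_zero.2 Real.pi_ne_zero)
  rw [hright, hleft, ← hR] at hcont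
  have key : riemannZeta ((1 / 2 : ℂ) + t * I + α) * riemannZeta ((1 / 2 : ℂ) - t * I + β) -
      (pairSum M l α β t + c * pairSum M (2 * tau t - l) (-β) (-α) t) =
      (2 * π : ℂ)⁻¹ * ((∫ v, G v) - ∫ v, H v) - R := by
    rw [hHint]
    generalize riemannZeta ((1 / 2 : ℂ) + t * I + α) *
      riemannZeta ((1 / 2 : ℂ) - t * I + β) = P at hcont ⊢
    field_simp
    linear_combination -hcont
  rw [← hl, ← hc, key]
  refine (norm_sub_le _ _).trans ?_
  rw [norm_mul, norm_inv, norm_mul, Complex.norm_two, norm_real,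
    Real.norm_of_nonneg Real.pi_pos.le]
  have h1 := mul_le_of_le_one_left (norm_nonneg ((∫ v, G v) - ∫ v, H v))
    (inv_le_one_of_one_le₀ (show 1 ≤ 2 * π by linarith))
  have h2 : 0 ≤ C₂ * T ^ (-(1 / 4) : ℝ) := by positivity
  linarith

end FA.TwistedMoment

end
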